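import Fermat.Agent.Mazur.Descent.Structure.Component
import Fermat.Agent.LocalP.Minkowski
import Fermat.Agent.TW.Places

/-!
# The cyclotomic character on inertia, and its Hecke counterpart
-/

set_option autoImplicit false

noncomputable section

open ModularCurve FermatAgent.GalRep FermatAgent.ModCurveTorsion
open scoped Pointwise

namespace FermatAgent.Mazur.Descent

local notation "Qb" => AlgebraicClosure ℚ
local notation "GQ" => AlgebraicClosure ℚ ≃ₐ[ℚ] AlgebraicClosure ℚ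

variable {l : ℕ} [hl : Fact l.Prime] {A : ValuationSubring Qb}

/-- The reduction of the cyclotomic character modulo `l`. -/
theorem dvd_cycChar_sub_cycloChar (σ : GQ) :
    (l : ℤ_[l]) ∣ cycChar l σ - ((cycloChar l σ : ZMod l).val : ℕ) := by
  rw [← pow_one (l : ℤ_[l])]
  refine pow_dvd_cycChar_sub l fun ζ hζ => ?_
  rw [pow_one] at hζ
  by_cases h1 : ζ = 1
  · subst h1
    rw [map_one, one_pow]
  · refine cycloChar_spec (IsPrimitiveRoot.iff_def _ _ |>.2 ⟨hζ, fun k hk => ?_⟩) σ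
    have hd : orderOf ζ ∣ l := orderOf_dvd_of_pow_eq_one hζ
    rcases (Nat.dvd_prime hl.out).1 hd with h | h
    · exact absurd (orderOf_eq_one_iff.1 h) h1
    · exact h ▸ orderOf_dvd_of_pow_eq_one hk

/-- Inertia at a place over `l` reaches every value of the character at finite level. -/
theorem exists_inertia_cycChar (hA : A.LiesOverPrime l) (n c : ℕ) (hc : ¬ l ∣ c) :
    ∃ σ ∈ A.inertiaSubgroupIn ℚ, (l : ℤ_[l]) ^ n ∣ cycChar l σ - c := by
  let χ : GQ →* (ZMod (l ^ n))ˣ :=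
    ((PadicInt.toZModPow n).toMonoidHom.comp (cycChar l)).toHomUnits
  have hval : ∀ σ, (χ σ : ZMod (l ^ n)) = PadicInt.toZModPow n (cycChar l σ) := fun σ => rfl
  set H := (A.inertiaSubgroupIn ℚ).map χ with hH
  let ψ : GQ →* (ZMod (l ^ n))ˣ ⧸ H := (QuotientGroup.mk' H).comp χ
  have hψ : ∀ σ, ψ σ = 1 ↔ χ σ ∈ H := fun σ => QuotientGroup.eq_one_iff _
  have hfin : GaloisFactorsThroughFiniteLevel ψ := by
    obtain ⟨L, hL, hL'⟩ := exists_level_cycChar l n
    refine ⟨L, hL, fun σ hσ => ?_⟩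
    have h1 : χ σ = 1 := Units.ext (by
      have h2 := hL' σ hσ
      rw [← Ideal.mem_span_singleton, ← PadicInt.ker_toZModPow, RingHom.mem_ker, map_sub, map_one,
        sub_eq_zero] at h2
      exact h2)
    show QuotientGroup.mk' H (χ σ) = 1
    rw [h1, map_one]
  have hI : ∀ q : ℕ, q.Prime → ∀ B : ValuationSubring Qb, B.LiesOverPrime q →
      ∀ σ ∈ B.inertiaSubgroupIn ℚ, ψ σ = 1 := by
    intro q hq B hB σ hσ
    rw [hψ]
    rcases eq_or_ne q l with rfl | hql
    · obtain ⟨g, rfl⟩ := TW.exists_smul_eq hq hB hA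
      refine ⟨g * σ * g⁻¹, TW.conj_mem_inertia hσ, ?_⟩
      rw [map_mul, map_mul, mul_right_comm, ← map_mul, mul_inv_cancel, map_one, one_mul]
    · convert one_mem H
      refine Units.ext ?_
      rw [hval, cycChar_inertia l hq hql hB hσ, map_one, Units.val_one]
  have h1 := LocalP.eq_one_of_unramified ψ hfin hI
  have hrange : ∀ σ, χ σ ∈ H := fun σ => (hψ σ).1 (by rw [h1]; rfl)
  suffices h : ∀ c : ℕ, ¬ l ∣ c → ∃ u ∈ H, (u : ZMod (l ^ n)) = c by
    obtain ⟨u, hu, hu'⟩ := h c hc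
    obtain ⟨σ, hσ, rfl⟩ := hu
    refine ⟨σ, hσ, ?_⟩
    rw [← Ideal.mem_span_singleton, ← PadicInt.ker_toZModPow, RingHom.mem_ker, map_sub,
      map_natCast, ← hval, hu', sub_self]
  intro c
  induction c using induction_on_primes with
  | zero => exact fun h => absurd (dvd_zero l) h
  | one => exact fun _ => ⟨1, one_mem H, by simp⟩
  | prime_mul q a hq ih =>
    intro h
    have hql : q ≠ l := fun e => h (e ▸ dvd_mul_right q a)
    obtain ⟨u, hu, hu'⟩ := ih fun e => h (e.mul_left q)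
    obtain ⟨B, τ, hB, hτ⟩ := RT.exists_place_isFrobeniusAt hq
    refine ⟨χ τ * u, mul_mem (hrange τ) hu, ?_⟩
    rw [Units.val_mul, hu', hval, cycChar_frobenius l hq hql hB hτ, map_natCast, Nat.cast_mul]

/-- An element of inertia on which the character has infinite order. -/
theorem exists_inertia_infinite_order (hA : A.LiesOverPrime l) :
    ∃ σ ∈ A.inertiaSubgroupIn ℚ, cycChar l σ ≠ 1 ∧
      Function.Injective fun k : ℕ => ((cycChar l σ : ℚ_[l]) ^ k) := by
  obtain ⟨σ, hσ, hdvd⟩ := exists_inertia_cycChar hA 3 (1 + l ^ 2)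
    (fun h => hl.out.not_dvd_one ((Nat.dvd_add_left (dvd_pow_self l two_ne_zero)).1 h))
  set u := cycChar l σ
  have hu : (l : ℤ_[l]) ^ 2 ∣ u - 1 := by
    have := dvd_add ((pow_dvd_pow _ (by norm_num : 2 ≤ 3)).trans hdvd) (dvd_refl ((l : ℤ_[l]) ^ 2))
    push_cast at this
    simpa [sub_add_eq_sub_sub] using this
  have hu1 : u ≠ 1 := fun h => by
    have h3 : (l : ℤ_[l]) ^ 3 ∣ (l : ℤ_[l]) ^ 2 := by
      rw [h] at hdvd
      push_cast at hdvd
      rwa [sub_add_eq_sub_sub, sub_self, zero_sub, dvd_neg] at hdvd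
    have hl0 : (l : ℤ_[l]) ≠ 0 := Nat.cast_ne_zero.2 hl.out.ne_zero
    have := (pow_dvd_pow_iff hl0 PadicInt.prime_p.not_isUnit).1 h3
    omega
  have hfin : ¬ IsOfFinOrder u := by
    intro hf
    have ho : orderOf u ≠ 1 := fun h => hu1 (orderOf_eq_one_iff.1 h)
    obtain ⟨q, hq, hqd⟩ := Nat.exists_prime_and_dvd ho
    set v := u ^ (orderOf u / q)
    have hv1 : v ≠ 1 := pow_ne_one_of_lt_orderOf
      (Nat.div_pos (Nat.le_of_dvd hf.orderOf_pos hqd) hq.pos).ne'
      (Nat.div_lt_self hf.orderOf_pos hq.one_lt)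
    have hvq : v ^ q = 1 := by rw [← pow_mul, Nat.div_mul_cancel hqd, pow_orderOf_eq_one]
    have hv : (l : ℤ_[l]) ^ 2 ∣ v - 1 := hu.trans (sub_one_dvd_pow_sub_one u _)
    have hs : ∑ i ∈ Finset.range q, v ^ i = 0 := by
      have := geom_sum_mul v q
      rw [hvq, sub_self] at this
      exact (mul_eq_zero.1 this).resolve_right (sub_ne_zero.2 hv1)
    have h2 : (l : ℤ_[l]) ^ 2 ∣ (q : ℤ_[l]) := by
      have : (l : ℤ_[l]) ^ 2 ∣ ∑ i ∈ Finset.range q, (v ^ i - 1) :=
        Finset.dvd_sum fun i _ => hv.trans (sub_one_dvd_pow_sub_one v i)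
      rwa [Finset.sum_sub_distrib, hs, Finset.sum_const, Finset.card_range, nsmul_one, zero_sub,
        dvd_neg] at this
    rw [← Int.cast_natCast (R := ℤ_[l]) q, PadicInt.pow_p_dvd_int_iff] at h2
    have h3 : l ^ 2 ∣ q := by exact_mod_cast h2
    rcases (Nat.dvd_prime hq).1 h3 with h | h
    · exact absurd h (Nat.one_lt_pow two_ne_zero hl.out.one_lt).ne'
    · exact (Nat.Prime.not_prime_pow le_rfl) (h ▸ hq)
  have hu0 : IsUnit u := IsUnit.of_mul_eq_one (cycChar l σ⁻¹) (by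
    rw [← map_mul, mul_inv_cancel, map_one])
  refine ⟨σ, hσ, hu1, fun i j h => ?_⟩
  have h' : u ^ i = u ^ j := PadicInt.ext (by rw [PadicInt.coe_pow, PadicInt.coe_pow]; exact h)
  wlog hij : i ≤ j generalizing i j
  · exact (this j i h.symm h'.symm (le_of_not_ge hij)).symm
  by_contra hne
  refine hfin (isOfFinOrder_iff_pow_eq_one.2 ⟨j - i, by omega, ?_⟩)
  rw [← Nat.add_sub_cancel' hij, pow_add] at h'
  exact ((hu0.pow i).mul_eq_left).1 h'.symm

/-- The value of `powTrace` at `1 + c` and `c`. -/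
theorem powTrace_one_add {R : Type*} [CommRing R] (c : R) (m : ℕ) :
    powTrace (1 + c) c m = 1 + c ^ m := by
  have := pow_add_pow_eq_powTrace (RingHom.id R) (1 + c) c (x := 1) (y := c) rfl (one_mul c)
    (mul_one c) m
  rw [one_pow] at this
  exact this.symm

variable {p : ℕ} [NeZero p] [hp : Fact p.Prime]

/-- An approximation of `ρ σ + ω σ ρ σ⁻¹` by Hecke operators has value `1 + ω σ` at the Eisenstein
character. -/
theorem exists_approx_value (hln : l ∣ eisensteinNumerator p) (σ : GQ) (n : ℕ) :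
    ∃ t : HT p, MatCongr n (latGal p l σ + cycChar l σ • latGal p l σ⁻¹) (latHecke p l t) ∧
      latEisChar hln t = 1 + (cycloChar l σ : ZMod l) := by
  classical
  obtain ⟨U, hU, hUc⟩ := exists_level_xMat (tateData p l) n
  obtain ⟨L, hL, hLc⟩ := exists_level_cycChar l 1
  obtain ⟨q, hq, hqS, B, hB, τ, hτ, m, hm⟩ :=
    frobDense (U ⊔ L) (IntermediateField.finiteDimensional_sup U L) {p, l} σ
  simp only [Finset.mem_insert, Finset.mem_singleton, not_or] at hqS
  have hqp : ¬ q ∣ p := fun h => hqS.1 ((Nat.prime_dvd_prime_iff_eq hq hp.out).1 h)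
  have hqS' : q ∉ ({p} : Set ℕ) := fun h => hqS.1 (Set.mem_singleton_iff.1 h)
  refine ⟨powTrace (CuspForm.heckeAlgebra.T hq hqp hqS') (q : HT p) m, fun i j => ?_, ?_⟩
  · have h1 := hUc σ (τ ^ m) (fun a ha => hm a (le_sup_left (b := L) ha)) i j
    rw [xMat_frobenius_pow (tateData p l) hq hqp hqS' hqS.2 hB hτ m, Matrix.sub_apply] at h1
    exact h1
  · rw [map_powTrace, latEisChar_T, map_natCast, powTrace_one_add]
    congr 1
    have h1 : (l : ℤ_[l]) ∣ cycChar l σ - cycChar l (τ ^ m) := by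
      have h2 := hLc ((τ ^ m)⁻¹ * σ) fun a ha => by
        rw [AlgEquiv.mul_apply, hm a (le_sup_right (a := U) ha), ← AlgEquiv.mul_apply,
          inv_mul_cancel, AlgEquiv.one_apply]
      rw [pow_one] at h2
      have h3 := h2.mul_left (cycChar l (τ ^ m))
      rwa [mul_sub, mul_one, ← map_mul, mul_inv_cancel_left] at h3
    rw [map_pow, cycChar_frobenius l hq hqS.2 hB hτ] at h1
    have h4 := dvd_sub (dvd_cycChar_sub_cycloChar (l := l) σ) h1
    rw [sub_sub_sub_cancel_left, ← Nat.cast_pow, ← Int.cast_natCast (R := ℤ_[l]) (q ^ m),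
      ← Int.cast_natCast (R := ℤ_[l]) ((cycloChar l σ : ZMod l).val), ← Int.cast_sub,
      ← pow_one (l : ℤ_[l]), PadicInt.pow_p_dvd_int_iff, pow_one,
      ← ZMod.intCast_eq_intCast_iff_dvd_sub] at h4
    rw [Int.cast_natCast, Int.cast_natCast, ZMod.natCast_zmod_val, Nat.cast_pow] at h4
    exact h4.symm

end FermatAgent.Mazur.Descent

end
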