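import Fermat.Agent.Mazur.Descent.Structure.Basic
import Fermat.Agent.Mazur.Descent.Kernel.Raise
import Fermat.Agent.Igusa.GoodRed.Concrete
import Fermat.Agent.ES.Main
import Fermat.Agent.Curve.RR.Setup

/-!
# Reduction at the good places

The kernel of reduction is stable under Hecke operators and the decomposition group, reduction
satisfies the Eichler-Shimura relation, and the count of its ordinary `l`-torsion.
-/

set_option autoImplicit false

noncomputable section

open AlgebraicCurve ModularCurve FermatAgent.Curve FermatAgent.Curve.RR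
open FermatAgent.JacCharts FermatAgent.JacCharts.GoodReductionDatum
open FermatAgent.Mazur.Step3 (heckeDiv)

namespace FermatAgent.Mazur.Descent

local notation "Qb" => AlgebraicClosure ℚ
local notation "GQ" => AlgebraicClosure ℚ ≃ₐ[ℚ] AlgebraicClosure ℚ

section Action

variable {p : ℕ} [NeZero p]

theorem hact_X (q : Nat.Primes) : hact p (heckeGen q) = heckeOperatorBar p q :=
  heckeEvalBar_heckeGen _ q

/-- The Hecke action commutes with the Galois action. -/
theorem galois_smul_hact (t : HeckeAlg) (σ : GQ) (x : JZero p) :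
    σ • hact p t x = hact p t (σ • x) := by
  induction t using MvPolynomial.induction_on generalizing x with
  | C a =>
    rw [hact, heckeEvalBar_C, Module.End.intCast_apply, Module.End.intCast_apply]
    exact map_zsmul (DistribSMul.toAddMonoidHom (JZero p) σ) a x
  | add s t hs ht => rw [map_add, LinearMap.add_apply, LinearMap.add_apply, smul_add, hs, ht]
  | mul_X s q hs =>
    rw [map_mul, Module.End.mul_apply, Module.End.mul_apply, hs]
    congr 1
    show σ • hact p (heckeGen q) x = hact p (heckeGen q) (σ • x)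
    rw [hact_X, ModCurveTorsion.galois_smul_heckeOperatorBar]

end Action

section Prime

variable {p : ℕ} [hp : Fact p.Prime] {A : ValuationSubring Qb} {l : ℕ}

theorem goodPlace (hl : l.Prime) (hlp : ¬ l ∣ p) (hA : A.LiesOverPrime l) :
    haveI : NeZero l := ⟨hl.ne_zero⟩
    ES.GoodPlaceInputs p l A :=
  haveI : NeZero l := ⟨hl.ne_zero⟩
  ES.goodInputs p l hl hlp A hA

/-- Inertia acts trivially on reductions. -/
theorem smul_sub_mem_redKer (hl : l.Prime) (hlp : ¬ l ∣ p) (hA : A.LiesOverPrime l) {σ : GQ}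
    (hσ : σ ∈ A.inertiaSubgroupIn ℚ) (x : JZero p) : σ • x - x ∈ redKer A p := by
  have : NeZero l := ⟨hl.ne_zero⟩
  rw [mem_redKer, map_sub, ES.reductionModL_inertia (goodPlace hl hlp hA) hσ, sub_self]

/-- The decomposition group stabilises the kernel of reduction. -/
theorem smul_mem_redKer (hl : l.Prime) (hlp : ¬ l ∣ p) (hA : A.LiesOverPrime l) {σ : GQ}
    (hσ : σ ∈ A.decompositionSubgroup ℚ) {x : JZero p} (hx : x ∈ redKer A p) :
    σ • x ∈ redKer A p := by
  have : NeZero l := ⟨hl.ne_zero⟩
  rw [mem_redKer] at hx ⊢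
  have h := ES.reductionModL_smul (goodPlace hl hlp hA) ⟨σ, hσ⟩ x
  rw [hx] at h
  exact h.trans (smul_zero (A := JZeroC (IsLocalRing.ResidueField A) p)
    (ES.coeffSemilinear p (ES.residueAut ⟨σ, hσ⟩)))

/-- The Eichler-Shimura relation on reductions. -/
theorem frob_quadratic_mem (hl : l.Prime) (hlp : ¬ l ∣ p) (hA : A.LiesOverPrime l) {F : GQ}
    (hF : A.IsFrobeniusAt F l) (x : JZero p) :
    F • F • x - hact p (heckeGen ⟨l, hl⟩) (F • x) + l • x ∈ redKer A p := by
  have : NeZero l := ⟨hl.ne_zero⟩
  rw [mem_redKer, hact_X, heckeOperatorBar_apply]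
  exact ES.reductionModL_quadratic (goodPlace hl hlp hA) hl hA hF x

/-- Inertia at a good prime fixes a torsion difference prime to it. -/
theorem eq_of_inertia_other (hl : l.Prime) (hlp : ¬ l ∣ p) (hA : A.LiesOverPrime l) {σ : GQ}
    (hσ : σ ∈ A.inertiaSubgroupIn ℚ) {n : ℕ} (hn : ¬ l ∣ n) {y : JZero p}
    (hy : n • (σ • y - y) = 0) : σ • y = y :=
  haveI : NeZero l := ⟨hl.ne_zero⟩
  sub_eq_zero.1 ((goodPlace hl hlp hA).injective n hn _ hy
    (mem_redKer.1 (smul_sub_mem_redKer hl hlp hA hσ y)))

/-- The Hecke operators stabilise the kernel of reduction. -/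
theorem hact_mem_redKer (hl : l.Prime) (hlp : ¬ l ∣ p) (hA : A.LiesOverPrime l) (t : HeckeAlg)
    {x : JZero p} (hx : x ∈ redKer A p) : hact p t x ∈ redKer A p := by
  have := Fact.mk hl
  have := Igusa.Down.charP_residueField hl hA
  have := Igusa.Down.isAlgClosed_residueField A
  have := Igusa.Down.isFunctionField1_bar p
  have := Igusa.Down.isFunctionField1_fibre' p hl hlp hA
  set d := Igusa.Down.datum p hl hlp hA
  have hd := Igusa.Down.isLaurent_datum p hl hlp hA
  have hh := Igusa.Down.reductionInputsModL p hl hlp hA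
  have hmem : ∀ z, z ∈ redKer A p ↔ d.redPic0 z = 0 := fun z => by
    rw [mem_redKer, ← hd.reductionAlong_eq_redPic0 hh z]
  have hne : l ≠ p := fun h => hlp (h ▸ dvd_rfl)
  induction t using MvPolynomial.induction_on generalizing x with
  | C a =>
    rw [hact, heckeEvalBar_C, Module.End.intCast_apply]
    exact zsmul_mem hx a
  | add s t hs ht =>
    rw [map_add, LinearMap.add_apply]
    exact add_mem (hs hx) (ht hx)
  | mul_X s q hs =>
    rw [map_mul, Module.End.mul_apply]
    refine hs ?_
    show hact p (heckeGen q) x ∈ redKer A p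
    have : NeZero (q : ℕ) := ⟨q.2.ne_zero⟩
    rw [hact_X, hmem]
    rw [hmem] at hx
    obtain ⟨D, rfl⟩ := Pic0.mk_surjective x
    obtain ⟨fb, hfb, hdiv⟩ := (redPic0_mk_eq_zero_iff (d := d) D).1 hx
    obtain ⟨B₀, hB₀⟩ :=
      GoodReductionDatum.exists_bound (K := Qb) (F := modularFunctionFieldBar p)
    obtain ⟨f, hf⟩ := exists_redsTo (d := d) hB₀ fb
    have hf0 := hf.ne_zero hfb
    have hred : d.redDiv ((D : Divisor Qb (modularFunctionFieldBar p)) - divOf (K := Qb) f) = 0 := by
      rw [map_sub, hf.redDiv_divOf hfb, sub_eq_zero]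
      exact Finsupp.ext fun v => by rw [divOf_apply hfb, hdiv v]
    have hdeg : (D : Divisor Qb (modularFunctionFieldBar p)) - divOf (K := Qb) f ∈
        Divisor.degZero (K := Qb) (F := modularFunctionFieldBar p) := by
      rw [Divisor.mem_degZero, ← degree_redDiv (d := d), hred, map_zero]
    have hx' : Pic0.mk D = Pic0.mk ⟨_, hdeg⟩ := by
      have h : IsRep (Pic0.mk D) ((D : Divisor Qb (modularFunctionFieldBar p)) - divOf (K := Qb) f) := by
        refine (show IsRep (Pic0.mk D) (D : Divisor Qb (modularFunctionFieldBar p)) from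
          ⟨D.2, rfl⟩).of_sub_mem hdeg ?_
        rw [sub_sub_cancel]
        exact ⟨f, hf0, fun v => divOf_apply hf0 v⟩
      exact h.choose_spec
    rw [hx']
    obtain ⟨h', he⟩ := Step3.heckeOperatorBar_mk p q ⟨_, hdeg⟩
    rw [he, redPic0_mk_eq_zero_iff,
      (Step3.isRigid_heckeDiv (ℓ := l) hd hne q q.2).redDiv_eq_zero hred]
    exact zero_mem _

/-- The count of the ordinary `l`-torsion in the kernel of reduction. -/
theorem natCard_redKer_le [Fact l.Prime] (hlp : ¬ l ∣ p) (hA : A.LiesOverPrime l)
    (W : AddSubgroup (JZero p)) [Finite W]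
    (hW : ∀ z ∈ W, z ∈ redKer A p ∧ l • z = 0)
    (hT : ∀ z ∈ W, heckeOperatorBar p ⟨l, Fact.out⟩ z ∈ W)
    (hinj : ∀ z ∈ W, heckeOperatorBar p ⟨l, Fact.out⟩ z = 0 → z = 0) (n : ℕ) :
    Nat.card W ≤ l ^ (heckeMat (N := p) hlp ^ n).rank := by
  have hl : l.Prime := Fact.out
  have : NeZero l := ⟨hl.ne_zero⟩
  have := Igusa.Down.charP_residueField hl hA
  have := Igusa.Down.isAlgClosed_residueField A
  have := Igusa.Down.isFunctionField1_bar p
  have := Igusa.Down.isFunctionField1_fibre' p hl hlp hA
  have hd := Igusa.Down.isLaurent_datum p hl hlp hA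
  have hh := Igusa.Down.reductionInputsModL p hl hlp hA
  have hdeg : Module.finrank
      (IntermediateField.adjoin (IsLocalRing.ResidueField A) {jRed (IsLocalRing.ResidueField A) p})
      (modularFunctionFieldFullC (IsLocalRing.ResidueField A) p) = p + 1 := by
    rw [← Step3.index_gamma0_prime hp.out, ← Igusa.Down.finrank_fibre A p hlp hA,
      show jRed (IsLocalRing.ResidueField A) p =
        Igusa.Down.redBar A p hlp (Igusa.Down.tBar A p) from
        Subtype.ext (Igusa.Down.coe_redBar_tBar A p hlp).symm]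
  exact natCard_le_of_ordinary hd hdeg hlp W
    (fun z hz => ⟨by rw [← hd.reductionAlong_eq_redPic0 hh z]; exact mem_redKer.1 (hW z hz).1,
      (hW z hz).2⟩) hT hinj n

end Prime

end FermatAgent.Mazur.Descent

end
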