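import Fermat.Agent.Mazur.Descent.Structure.Bounds

/-!
# The component at the place over `l`

Half of the component reduces to zero; inertia acts on that half by the cyclotomic character, and
a Frobenius element satisfies the twisted Eichler-Shimura relation there.
-/

set_option autoImplicit false

noncomputable section

open Matrix ModularCurve FermatAgent.GalRep FermatAgent.ModCurveTorsion

namespace FermatAgent.Mazur.Descent

local notation "Qb" => AlgebraicClosure ℚ
local notation "GQ" => AlgebraicClosure ℚ ≃ₐ[ℚ] AlgebraicClosure ℚ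

/-- A Frobenius element times an element of inertia is a Frobenius element. -/
theorem isFrobeniusAt_mul_inertia {A : ValuationSubring Qb} {F s : GQ} {q : ℕ}
    (hF : A.IsFrobeniusAt F q) (hs : s ∈ A.inertiaSubgroupIn ℚ) : A.IsFrobeniusAt (F * s) q := by
  obtain ⟨hd, hres⟩ := hF
  obtain ⟨⟨s, hsd⟩, hker, rfl⟩ := Subgroup.mem_map.1 hs
  refine ⟨mul_mem hd hsd, fun x => ?_⟩
  show ((⟨F, hd⟩ : A.decompositionSubgroup ℚ) * ⟨s, hsd⟩) • x = x ^ q
  rw [mul_smul, show (⟨s, hsd⟩ : A.decompositionSubgroup ℚ) • x = x from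
    RingEquiv.ext_iff.mp (MonoidHom.mem_ker.mp hker) x]
  exact hres x

variable {p : ℕ} [NeZero p] {l : ℕ} [hl : Fact l.Prime]

theorem pow_nsmul_latProj (k r : ℕ) (v : Lat p l) :
    l ^ k • latProj (r + k) v = latProj r v := by
  induction k generalizing r with
  | zero => rw [pow_zero, one_nsmul, Nat.add_zero]
  | succ k ih => rw [pow_succ, mul_nsmul', ← Nat.add_assoc, nsmul_latProj_succ, ih]

variable [hp : Fact p.Prime] {A : ValuationSubring Qb}

omit hp in
/-- The part of the component reducing to zero is cut out by a subspace. -/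
theorem exists_latProj_eq_of_mem_redKer {P : LatMat p l} (_hPP : P * P = P)
    (E₀ : Submodule ℚ_[l] (RatLat p l))
    (hE₀ : E₀ ≤ redSpace p l A)
    (h1 : ∀ v, P *ᵥ v = v → latProj 1 v ∈ redKer A p →
      ∃ w ∈ latPull E₀, P *ᵥ w = w ∧ latProj 1 w = latProj 1 v) :
    ∀ (r : ℕ) (v : Lat p l), P *ᵥ v = v → latProj r v ∈ redKer A p →
      ∃ w ∈ latPull E₀, latProj r w = latProj r v := by
  intro r
  induction r with
  | zero =>
    intro v _ _
    refine ⟨0, zero_mem _, ?_⟩
    have h := latProj_mem 0 v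
    rw [pow_zero, one_nsmul] at h
    rw [h, map_zero]
  | succ r ih =>
    intro v hv hred
    have hred1 : latProj 1 v ∈ redKer A p := by
      rw [← pow_nsmul_latProj r 1 v, Nat.add_comm]
      exact nsmul_mem hred _
    obtain ⟨w, hw, hPw, hwv⟩ := h1 v hv hred1
    have hdvd : ∀ i, (l : ℤ_[l]) ∣ v i - w i := fun i => by
      have h := (latProj_eq_zero_iff (v := v - w)).1 (by rw [map_sub, hwv, sub_self]) i
      rwa [pow_one] at h
    choose u hu using hdvd
    have hu' : v - w = (l : ℤ_[l]) • u := funext fun i => by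
      rw [Pi.sub_apply, Pi.smul_apply, smul_eq_mul, hu]
    have hPu : P *ᵥ u = u := by
      refine smul_right_injective (Lat p l) (Nat.cast_ne_zero.2 hl.out.ne_zero : (l : ℤ_[l]) ≠ 0) ?_
      show (l : ℤ_[l]) • (P *ᵥ u) = (l : ℤ_[l]) • u
      rw [← Matrix.mulVec_smul, ← hu', Matrix.mulVec_sub, hv, hPw]
    have hwred : ∀ n, latProj n w ∈ redKer A p := by
      have h : w ∈ redLat p l A := (latPull_redSpace (p := p) (l := l) A).le (hE₀ hw)
      exact h
    have hlu : latProj (r + 1) ((l : ℤ_[l]) • u) = latProj r u := by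
      rw [latProj_natCast_smul, nsmul_latProj_succ]
    obtain ⟨w', hw', hwu⟩ := ih u hPu (by
      rw [← hlu, ← hu', map_sub]
      exact sub_mem hred (hwred _))
    refine ⟨w + (l : ℤ_[l]) • w', add_mem hw (Submodule.smul_mem _ _ hw'), ?_⟩
    rw [map_add, latProj_natCast_smul, nsmul_latProj_succ, hwu, ← hlu, ← hu', map_sub, add_sub_cancel]

theorem omega_latQuad (σ : GQ) : (latQuad p l).omega σ = (cycChar l σ : ℚ_[l]) := rfl

theorem rho_latQuad (σ : GQ) : (latQuad p l).rho σ = latEnd p l (latGal p l σ) := rfl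

/-- **The component at `A`.** -/
theorem exists_atL (hln : l ∣ eisensteinNumerator p) (hlp : ¬ l ∣ p) (hA : A.LiesOverPrime l)
    {P : LatMat p l} (hPP : P * P = P) (hP : IsApprox P)
    (hpure : ∀ s, latEisChar hln s = 0 → ∃ k, MatCongr 1 (P * latHecke p l s ^ k) 0)
    {e : ℕ → HeckeAlg}
    (he : ∀ (r : ℕ) (v : Lat p l), hact p (e r) (latProj r v) = latProj r (P *ᵥ v)) :
    ∃ (m : ℕ) (frob : GQ), Module.finrank ℚ_[l] (LinearMap.range (latEnd p l P)) = 2 * m ∧
      (∀ r, Nat.card ↥(eisPart p l (e r) r ⊓ redKer A p) ≤ l ^ (m * r)) ∧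
      (∀ r, ∀ σ ∈ A.inertiaSubgroupIn ℚ, ∀ x ∈ eisPart p l (e r) r, x ∈ redKer A p →
        σ • x = cycNat l r σ • x) ∧
      A.IsFrobeniusAt frob l ∧
      ∀ r, ∀ x ∈ eisPart p l (e r) r, x ∈ redKer A p →
        l • (frob • frob • x) - cycNat l r frob • hact p (heckeGen ⟨l, Fact.out⟩) (frob • x)
          + cycNat l r frob ^ 2 • x = 0 := by
  classical
  obtain ⟨k, Po, hk0, hPoPo, hPo, -, -, hPo1, r₀, hr0, hmid, hW0⟩ :=
    exists_ordinary_idempotent hln hlp hA
  have hPle : P * Po = P := by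
    refine mul_eq_self_of_congr (θ := latEisChar hln) (u := heckeTl p l hlp ^ k) hPP hP hpure hPoPo
      hPo (by rw [map_pow]; exact hPo1) ?_
    rw [map_pow, heckeTl, latEisChar_T, ZMod.natCast_self, add_zero, one_pow]
  obtain ⟨σ₀, hσ₀, hne, hinf⟩ := exists_inertia_infinite_order hA
  set R := latQuad p l
  set eo := latEnd p l Po
  set E := latEnd p l P
  set W := redSpace p l A
  let S : R.Split :=
    { e := eo
      e_mem := mem_latAlg_of_approx hPo
      e_idem := by rw [← map_mul, hPoPo]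
      W := W
      W_stable := fun a ha x hx => latAlg_mem_redSpace hln hlp hA ha hx
      W_le := by omega
      g₀ := σ₀
      sub_mem_W := rho_sub_mem_redSpace hlp hA hσ₀
      omega_ne := fun h => hne (PadicInt.ext (h.trans PadicInt.coe_one.symm)) }
  obtain ⟨a₀, ha₀, hrel⟩ := R.quad S.g₀
  obtain ⟨hsum, hWker, hWhalf⟩ := S.main hrel ha₀
  have hEmem : E ∈ R.alg := mem_latAlg_of_approx hP
  have hEE : E * E = E := by rw [← map_mul, hPP]
  have hEe : E * eo = E := by rw [← map_mul, hPle]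
  have hEle : LinearMap.range E ≤ LinearMap.range eo := by
    have := QuadRep.range_mul_le (R := R) hEmem (mem_latAlg_of_approx hPo)
    rwa [hEe] at this
  have hsumE : a₀ * E =
      algebraMap ℚ_[l] (Module.End ℚ_[l] (RatLat p l)) (1 + R.omega S.g₀) * E := by
    rw [← hEe, R.comm E hEmem eo S.e_mem, ← mul_assoc, ← mul_assoc]
    exact congrArg (· * E) hsum
  obtain ⟨hhalf, hker⟩ := S.half_of_sum hrel ha₀ hEmem hEE hsumE
  have hEW : LinearMap.range E ⊓ W = LinearMap.range E ⊓
      LinearMap.ker (R.rho S.g₀ - algebraMap ℚ_[l] _ (R.omega S.g₀)) := by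
    refine le_antisymm (fun x hx => ⟨hx.1, (hWker.le ⟨hEle hx.1, hx.2⟩).2⟩) ?_
    exact le_inf inf_le_left hker
  set E₀ := LinearMap.range E ⊓ W
  rw [← hEW] at hhalf
  -- level one
  have hord1 : latImage 1 (latPull (LinearMap.range eo ⊓ W)) =
      latImage 1 (latPull (LinearMap.range eo)) ⊓ redKer A p := by
    have hle : latImage 1 (latPull (LinearMap.range eo ⊓ W)) ≤
        latImage 1 (latPull (LinearMap.range eo)) ⊓ redKer A p := by
      rintro _ ⟨v, hv, rfl⟩
      exact ⟨⟨v, hv.1, rfl⟩, (latPull_redSpace (p := p) (l := l) A).le hv.2 1⟩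
    have : Finite (latImage 1 (latPull (LinearMap.range eo))) := Nat.finite_of_card_ne_zero (by
      rw [natCard_latImage_latPull]; exact pow_ne_zero _ hl.out.ne_zero)
    have : Finite ↥(latImage 1 (latPull (LinearMap.range eo)) ⊓ redKer A p) :=
      Finite.of_injective (AddSubgroup.inclusion inf_le_left) (AddSubgroup.inclusion_injective _)
    refine AddSubgroup.eq_of_le_of_card_ge hle ?_
    rw [natCard_latImage_latPull, one_mul]
    refine hmid.trans (le_of_eq ?_)
    have : 2 * Module.finrank ℚ_[l] ↥(LinearMap.range eo ⊓ W) =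
        Module.finrank ℚ_[l] (LinearMap.range eo) := hWhalf
    congr 1
    omega
  have h1 : ∀ v, P *ᵥ v = v → latProj 1 v ∈ redKer A p →
      ∃ w ∈ latPull E₀, P *ᵥ w = w ∧ latProj 1 w = latProj 1 v := by
    intro v hv hred
    have hvo : v ∈ latPull (LinearMap.range eo) := by
      refine (mem_latPull_range hPoPo).2 ?_
      rw [← hv, Matrix.mulVec_mulVec, ← hP.commute' hPo, hPle]
    obtain ⟨w₁, hw₁, hw₁v⟩ := hord1.ge ⟨⟨v, hvo, rfl⟩, hred⟩
    refine ⟨P *ᵥ w₁, ⟨(mem_latPull_range hPP).2 (by rw [Matrix.mulVec_mulVec, hPP]), ?_⟩,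
      by rw [Matrix.mulVec_mulVec, hPP], ?_⟩
    · show ratHom p l (P *ᵥ w₁) ∈ W
      rw [← latEnd_ratHom]
      exact latAlg_mem_redSpace hln hlp hA hEmem hw₁.2
    · rw [← he, hw₁v, he, hv]
  have hG0 : ∀ r, ∀ x ∈ eisPart p l (e r) r, x ∈ redKer A p →
      ∃ w ∈ latPull E₀, latProj r w = x := by
    intro r x hx hred
    obtain ⟨v, hv, rfl⟩ := exists_of_mem_eisPart hPP (he r) hx
    exact exists_latProj_eq_of_mem_redKer hPP E₀ inf_le_right h1 r v hv hred
  have hwo : ∀ w ∈ latPull E₀, ratHom p l w ∈ LinearMap.range eo ⊓ W :=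
    fun w hw => ⟨hEle hw.1, hw.2⟩
  -- Frobenius
  obtain ⟨F₀, hF₀⟩ := RT.exists_isFrobeniusAt hl.out hA
  have hTmem : latEnd p l (latHecke p l (heckeTl p l hlp)) ∈ R.alg := latEnd_hecke_mem _
  have hFω : R.omega F₀ ≠ 0 := fun h0 => by
    have : R.omega F₀ * R.omega F₀⁻¹ = 1 := by rw [← map_mul, mul_inv_cancel, map_one]
    rw [h0, zero_mul] at this
    exact zero_ne_one this
  have hc : (l : ℚ_[l]) ≠ R.omega F₀ := fun h0 => by
    have h : (l : ℤ_[l]) = cycChar l F₀ := PadicInt.ext (by rw [PadicInt.coe_natCast]; exact h0)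
    refine PadicInt.prime_p.not_isUnit (IsUnit.of_mul_eq_one (cycChar l F₀⁻¹) ?_)
    rw [h, ← map_mul, mul_inv_cancel, map_one]
  have hWdec : ∀ {g : GQ}, g ∈ A.decompositionSubgroup ℚ → ∀ x ∈ W, R.rho g x ∈ W :=
    fun hg x hx => rho_mem_redSpace hlp hA hg hx
  obtain ⟨U, hU, hQ, hgU⟩ := S.exists_quot_root (g := F₀) hTmem (c := (l : ℚ_[l])) hc
    (hWdec hF₀.mem_decompositionSubgroup) (frob_quad_mem_redSpace hlp hA hF₀)
  obtain ⟨j, hsep⟩ := S.exists_pow_sep U F₀ hFω hinf
  set F := F₀ * S.g₀ ^ j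
  have hF : A.IsFrobeniusAt F l := isFrobeniusAt_mul_inertia hF₀ (pow_mem hσ₀ j)
  have hFU : ∀ x ∈ LinearMap.range S.e, R.rho F x - U x ∈ S.W := fun x hx => by
    have h2 : R.rho (S.g₀ ^ j) x - x ∈ S.W := rho_sub_mem_redSpace hlp hA (pow_mem hσ₀ j) x
    have h3 := S.W.add_mem (hWdec hF₀.mem_decompositionSubgroup _ h2) (hgU x hx)
    rwa [map_sub, ← Module.End.mul_apply, ← map_mul, sub_add_sub_cancel] at h3
  refine ⟨Module.finrank ℚ_[l] E₀, F, hhalf.symm, fun r => ?_, fun r σ hσ x hx hred => ?_, hF,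
    fun r x hx hred => ?_⟩
  · have : Finite (latImage r (latPull E₀)) := Nat.finite_of_card_ne_zero (by
      rw [natCard_latImage_latPull]; exact pow_ne_zero _ hl.out.ne_zero)
    refine (AddSubgroup.card_le_of_le
      (show eisPart p l (e r) r ⊓ redKer A p ≤ latImage r (latPull E₀) from
        fun x hx => hG0 r x hx.1 hx.2)).trans ?_
    rw [natCard_latImage_latPull, mul_comm]
  · obtain ⟨w, hw, rfl⟩ := hG0 r x hx hred
    have h2 := S.apply_mem_W (rho_sub_mem_redSpace hlp hA hσ) (hwo w hw)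
    rw [rho_latQuad, latEnd_ratHom, omega_latQuad, ← ratHom_smul] at h2
    rw [← latProj_galois, ratHom_injective h2, latProj_smul]
    rfl
  · obtain ⟨w, hw, rfl⟩ := hG0 r x hx hred
    have h2 := S.frobenius_mem_W hTmem hU (c := (l : ℚ_[l]))
      (Nat.cast_ne_zero.2 hl.out.ne_zero) (hWdec hF.mem_decompositionSubgroup) hQ hFU
      (fun y _ => hsep y) (hwo w hw)
    rw [rho_latQuad, latEnd_ratHom, latEnd_ratHom, latEnd_ratHom, omega_latQuad,
      ← PadicInt.coe_natCast, ← PadicInt.coe_pow, ← ratHom_smul, ← ratHom_smul, ← ratHom_smul,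
      ← map_sub, ← map_add, ← map_zero (ratHom p l)] at h2
    have h3 := congrArg (latProj r) (ratHom_injective h2)
    rw [map_zero, map_add, map_sub, latProj_natCast_smul, latProj_galois, latProj_galois,
      latProj_smul, ← hact_heckeGen_latProj, latProj_galois] at h3
    rw [latProj_smul] at h3
    rw [cycNat]
    convert h3 using 2
    rw [← latProj_smul, ← latProj_natCast_smul, Nat.cast_pow]
    refine latProj_congr fun i => ?_
    rw [Pi.smul_apply, Pi.smul_apply, ← sub_smul]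
    refine Dvd.dvd.mul_right ?_ _
    rw [← Ideal.mem_span_singleton, ← PadicInt.ker_toZModPow, RingHom.mem_ker, map_sub, map_pow,
      map_pow, map_natCast, ZMod.natCast_zmod_val, sub_self]

end FermatAgent.Mazur.Descent

end
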