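import Fermat.Agent.Mazur.Descent.Structure.Component
import Fermat.Agent.BadRed.Semistable.ToricTate
import Fermat.Agent.TW.Tame
import Fermat.Agent.TW.Places

/-!
# The component at the place over the level

The toric vectors fill the `p²`-eigenspace of a squared Frobenius element, half of the Tate
module; inertia fixes it and moves every vector into it.
-/

set_option autoImplicit false

noncomputable section

open Matrix ModularCurve FermatAgent.GalRep FermatAgent.ModCurveTorsion
open scoped Pointwise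

namespace FermatAgent.Mazur.Descent

local notation "Qb" => AlgebraicClosure ℚ
local notation "GQ" => AlgebraicClosure ℚ ≃ₐ[ℚ] AlgebraicClosure ℚ

theorem genusFormula_one : genusFormula 1 = 0 := by
  have h2 : nuTwo 1 = 1 := by
    refine Nat.card_eq_one_iff_unique.2 ⟨⟨fun a b => Subtype.ext (Subsingleton.elim _ _)⟩,
      ⟨⟨0, Subsingleton.elim _ _⟩⟩⟩
  have h3 : nuThree 1 = 1 := by
    refine Nat.card_eq_one_iff_unique.2 ⟨⟨fun a b => Subtype.ext (Subsingleton.elim _ _)⟩,
      ⟨⟨0, Subsingleton.elim _ _⟩⟩⟩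
  rw [genusFormula, h2, h3, dedekindPsi_one, cuspCount_one]
  norm_num

variable {p : ℕ} [NeZero p] [hp : Fact p.Prime] {l : ℕ} [hl : Fact l.Prime]

omit hp in
theorem latEnd_injective : Function.Injective (latEnd p l) := fun M M' h =>
  Matrix.ext_of_mulVec_single fun i => ratHom_injective (by
    rw [← latEnd_ratHom, ← latEnd_ratHom, h])

omit hp in
/-- Independence modulo `l` gives independence. -/
theorem linearIndependent_ratHom {ι : Type*} [Fintype ι] {v : ι → Lat p l}
    (h : ∀ a : ι → ℤ_[l], (∀ j, (l : ℤ_[l]) ∣ ∑ i, a i * v i j) → ∀ i, (l : ℤ_[l]) ∣ a i) :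
    LinearIndependent ℚ_[l] fun i => ratHom p l (v i) := by
  have hZ : LinearIndependent ℤ_[l] v := by
    rw [Fintype.linearIndependent_iff]
    intro a ha i
    refine PadicInt.ext_of_toZModPow.mp fun n => ?_
    rw [map_zero, ← RingHom.mem_ker, PadicInt.ker_toZModPow, Ideal.mem_span_singleton]
    suffices h' : ∀ (n : ℕ) (a : ι → ℤ_[l]), ∑ i, a i • v i = 0 → ∀ i, (l : ℤ_[l]) ^ n ∣ a i from
      h' n a ha i
    intro n
    induction n with
    | zero => exact fun a _ i => by rw [pow_zero]; exact one_dvd _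
    | succ n ih =>
      intro a ha i
      have hdvd := h a fun j => by
        have hj := congrFun ha j
        simp only [Finset.sum_apply, Pi.smul_apply, smul_eq_mul, Pi.zero_apply] at hj
        rw [hj]
        exact dvd_zero _
      choose b hb using hdvd
      have hb0 : ∑ i, b i • v i = 0 := by
        refine smul_right_injective (Lat p l)
          (Nat.cast_ne_zero.2 hl.out.ne_zero : (l : ℤ_[l]) ≠ 0) ?_
        show (l : ℤ_[l]) • ∑ i, b i • v i = (l : ℤ_[l]) • 0
        rw [smul_zero, Finset.smul_sum]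
        simp only [smul_smul, ← hb]
        exact ha
      rw [pow_succ', hb i]
      exact mul_dvd_mul_left _ (ih b hb0 i)
  exact (LinearIndependent.iff_fractionRing (R := ℤ_[l]) (K := ℚ_[l])).1
    (hZ.map' (ratHom p l) (LinearMap.ker_eq_bot.2 ratHom_injective))

omit hp in
/-- Vectors fixed by inertia and on which the square of Frobenius is `q ^ 2`, one per node but
one. -/
theorem exists_toricVectors' {M : ℕ} [NeZero M] (q : ℕ) [Fact q.Prime] (hM : q * 1 = M) (hlq : l ≠ q)
    {S : Set ℕ} (D : HeckeTorsionData M l S) :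
    ∃ (ι : Type) (_ : Fintype ι) (v : ι → Fin D.rank → ℤ_[l]),
      (Fintype.card ι : ℚ) = genusFormula M ∧
      (∀ a : ι → ℤ_[l], (∀ j, (l : ℤ_[l]) ∣ ∑ i, a i * v i j) → ∀ i, (l : ℤ_[l]) ∣ a i) ∧
      (∀ i, ∀ σ ∈ (BadRed.Semistable.place₀ q).inertiaSubgroupIn ℚ, tateHom D σ *ᵥ v i = v i) ∧
      (∀ i σ, (BadRed.Semistable.place₀ q).IsFrobeniusAt σ q →
        tateHom D σ *ᵥ (tateHom D σ *ᵥ v i) = ((q : ℤ_[l]) ^ 2) • v i) := by
  classical
  subst hM
  have := BadRed.Semistable.isFunctionField1_kFib q 1 (Nat.coprime_one_right q)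
  obtain ⟨i₀, v, h1, h2, h3⟩ :=
    BadRed.Semistable.exists_toricVectors q 1 (Nat.coprime_one_right q) D hlq
  refine ⟨_, inferInstance, v, ?_, h1, h2, h3⟩
  rw [Fintype.card_subtype_compl, Fintype.card_subtype_eq,
    Nat.cast_sub (Fintype.card_pos_iff.2 ⟨i₀⟩), BadRed.Semistable.card_node, genusFormula_one]
  simp

variable {Ap : ValuationSubring Qb}

theorem latGal_eq_tateHom : latGal p l = tateHom (torsionData p l) := rfl

/-- The toric vectors at a given place over the level. -/
theorem exists_toricVectors_at (hlp : l ≠ p) (hAp : Ap.LiesOverPrime p) :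
    ∃ (ι : Type) (_ : Fintype ι) (v : ι → Lat p l),
      (torsionModel p).rank = 2 * Fintype.card ι ∧
      LinearIndependent ℚ_[l] (fun i => ratHom p l (v i)) ∧
      (∀ i, ∀ σ ∈ Ap.inertiaSubgroupIn ℚ, latGal p l σ *ᵥ v i = v i) ∧
      (∀ i σ, Ap.IsFrobeniusAt σ p →
        latGal p l σ *ᵥ (latGal p l σ *ᵥ v i) = ((p : ℤ_[l]) ^ 2) • v i) := by
  classical
  obtain ⟨ι, hι, v, hcard, hind, hin, hfr⟩ :=
    exists_toricVectors' p (Nat.mul_one p) hlp (torsionData p l)
  obtain ⟨g, hg⟩ :=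
    TW.exists_smul_eq hp.out (BadRed.Semistable.liesOverPrime_place₀ p) hAp
  have hg' : g⁻¹ • Ap = BadRed.Semistable.place₀ p := by rw [← hg, inv_smul_smul]
  have hcomp : ∀ (a b : GQ) (w : Lat p l),
      latGal p l a *ᵥ (latGal p l b *ᵥ w) = latGal p l (a * b) *ᵥ w := fun a b w => by
    rw [Matrix.mulVec_mulVec, map_mul]
  refine ⟨ι, hι, fun i => latGal p l g *ᵥ v i, ?_, ?_, fun i σ hσ => ?_, fun i σ hσ => ?_⟩
  · have h := (torsionModel p).rank_eq
    rw [← hcard] at h
    exact_mod_cast h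
  · refine linearIndependent_ratHom fun a ha => hind a fun j => ?_
    have h1 : ∀ j, (l : ℤ_[l]) ∣ (latGal p l g *ᵥ ∑ i, a i • v i) j := fun j => by
      rw [Matrix.mulVec_sum]
      simp only [Matrix.mulVec_smul, Finset.sum_apply, Pi.smul_apply, smul_eq_mul]
      exact ha j
    have h2 : (l : ℤ_[l]) ∣ (latGal p l g⁻¹ *ᵥ (latGal p l g *ᵥ ∑ i, a i • v i)) j := by
      generalize latGal p l g *ᵥ ∑ i, a i • v i = w at h1 ⊢
      simp only [Matrix.mulVec, dotProduct]
      exact Finset.dvd_sum fun k _ => (h1 k).mul_left _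
    rw [hcomp, inv_mul_cancel, map_one, Matrix.one_mulVec, Finset.sum_apply] at h2
    simpa only [Pi.smul_apply, smul_eq_mul] using h2
  · have h := TW.conj_mem_inertia (g := g⁻¹) hσ
    rw [hg', inv_inv] at h
    show latGal p l σ *ᵥ (latGal p l g *ᵥ v i) = latGal p l g *ᵥ v i
    conv_rhs => rw [← hin i _ h]
    rw [← latGal_eq_tateHom, hcomp, hcomp, mul_assoc, mul_inv_cancel_left]
  · have h := TW.conj_isFrobeniusAt (g := g⁻¹) hσ
    rw [hg', inv_inv] at h
    have h2 := congrArg (latGal p l g *ᵥ ·) (hfr i _ h)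
    rw [← latGal_eq_tateHom] at h2
    simp only [hcomp, Matrix.mulVec_smul] at h2 ⊢
    rw [← h2]
    congr 2
    group

omit [NeZero p] hp in
theorem one_add_pow_of_sq_eq_zero {R : Type*} [Ring R] {D : R} (h : D * D = 0) :
    ∀ k : ℕ, (1 + D) ^ k = 1 + k * D
  | 0 => by simp
  | k + 1 => by
    rw [pow_succ, one_add_pow_of_sq_eq_zero h k, mul_add, mul_one, add_mul, one_mul, mul_assoc, h,
      mul_zero, add_zero, Nat.cast_succ, add_mul, one_mul]
    abel

/-- Conjugation by Frobenius raises a tame inertia element to the `p`-th power. -/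
theorem latGal_frobenius_conj (hlp : l ≠ p) (hAp : Ap.LiesOverPrime p)
    (hunip : ∀ σ ∈ Ap.inertiaSubgroupIn ℚ, (latGal p l σ - 1) * (latGal p l σ - 1) = 0)
    {F : GQ} (hF : Ap.IsFrobeniusAt F p) {σ : GQ} (hσ : σ ∈ Ap.inertiaSubgroupIn ℚ) :
    latGal p l F * (latGal p l σ - 1) = (p : LatMat p l) * ((latGal p l σ - 1) * latGal p l F) := by
  classical
  have hmem : F * σ * F⁻¹ ∈ Ap.inertiaSubgroupIn ℚ := by
    have h := TW.conj_mem_inertia (g := F) hσ
    rwa [show F • Ap = Ap from hF.mem_decompositionSubgroup] at h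
  have hpow : latGal p l (F * σ * F⁻¹) = latGal p l σ ^ p := by
    refine matrix_ext_of_toZModPow fun n => ?_
    obtain ⟨L₀, hL₀, hL₀c⟩ := (tateData p l).continuous n
    have := hL₀
    let L := IntermediateField.normalClosure ℚ L₀ Qb
    have := RT.isGalois_algClosureRat
    have : Normal ℚ L := normalClosure.normal ℚ L₀ Qb
    have : FiniteDimensional ℚ L := normalClosure.is_finiteDimensional ℚ L₀ Qb
    let f : Ap.inertiaSubgroupIn ℚ →*
        (Matrix (Fin (torsionModel p).rank) (Fin (torsionModel p).rank) (ZMod (l ^ n)))ˣ :=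
      ((PadicInt.toZModPow n).mapMatrix.toMonoidHom.comp
        ((latGal p l).comp (Ap.inertiaSubgroupIn ℚ).subtype)).toHomUnits
    have hf : ∀ s, (f s : Matrix _ _ (ZMod (l ^ n))) =
        (PadicInt.toZModPow n).mapMatrix (latGal p l s) := fun s => rfl
    have h := (TW.tame_inertia (ℓ := p) (p := l) hp.out hl.out hlp hAp L f (fun s hs => ?_)
      (fun s => ⟨n, ?_⟩)).2 F hF ⟨σ, hσ⟩ ⟨_, hmem⟩ rfl
    · rw [map_pow]
      exact congrArg Units.val h
    · refine Units.ext ?_
      rw [hf, Units.val_one, ← map_one (PadicInt.toZModPow n).mapMatrix]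
      exact matCongr_iff_map.1 fun i j => by
        rw [← Matrix.sub_apply]
        exact hL₀c _ (fun a ha => hs a (IntermediateField.le_normalClosure L₀ ha)) i j
    · refine Units.ext ?_
      rw [Units.val_pow_eq_pow_val, hf, Units.val_one, ← map_pow,
        show latGal p l (s : GQ) = 1 + (latGal p l (s : GQ) - 1) by rw [add_sub_cancel],
        one_add_pow_of_sq_eq_zero (hunip _ s.2), map_add, map_one, map_mul, map_natCast,
        ← map_natCast (algebraMap (ZMod (l ^ n))
          (Matrix (Fin (torsionModel p).rank) (Fin (torsionModel p).rank) (ZMod (l ^ n)))) (l ^ n),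
        ZMod.natCast_self, map_zero, zero_mul, add_zero]
  rw [show latGal p l σ = 1 + (latGal p l σ - 1) by rw [add_sub_cancel],
    one_add_pow_of_sq_eq_zero (hunip _ hσ)] at hpow
  have h := congrArg (fun X => X * latGal p l F) hpow
  beta_reduce at h
  rw [← map_mul, inv_mul_cancel_right, map_mul, add_mul, one_mul] at h
  rw [mul_sub, mul_one, ← mul_assoc, h, add_sub_cancel_left]

/-- **The component at `Ap`.** -/
theorem exists_atP (hlp : l ≠ p) (hAp : Ap.LiesOverPrime p) {P : LatMat p l} (hPP : P * P = P)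
    (hP : IsApprox P) {e : ℕ → HeckeAlg}
    (he : ∀ (r : ℕ) (v : Lat p l), hact p (e r) (latProj r v) = latProj r (P *ᵥ v)) {m : ℕ}
    (hm : Module.finrank ℚ_[l] (LinearMap.range (latEnd p l P)) = 2 * m) :
    ∃ (Gt : ℕ → AddSubgroup (JZero p)) (frobP : GQ), Ap.IsFrobeniusAt frobP p ∧
      (∀ r, Gt r ≤ eisPart p l (e r) r) ∧ (∀ r, Nat.card (Gt r) = l ^ (m * r)) ∧
      (∀ r, ∀ σ ∈ Ap.inertiaSubgroupIn ℚ, ∀ x ∈ Gt r, σ • x = x) ∧
      (∀ r, ∀ σ ∈ Ap.inertiaSubgroupIn ℚ, ∀ x ∈ eisPart p l (e r) r, σ • x - x ∈ Gt r) ∧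
      ∀ r, ∀ x ∈ eisPart p l (e r) r, frobP • frobP • x - x ∈ Gt r := by
  classical
  obtain ⟨ι, hι, v, hrank, hind, hin, hfr⟩ := exists_toricVectors_at hlp hAp
  obtain ⟨F, hF⟩ := RT.exists_isFrobeniusAt hp.out hAp
  set R := latQuad p l
  have hρ : ∀ (g : GQ) (w : Lat p l), R.rho g (ratHom p l w) = ratHom p l (latGal p l g *ᵥ w) :=
    fun g w => latEnd_ratHom _ _
  set q : ℚ_[l] := (p : ℚ_[l]) ^ 2
  have hq : q ≠ 1 := by
    rw [show q = ((p ^ 2 : ℕ) : ℚ_[l]) by rw [Nat.cast_pow], ← Nat.cast_one]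
    exact fun h => (Nat.one_lt_pow two_ne_zero hp.out.one_lt).ne' (Nat.cast_injective h)
  have hω : R.omega (F * F) = q := by
    rw [map_mul]
    show ((cycChar l F : ℤ_[l]) : ℚ_[l]) * ((cycChar l F : ℤ_[l]) : ℚ_[l]) = q
    rw [cycChar_frobenius l hp.out hlp.symm hAp hF, PadicInt.coe_natCast, ← sq]
  set K₀ := LinearMap.ker (R.rho (F * F) - algebraMap ℚ_[l] _ q)
  set V₀ := Submodule.span ℚ_[l] (Set.range fun i => ratHom p l (v i))
  have hV₀ : V₀ ≤ K₀ := by
    rw [Submodule.span_le]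
    rintro _ ⟨i, rfl⟩
    rw [SetLike.mem_coe, LinearMap.mem_ker, LinearMap.sub_apply, QuadRep.Split.scalar_apply,
      map_mul, Module.End.mul_apply, hρ, hρ, hfr i F hF, ratHom_smul, PadicInt.coe_pow,
      PadicInt.coe_natCast, sub_self]
  have hV₀card : Module.finrank ℚ_[l] V₀ = Fintype.card ι := finrank_span_eq_card hind
  have hV : Module.finrank ℚ_[l] (RatLat p l) = 2 * Fintype.card ι := by
    rw [Module.finrank_fin_fun, hrank]
  have hbig : Module.finrank ℚ_[l] (RatLat p l) ≤ 2 * Module.finrank ℚ_[l] K₀ := by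
    have := Submodule.finrank_mono hV₀
    omega
  have hK : K₀ = V₀ := by
    obtain ⟨h1, -⟩ := R.toric_half hq hω hbig (one_mem R.alg) (one_mul 1)
    rw [Module.End.one_eq_id, LinearMap.range_id, top_inf_eq, finrank_top] at h1
    have h1' : 2 * Module.finrank ℚ_[l] ↥K₀ = Module.finrank ℚ_[l] (RatLat p l) := h1
    exact (Submodule.eq_of_le_of_finrank_le hV₀ (by omega)).symm
  have hfix : ∀ σ ∈ Ap.inertiaSubgroupIn ℚ, ∀ x ∈ K₀, R.rho σ x = x := by
    intro σ hσ x hx
    rw [hK] at hx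
    refine LinearMap.eqOn_span (f := R.rho σ) (g := LinearMap.id) ?_ hx
    rintro _ ⟨i, rfl⟩
    rw [hρ, hin i σ hσ]
    rfl
  have hωσ : ∀ σ ∈ Ap.inertiaSubgroupIn ℚ, R.omega σ = 1 := fun σ hσ => by
    show ((cycChar l σ : ℤ_[l]) : ℚ_[l]) = 1
    rw [cycChar_inertia l hp.out hlp.symm hAp hσ, PadicInt.coe_one]
  have hunip : ∀ σ ∈ Ap.inertiaSubgroupIn ℚ, (latGal p l σ - 1) * (latGal p l σ - 1) = 0 :=
    fun σ hσ => latEnd_injective (by
      rw [map_mul, map_sub, map_one, map_zero]
      exact R.toric_unipotent hq hω hbig (hfix σ hσ) (hωσ σ hσ))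
  have hPend : latEnd p l P ∈ R.alg := mem_latAlg_of_approx hP
  have hEE : latEnd p l P * latEnd p l P = latEnd p l P := by rw [← map_mul, hPP]
  obtain ⟨hhalf, hprod⟩ := R.toric_half hq hω hbig hPend hEE
  set E₀ := LinearMap.range (latEnd p l P) ⊓ K₀
  have hrange : ∀ (g : GQ) (w : Lat p l), P *ᵥ w = w →
      ratHom p l (latGal p l g *ᵥ w - w) ∈ LinearMap.range (latEnd p l P) := fun g w hw => by
    refine (QuadRep.mem_range_iff hEE).2 ?_
    rw [map_sub, map_sub, ← hρ, ← Module.End.mul_apply, R.comm_rho g _ hPend, Module.End.mul_apply,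
      latEnd_ratHom, hw]
  have hsub : ∀ σ ∈ Ap.inertiaSubgroupIn ℚ, ∀ x : RatLat p l, R.rho σ x - x ∈ K₀ := by
    intro σ hσ x
    set Φ := R.rho (F * F)
    have hc := latGal_frobenius_conj hlp hAp hunip hF hσ
    set Dm := R.rho σ - 1
    have hΦD : ∀ y, Φ (Dm y) = q • Dm (Φ y) := fun y => by
      have h1 : R.rho F * Dm = (p : ℚ_[l]) • (Dm * R.rho F) := by
        have h := congrArg (latEnd p l) hc
        rw [map_mul, map_mul, map_mul, map_sub, map_one, map_natCast, ← nsmul_one, smul_mul_assoc,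
          one_mul, ← Nat.cast_smul_eq_nsmul ℚ_[l]] at h
        exact h
      have h2 : Φ * Dm = q • (Dm * Φ) := by
        show R.rho (F * F) * Dm = q • (Dm * R.rho (F * F))
        rw [map_mul, mul_assoc, h1, mul_smul_comm, ← mul_assoc, h1, smul_mul_assoc, smul_smul,
          ← sq, mul_assoc]
      exact LinearMap.congr_fun h2 y
    have hz : Φ x - x ∈ K₀ := by
      rw [LinearMap.mem_ker]
      have := LinearMap.congr_fun hprod x
      simpa only [Module.End.mul_apply, LinearMap.sub_apply, QuadRep.Split.scalar_apply, one_smul,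
        LinearMap.zero_apply] using this
    set y := Φ x - q • x
    have hy : Φ y = y := by
      have h := hz
      rw [LinearMap.mem_ker, LinearMap.sub_apply, QuadRep.Split.scalar_apply, map_sub,
        sub_eq_zero] at h
      show Φ (Φ x - q • x) = Φ x - q • x
      rw [map_sub, map_smul]
      rw [sub_eq_iff_eq_add] at h ⊢
      rw [h, smul_sub]
      abel
    have hxy : (1 - q) • x = y - (Φ x - x) := by
      simp only [y, sub_smul, one_smul]; abel
    have hDx : (1 - q) • Dm x = Dm y := by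
      rw [← map_smul, hxy, map_sub, show Dm (Φ x - x) = 0 by
        rw [LinearMap.sub_apply, Module.End.one_apply, hfix σ hσ _ hz, sub_self], sub_zero]
    have hmem : Dm y ∈ K₀ := by
      rw [LinearMap.mem_ker, LinearMap.sub_apply, QuadRep.Split.scalar_apply, hΦD, hy, sub_self]
    rw [← hDx] at hmem
    exact (Submodule.smul_mem_iff _ (sub_ne_zero.2 hq.symm)).1 hmem
  refine ⟨fun r => latImage r (latPull E₀), F, hF, fun r => ?_, fun r => ?_,
    fun r σ hσ x hx => ?_, fun r σ hσ x hx => ?_, fun r x hx => ?_⟩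
  · rw [eisPart_eq_latImage hPP (he r)]
    exact AddSubgroup.map_mono fun w hw => hw.1
  · rw [natCard_latImage_latPull, mul_comm m r]
    congr 2
    omega
  · obtain ⟨w, hw, rfl⟩ := hx
    have h := hfix σ hσ _ hw.2
    rw [hρ] at h
    rw [← latProj_galois, ratHom_injective h]
  · rw [eisPart_eq_latImage hPP (he r)] at hx
    obtain ⟨w, hw, rfl⟩ := hx
    refine ⟨latGal p l σ *ᵥ w - w, ⟨hrange σ w ((mem_latPull_range hPP).1 hw), ?_⟩,
      by rw [map_sub, latProj_galois]⟩
    show ratHom p l _ ∈ K₀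
    rw [map_sub, ← hρ]
    exact hsub σ hσ _
  · rw [eisPart_eq_latImage hPP (he r)] at hx
    obtain ⟨w, hw, rfl⟩ := hx
    refine ⟨latGal p l (F * F) *ᵥ w - w, ⟨hrange _ w ((mem_latPull_range hPP).1 hw), ?_⟩,
      by rw [map_sub, latProj_galois, mul_smul]⟩
    show ratHom p l _ ∈ K₀
    rw [map_sub, ← hρ, LinearMap.mem_ker]
    have := LinearMap.congr_fun hprod (ratHom p l w)
    simpa only [Module.End.mul_apply, LinearMap.sub_apply, QuadRep.Split.scalar_apply, one_smul,
      LinearMap.zero_apply] using this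

end FermatAgent.Mazur.Descent

end
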