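import Fermat.Agent.ModCurve.Torsion.ForGalRep
import Fermat.Prelude.Def_ModularCurve_HeckeModule
import Fermat.Prelude.Def_ModularCurve_ModularUnit
import Fermat.Prelude.Def_ModularCurve_ReductionModL

/-!
# Notation for the structure of the Eisenstein part of the torsion
-/

set_option autoImplicit false

noncomputable section

namespace FermatAgent.Mazur.Descent

open ModularCurve AlgebraicCurve FermatAgent.ModCurveTorsion

local notation "Qb" => AlgebraicClosure ℚ

/-- The Hecke algebra generated by the operators away from the level. -/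
abbrev HT (p : ℕ) [NeZero p] : Subalgebra ℤ (Module.End ℂ (CuspForm (CongruenceSubgroup.Gamma0 p) 2)) :=
  CuspForm.heckeAlgebra p 2 ({p} : Set ℕ)

/-- Complex conjugation on the lattice as a matrix. -/
def conjMatrix {N : ℕ} [NeZero N] (M : TorsionModel N) :
    Matrix (Fin M.rank) (Fin M.rank) ℤ :=
  LinearMap.toMatrix' M.conj

/-- The classes killed by reduction at `A`. -/
def redKer (A : ValuationSubring Qb) (N : ℕ) : AddSubgroup (JZero N) :=
  (reductionModL A N).ker

theorem mem_redKer {A : ValuationSubring Qb} {N : ℕ} {x : JZero N} :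
    x ∈ redKer A N ↔ reductionModL A N x = 0 := AddMonoidHom.mem_ker

/-- The action of the Hecke algebra on `J₀(p)`. -/
def hact (p : ℕ) [NeZero p] : HeckeAlg →+* Module.End ℤ (JZero p) :=
  heckeEvalBar (ModCurveTorsion.heckeOperatorsCommuteBar p)

theorem hact_eq_smul (p : ℕ) [NeZero p] (t : HeckeAlg) (x : JZero p) :
    (letI := heckeModuleBar p; t • x) = hact p t x :=
  heckeModuleBar_smul_def _ t x

/-- The Eisenstein eigensystem modulo `l`. -/
def eisEval (p l : ℕ) : HeckeAlg →+* ZMod l :=
  MvPolynomial.eval₂Hom (Int.castRingHom (ZMod l))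
    (fun q : Nat.Primes => if (q : ℕ) = p then 1 else 1 + ((q : ℕ) : ZMod l))

end FermatAgent.Mazur.Descent

end
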