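import Fermat.Agent.Mazur.Descent.Structure.Characters

/-!
# Hecke operators on the component

Nilpotency of Eisenstein elements, the relation satisfied by each Galois element, and bounds from
the eigenvalues `± (1 + q)` not occurring.
-/

set_option autoImplicit false

noncomputable section

open Matrix ModularCurve FermatAgent.GalRep FermatAgent.ModCurveTorsion

namespace FermatAgent.Mazur.Descent

local notation "Qb" => AlgebraicClosure ℚ
local notation "GQ" => AlgebraicClosure ℚ ≃ₐ[ℚ] AlgebraicClosure ℚ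

variable {p : ℕ} [NeZero p] [hp : Fact p.Prime] {l : ℕ} [hl : Fact l.Prime]

omit hp in
/-- Powers of an operator induced by a matrix. -/
theorem pow_latProj {r : ℕ} {f : Module.End ℤ (JZero p)} {M : LatMat p l}
    (h : ∀ v, f (latProj r v) = latProj r (M *ᵥ v)) (n : ℕ) (v : Lat p l) :
    (f ^ n) (latProj r v) = latProj r (M ^ n *ᵥ v) := by
  induction n generalizing v with
  | zero => rw [pow_zero, pow_zero, Module.End.one_apply, Matrix.one_mulVec]
  | succ n ih => rw [pow_succ, pow_succ, Module.End.mul_apply, h, ih, Matrix.mulVec_mulVec]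

omit hp in
/-- Members of the component at level `r`. -/
theorem exists_of_mem_eisPart {P : LatMat p l} (hPP : P * P = P) {e : HeckeAlg} {r : ℕ}
    (he : ∀ v : Lat p l, hact p e (latProj r v) = latProj r (P *ᵥ v)) {x : JZero p}
    (hx : x ∈ eisPart p l e r) : ∃ v : Lat p l, P *ᵥ v = v ∧ latProj r v = x := by
  rw [eisPart_eq_latImage hPP he] at hx
  obtain ⟨v, hv, rfl⟩ := hx
  exact ⟨v, (mem_latPull_range hPP).1 hv, rfl⟩

omit hp in
/-- An operator induced by an element of the kernel of the character is nilpotent on the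
component. -/
theorem exists_pow_eq_zero {θ : HT p →+* ZMod l} {P : LatMat p l} (hPP : P * P = P) (hP : IsApprox P)
    (hpure : ∀ s, θ s = 0 → ∃ k, MatCongr 1 (P * latHecke p l s ^ k) 0) {s : HT p} (hs : θ s = 0)
    {e : HeckeAlg} {r : ℕ} (he : ∀ v : Lat p l, hact p e (latProj r v) = latProj r (P *ᵥ v))
    {f : Module.End ℤ (JZero p)} (hf : ∀ v, f (latProj r v) = latProj r (latHecke p l s *ᵥ v)) :
    ∃ n, ∀ x ∈ eisPart p l e r, (f ^ n) x = 0 := by
  obtain ⟨k, hk⟩ := hpure s hs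
  refine ⟨k * r, fun x hx => ?_⟩
  obtain ⟨v, hv, rfl⟩ := exists_of_mem_eisPart hPP he hx
  rw [pow_latProj hf, latProj_pow_eq_zero hPP hP hk r hv]

variable (hln : l ∣ eisensteinNumerator p)

include hln in
/-- `T_l ≡ 1` on the component. -/
theorem heckeEll_nilpotent_component (hlp : ¬ l ∣ p) {P : LatMat p l} (hPP : P * P = P)
    (hP : IsApprox P)
    (hpure : ∀ s, latEisChar hln s = 0 → ∃ k, MatCongr 1 (P * latHecke p l s ^ k) 0)
    {e : HeckeAlg} {r : ℕ} (he : ∀ v : Lat p l, hact p e (latProj r v) = latProj r (P *ᵥ v)) :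
    ∃ n : ℕ, ∀ x ∈ eisPart p l e r,
      ((hact p (heckeGen ⟨l, Fact.out⟩) - 1) ^ n) x = 0 := by
  refine exists_pow_eq_zero (θ := latEisChar hln) (s := heckeTl p l hlp - 1) hPP hP hpure ?_ he
    fun v => ?_
  · rw [map_sub, map_one, heckeTl, latEisChar_T, ZMod.natCast_self, add_zero, sub_self]
  · rw [LinearMap.sub_apply, Module.End.one_apply, hact_heckeGen_latProj hlp, map_sub (latHecke p l),
      map_one, Matrix.sub_mulVec, Matrix.one_mulVec, map_sub]

include hln in
/-- **The quadratic relation on the component.** -/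
theorem quadratic_component {P : LatMat p l} (hPP : P * P = P) (hP : IsApprox P)
    (hpure : ∀ s, latEisChar hln s = 0 → ∃ k, MatCongr 1 (P * latHecke p l s ^ k) 0)
    {e : HeckeAlg} {r : ℕ} (he : ∀ v : Lat p l, hact p e (latProj r v) = latProj r (P *ᵥ v))
    (σ : GQ) : ∃ a : HeckeAlg,
    (∃ n : ℕ, ∀ x ∈ eisPart p l e r,
      ((hact p a - ((1 + (cycloChar l σ : ZMod l).val : ℕ) : Module.End ℤ (JZero p))) ^ n) x = 0) ∧
      ∀ x ∈ eisPart p l e r, σ • σ • x - hact p a (σ • x) + cycNat l r σ • x = 0 := by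
  obtain ⟨t, ht, htθ⟩ := exists_approx_value hln σ (max r 1)
  obtain ⟨a, -, ha⟩ := exists_hecke_lift (latEisChar hln) (latEisChar_T hln) t
  set c := 1 + (cycloChar l σ : ZMod l).val
  refine ⟨a, exists_pow_eq_zero (θ := latEisChar hln) (s := t - (c : HT p)) hPP hP hpure ?_ he
    fun v => ?_, fun x hx => ?_⟩
  · rw [map_sub, htθ, map_natCast, Nat.cast_add, Nat.cast_one, ZMod.natCast_zmod_val, sub_self]
  · rw [LinearMap.sub_apply, Module.End.natCast_apply, ha, map_sub (latHecke p l), map_natCast,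
      Matrix.sub_mulVec, map_sub, ← nsmul_one, Matrix.smul_mulVec, Matrix.one_mulVec, map_nsmul]
  · obtain ⟨v, -, rfl⟩ := exists_of_mem_eisPart hPP he hx
    rw [← latProj_galois, ← latProj_galois, ha, cycNat, ← latProj_smul, ← map_sub, ← map_add,
      latProj_eq_zero_iff]
    intro i
    have h1 := matCongr_mulVec (ht.mono (le_max_left r 1)) (latGal p l σ *ᵥ v) i
    rw [Matrix.add_mulVec, Matrix.smul_mulVec, Matrix.mulVec_mulVec _ (latGal p l σ⁻¹), ← map_mul,
      inv_mul_cancel, map_one, Matrix.one_mulVec] at h1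
    simp only [Pi.add_apply, Pi.sub_apply, Pi.smul_apply] at h1 ⊢
    rwa [← sub_add_eq_add_sub] at h1

omit hl in
omit [NeZero p] hp in
/-- Eigenvalues `± (1 + q)` do not occur. -/
theorem exists_prime_avoid (l : ℕ) : ∃ q : ℕ, q.Prime ∧ q ≠ p ∧ q ≠ l := by
  obtain ⟨q, hq, hqp⟩ := Nat.exists_infinite_primes (p + l + 1)
  exact ⟨q, hqp, by omega, by omega⟩

include hln in
/-- **Fixed classes are bounded.** -/
theorem fixed_bound_component {P : LatMat p l} (hPP : P * P = P) {e : ℕ → HeckeAlg}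
    (he : ∀ (r : ℕ) (v : Lat p l), hact p (e r) (latProj r v) = latProj r (P *ᵥ v)) :
    ∃ D : ℕ, D ≠ 0 ∧ ∀ r, ∀ x ∈ eisPart p l (e r) r, (∀ σ : GQ, σ • x = x) → D • x = 0 := by
  obtain ⟨q, hq, hqp', hql⟩ := exists_prime_avoid (p := p) l
  have hqp : ¬ q ∣ p := fun h => hqp' ((Nat.prime_dvd_prime_iff_eq hq hp.out).1 h)
  have hqS : q ∉ ({p} : Set ℕ) := fun h => hqp' (Set.mem_singleton_iff.1 h)
  obtain ⟨B, τ, hB, hτ⟩ := RT.exists_place_isFrobeniusAt hq
  set T := CuspForm.heckeAlgebra.T (k := 2) hq hqp hqS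
  set M := (torsionModel p).heckeMatrixAway {p} T +
    ((-1 : ℤ) * ((q : ℤ) + 1)) • (1 : Matrix _ _ ℤ)
  have hdet : M.det ≠ 0 :=
    det_heckeMatrix_add_ne_zero (torsionModel p) hp.out hq hqp hqS (Or.inr rfl)
  refine ⟨M.det.natAbs, Int.natAbs_ne_zero.2 hdet, fun r x hx hfix => ?_⟩
  obtain ⟨v, -, rfl⟩ := exists_of_mem_eisPart hPP (he r) hx
  have hG : ∀ w, latProj r w = latProj r v → latProj r (latGal p l τ *ᵥ w) = latProj r v :=
    fun w hw => by rw [latProj_galois, hw, hfix]
  obtain ⟨t, -, ht⟩ := exists_hecke_lift (latEisChar hln) (latEisChar_T hln) T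
  have hM : latProj r (M.map (Int.cast : ℤ → ℤ_[l]) *ᵥ v) = 0 := by
    have hquad : latGal p l τ * latGal p l τ - latHecke p l T * latGal p l τ +
        (q : LatMat p l) = 0 := (tateData p l).quad q hq hqp hqS hql B hB τ hτ
    have h1 := congrArg (fun X => latProj r (X *ᵥ v)) hquad
    simp only [Matrix.add_mulVec, Matrix.sub_mulVec, ← Matrix.mulVec_mulVec, map_add, map_sub,
      Matrix.zero_mulVec, map_zero] at h1
    rw [hG _ (hG v rfl), ← ht, hG v rfl, ht] at h1
    have hM' : M.map (Int.cast : ℤ → ℤ_[l]) = latHecke p l T - ((q : LatMat p l) + 1) := by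
      show (Int.castRingHom ℤ_[l]).mapMatrix M = _
      rw [map_add, latHecke, RingHom.comp_apply, map_zsmul, map_one, zsmul_one]
      push_cast
      noncomm_ring
    rw [hM', Matrix.sub_mulVec, Matrix.add_mulVec, Matrix.one_mulVec, map_sub, map_add, sub_eq_zero]
    rw [sub_add_eq_add_sub, sub_eq_zero] at h1
    rw [← h1, add_comm]
  rw [latProj_eq_zero_iff] at hM
  have h2 : latProj r ((M.det : ℤ_[l]) • v) = 0 := by
    rw [latProj_eq_zero_iff]
    intro i
    have hadj : (M.det : ℤ_[l]) • v =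
        (Matrix.adjugate M).map (Int.cast : ℤ → ℤ_[l]) *ᵥ (M.map (Int.cast : ℤ → ℤ_[l]) *ᵥ v) := by
      show _ = ((Int.castRingHom ℤ_[l]).mapMatrix M.adjugate) *ᵥ
        ((Int.castRingHom ℤ_[l]).mapMatrix M *ᵥ v)
      rw [Matrix.mulVec_mulVec, ← map_mul, Matrix.adjugate_mul, map_zsmul, map_one,
        Matrix.smul_mulVec, Matrix.one_mulVec, Int.cast_smul_eq_zsmul]
    rw [hadj]
    generalize M.map (Int.cast : ℤ → ℤ_[l]) *ᵥ v = w at hM ⊢
    simp only [Matrix.mulVec, dotProduct]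
    exact Finset.dvd_sum fun j _ => (hM j).mul_left _
  rw [Int.cast_smul_eq_zsmul, map_zsmul] at h2
  rwa [← natAbs_nsmul_eq_zero] at h2

include hln in
/-- **`T_l` has no eigenvalue `± (1 + l)`.** -/
theorem ordinary_gap_component (hlp : ¬ l ∣ p) {P : LatMat p l} (hPP : P * P = P) {e : ℕ → HeckeAlg}
    (he : ∀ (r : ℕ) (v : Lat p l), hact p (e r) (latProj r v) = latProj r (P *ᵥ v)) :
    ∃ (D : ℕ) (s : HeckeAlg), D ≠ 0 ∧ ∀ r, ∀ x ∈ eisPart p l (e r) r,
    D • x = hact p (s * ((((l : HeckeAlg) + 1) ^ 2) - heckeGen ⟨l, Fact.out⟩ ^ 2)) x := by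
  set ι := (torsionModel p).heckeMatrixAway {p}
  set T := heckeTl p l hlp
  set h : HT p := T ^ 2 - ((l : HT p) + 1) ^ 2 with hh
  have hdet : (ι h).det ≠ 0 := by
    have h1 := det_heckeMatrix_add_ne_zero (torsionModel p) hp.out hl.out hlp
      (notMem_of_not_dvd hlp) (ε := 1) (Or.inl rfl)
    have h2 := det_heckeMatrix_add_ne_zero (torsionModel p) hp.out hl.out hlp
      (notMem_of_not_dvd hlp) (ε := -1) (Or.inr rfl)
    rw [show h = (T + ((1 : ℤ) * ((l : ℤ) + 1)) • (1 : HT p)) *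
        (T + ((-1 : ℤ) * ((l : ℤ) + 1)) • (1 : HT p)) by
      rw [zsmul_one, zsmul_one, hh]
      push_cast
      ring, map_mul, map_add, map_add, map_zsmul, map_zsmul, map_one, Matrix.det_mul]
    exact mul_ne_zero h1 h2
  set f := (ι h).charpoly
  have hc : f.coeff 0 ≠ 0 := fun h0 => hdet (by
    rw [Matrix.det_eq_sign_charpoly_coeff, h0, mul_zero])
  have hkey : (f.coeff 0 : HT p) = -h * Polynomial.aeval h f.divX := by
    have h1 : Polynomial.aeval h f = 0 := by
      refine (torsionModel p).heckeMatrixAway_injective {p} ?_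
      rw [map_zero]
      exact (Polynomial.aeval_algHom_apply ι.toIntAlgHom h f).symm.trans (Matrix.aeval_self_charpoly _)
    rw [← Polynomial.X_mul_divX_add f, map_add, map_mul, Polynomial.aeval_X, Polynomial.aeval_C,
      eq_intCast] at h1
    rw [neg_mul, eq_neg_iff_add_eq_zero, add_comm]
    exact h1
  obtain ⟨g, -, hg⟩ := exists_hecke_lift (latEisChar hln) (latEisChar_T hln)
    (Polynomial.aeval h f.divX)
  refine ⟨(f.coeff 0).natAbs, ((f.coeff 0).sign : HeckeAlg) * g, Int.natAbs_ne_zero.2 hc,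
    fun r x hx => ?_⟩
  obtain ⟨v, -, rfl⟩ := exists_of_mem_eisPart hPP (he r) hx
  have hneg : hact p (((l : HeckeAlg) + 1) ^ 2 - heckeGen ⟨l, Fact.out⟩ ^ 2) (latProj r v) =
      latProj r (latHecke p l (-h) *ᵥ v) := by
    rw [map_sub, map_pow, map_pow, map_add, map_natCast, map_one, LinearMap.sub_apply,
      pow_latProj (f := hact p (heckeGen ⟨l, Fact.out⟩)) (hact_heckeGen_latProj hlp r),
      pow_latProj (f := (l : Module.End ℤ (JZero p)) + 1) (M := (l : LatMat p l) + 1) fun w => ?_,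
      ← map_sub, ← Matrix.sub_mulVec, neg_sub, map_sub, map_pow, map_pow, map_add, map_natCast,
      map_one]
    rw [LinearMap.add_apply, Module.End.natCast_apply, Module.End.one_apply, Matrix.add_mulVec,
      Matrix.one_mulVec, map_add, ← nsmul_one, Matrix.smul_mulVec, Matrix.one_mulVec, map_nsmul]
  rw [map_mul, map_mul, map_intCast, Module.End.mul_apply, Module.End.mul_apply,
    Module.End.intCast_apply, hneg, hg, Matrix.mulVec_mulVec, ← map_mul,
    mul_comm (Polynomial.aeval h f.divX), ← hkey, map_intCast, ← natCast_zsmul]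
  rw [show ((f.coeff 0 : ℤ) : LatMat p l) *ᵥ v = (f.coeff 0) • v by
    rw [← zsmul_one, Matrix.smul_mulVec, Matrix.one_mulVec], map_zsmul, smul_smul,
    Int.sign_mul_self_eq_natAbs]

end FermatAgent.Mazur.Descent

end
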