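import Fermat.Agent.Mazur.Descent.Structure.AtL
import Fermat.Agent.Mazur.Descent.Structure.AtP

/-!
# The local data of the Eisenstein component
-/

set_option autoImplicit false

noncomputable section

open ModularCurve FermatAgent.GalRep FermatAgent.ModCurveTorsion

namespace FermatAgent.Mazur.Descent

local notation "Qb" => AlgebraicClosure ℚ

/-- A prime dividing the Eisenstein numerator of a prime level is prime to the level. -/
theorem not_dvd_level {p l : ℕ} (hp : p.Prime) (hl : l.Prime) (hln : l ∣ eisensteinNumerator p) :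
    ¬ l ∣ p := fun h => by
  have hd : l ∣ p - 1 := hln.trans (eisensteinNumerator_dvd p)
  rw [(Nat.prime_dvd_prime_iff_eq hl hp).1 h] at hd
  have h2 := hp.two_le
  have := Nat.le_of_dvd (by omega) hd
  omega

/-- **The local data of the Eisenstein component.** -/
theorem exists_localData {p : ℕ} [NeZero p] [hp : Fact p.Prime] {l : ℕ} [hl : Fact l.Prime]
    (hln : l ∣ eisensteinNumerator p) {A Ap : ValuationSubring Qb} (hA : A.LiesOverPrime l)
    (hAp : Ap.LiesOverPrime p) : Nonempty (LocalData p l A Ap) := by
  have hlp : ¬ l ∣ p := not_dvd_level hp.out hl.out hln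
  have hne : l ≠ p := fun h => hlp (h ▸ dvd_rfl)
  obtain ⟨P, e, hPP, hP, hpure, heval, he⟩ := exists_component (p := p) (l := l) hln
  have he' : ∀ (r : ℕ) (v : Lat p l), hact p (e r) (latProj r v) = latProj r (Matrix.mulVec P v) :=
    fun r v => he r r le_rfl v
  obtain ⟨m, frob, hm, hG0, hinG0, hfrob, hfrobG0⟩ :=
    exists_atL hln hlp hA hPP hP hpure he'
  obtain ⟨Gt, frobP, hfrobP, hGt, hcardGt, hinGt, hsub, hfrobPG⟩ := exists_atP hne hAp hPP hP he' hm
  refine ⟨{
    m := m
    e := e
    eval_e := heval
    e_idem := fun r x hx => ?_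
    e_succ := fun r x hx => ?_
    quadratic := fun r σ => quadratic_component hln hPP hP hpure (he' r) σ
    heckeEll_nilpotent := fun r => heckeEll_nilpotent_component hln hlp hPP hP hpure (he' r)
    fixed_bound := fixed_bound_component hln hPP he'
    ordinary_gap := ordinary_gap_component hln hlp hPP he'
    card_G := fun r => ?_
    card_G0 := hG0
    inertia_G0 := hinG0
    frob := frob
    isFrob := hfrob
    frob_G0 := hfrobG0
    Gt := Gt
    Gt_le := hGt
    card_Gt := hcardGt
    inertia_Gt := hinGt
    inertia_sub := hsub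
    frobP := frobP
    isFrobP := hfrobP
    frobP_G := hfrobPG }⟩
  · obtain ⟨v, rfl⟩ := exists_latProj_eq hx
    rw [he', he', Matrix.mulVec_mulVec, hPP]
  · obtain ⟨v, rfl⟩ := exists_latProj_eq hx
    rw [he r (r + 1) (Nat.le_succ r), he']
  · rw [eisPart_eq_latImage hPP (he' r), natCard_latImage_latPull, hm, mul_comm]

end FermatAgent.Mazur.Descent

end
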