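import Mathlib.LinearAlgebra.Semisimple
import Mathlib.LinearAlgebra.Trace
import Mathlib.LinearAlgebra.Eigenspace.Minpoly

/-!
# Two-dimensional behaviour without eigenspace decomposition

A representation commuting with a semisimple commutative algebra, satisfying quadratic relations
over it, with a trace zero involution. Then each element with two separated roots has the two
eigenspaces of equal dimension, and this determines the action on stable subspaces.
-/

set_option autoImplicit false

noncomputable section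

namespace FermatAgent.Mazur.Descent

open Module

/-- A representation with quadratic relations over a semisimple commutative algebra. -/
structure QuadRep (K V G : Type*) [Field K] [AddCommGroup V] [Module K V] [Group G] where
  /-- the algebra of scalars -/
  alg : Subalgebra K (Module.End K V)
  comm : ∀ a ∈ alg, ∀ b ∈ alg, a * b = b * a
  semisimple : ∀ a ∈ alg, a.IsSemisimple
  /-- the representation -/
  rho : G →* Module.End K V
  /-- the determinant character -/
  omega : G →* K
  comm_rho : ∀ g : G, ∀ a ∈ alg, a * rho g = rho g * a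
  quad : ∀ g : G, ∃ a ∈ alg, rho g + omega g • rho g⁻¹ = a
  /-- the involution -/
  conj : G
  conj_mul_self : conj * conj = 1
  omega_conj : omega conj = -1
  trace_conj : ∀ a ∈ alg, LinearMap.trace K V (rho conj * a) = 0

namespace QuadRep

variable {K V G : Type*} [Field K] [AddCommGroup V] [Module K V] [FiniteDimensional K V] [Group G]
variable (R : QuadRep K V G)

/-- The projector onto the kernel of an element of the algebra. -/
theorem exists_kernel_proj {δ : Module.End K V} (hδ : δ ∈ R.alg) :
    ∃ π ∈ R.alg, ∃ s ∈ R.alg, π * π = π ∧ δ * π = 0 ∧ δ * s = 1 - π := by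
  classical
  set m := minpoly K δ
  set g := EuclideanDomain.gcd (Polynomial.X ^ 2 : Polynomial K) m
  have hg : g ∣ Polynomial.X := by
    have hsq : Squarefree g :=
      ((R.semisimple δ hδ).minpoly_squarefree).squarefree_of_dvd (EuclideanDomain.gcd_dvd_right _ _)
    exact (hsq.dvd_pow_iff_dvd two_ne_zero).1 (EuclideanDomain.gcd_dvd_left _ _)
  obtain ⟨c, hc⟩ := hg
  set u := EuclideanDomain.gcdA (Polynomial.X ^ 2 : Polynomial K) m * c
  have hu : Polynomial.aeval δ (Polynomial.X ^ 2 * u) = δ := by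
    have h := congrArg (fun q => Polynomial.aeval δ (q * c))
      (EuclideanDomain.gcd_eq_gcd_ab (Polynomial.X ^ 2 : Polynomial K) m)
    rw [← hc, Polynomial.aeval_X, add_mul, map_add, mul_assoc, mul_assoc, map_mul _ m,
      minpoly.aeval, zero_mul, add_zero] at h
    exact h.symm
  have hs : Polynomial.aeval δ u ∈ R.alg := by
    have h := Polynomial.aeval_subalgebra_coe u R.alg ⟨δ, hδ⟩
    rw [show Polynomial.aeval δ u = _ from h.symm]
    exact Subtype.coe_prop _
  set s := Polynomial.aeval δ u
  have hds : δ * s * δ = δ := by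
    rw [mul_assoc, R.comm s hs δ hδ, ← mul_assoc, ← sq]
    simpa [map_mul] using hu
  refine ⟨1 - δ * s, sub_mem (one_mem _) (mul_mem hδ hs), s, hs, ?_, ?_, by rw [sub_sub_cancel]⟩
  · have : δ * s * (δ * s) = δ * s := by rw [← mul_assoc, hds]
    rw [mul_sub, mul_one, sub_mul, one_mul, this, sub_self, sub_zero]
  · rw [mul_sub, mul_one, R.comm δ hδ (δ * s) (mul_mem hδ hs), hds, sub_self]

omit [FiniteDimensional K V] in
/-- The fundamental identity of traces. -/
theorem two_trace [CharZero K] {g : G} {a : Module.End K V}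
    (hrel : R.rho g + R.omega g • R.rho g⁻¹ = a) {e : Module.End K V} (he : e ∈ R.alg) :
    2 * LinearMap.trace K V (R.rho g * e) = LinearMap.trace K V (a * e) := by
  obtain ⟨a', ha', hrel'⟩ := R.quad (g * R.conj)
  have hinv : R.conj⁻¹ = R.conj := inv_eq_of_mul_eq_one_right R.conj_mul_self
  rw [mul_inv_rev, hinv, map_mul, map_mul, map_mul, R.omega_conj, mul_neg, mul_one,
    neg_smul, ← sub_eq_add_neg] at hrel'
  set C := R.rho R.conj
  have hCC : C * C = 1 := by rw [← map_mul, R.conj_mul_self, map_one]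
  have h1 := congrArg (fun x => LinearMap.trace K V (x * (C * e))) hrel'
  simp only [sub_mul, map_sub, smul_mul_assoc, map_smul] at h1
  have e1 : R.rho g * C * (C * e) = R.rho g * e := by
    rw [mul_assoc, ← mul_assoc C C e, hCC, one_mul]
  have e2 : LinearMap.trace K V (C * R.rho g⁻¹ * (C * e)) =
      LinearMap.trace K V (R.rho g⁻¹ * e) := by
    rw [← R.comm_rho R.conj e he, mul_assoc, LinearMap.trace_mul_comm, mul_assoc (R.rho g⁻¹),
      mul_assoc e, hCC, mul_one]
  have e3 : LinearMap.trace K V (a' * (C * e)) = 0 := by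
    rw [← mul_assoc, R.comm_rho R.conj a' ha', mul_assoc]
    exact R.trace_conj _ (mul_mem ha' he)
  rw [e1, e2, e3, smul_eq_mul] at h1
  rw [← hrel, add_mul, map_add, smul_mul_assoc, map_smul, smul_eq_mul]
  linear_combination h1

omit [FiniteDimensional K V] in
/-- A vector of the range of an idempotent is fixed by it. -/
theorem apply_of_mem_range {e : Module.End K V} (he : e * e = e) {x : V}
    (hx : x ∈ LinearMap.range e) : e x = x := by
  obtain ⟨y, rfl⟩ := hx
  exact LinearMap.congr_fun he y

/-- The dimension of the range of an idempotent is its trace. -/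
theorem finrank_range_eq_trace {e : Module.End K V} (he : e * e = e) :
    (finrank K (LinearMap.range e) : K) = LinearMap.trace K V e :=
  ((LinearMap.isProj_range_iff_isIdempotentElem _).2 he).trace.symm

/-- **Equal halves.** An element with two separated roots has eigenspaces of equal dimension. -/
theorem two_mul_finrank_eigen [CharZero K] {g : G} {a α β s e : Module.End K V}
    (hrel : R.rho g + R.omega g • R.rho g⁻¹ = a) (hα : α ∈ R.alg) (hβ : β ∈ R.alg)
    (hs : s ∈ R.alg) (he : e ∈ R.alg) (hee : e * e = e) (hsum : a * e = (α + β) * e)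
    (hprod : (R.rho g - α) * (R.rho g - β) * e = 0) (hinv : (α - β) * s * e = e) :
    2 * finrank K ↥(LinearMap.range e ⊓ LinearMap.ker (R.rho g - α)) =
      finrank K (LinearMap.range e) := by
  set π := s * (R.rho g - β) * e
  have hsg : s * R.rho g = R.rho g * s := R.comm_rho g s hs
  have hgπ : ∀ x, R.rho g (π x) = α (π x) := fun x => by
    have h0 : (R.rho g - α) * π = 0 := by
      have : (R.rho g - α) * s = s * (R.rho g - α) := by
        rw [sub_mul, mul_sub, hsg, R.comm α hα s hs]
      rw [show π = s * ((R.rho g - β) * e) from mul_assoc _ _ _, ← mul_assoc, this, mul_assoc,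
        ← mul_assoc (R.rho g - α), hprod, mul_zero]
      
    have := LinearMap.congr_fun h0 x
    rwa [Module.End.mul_apply, LinearMap.sub_apply, LinearMap.zero_apply, sub_eq_zero] at this
  have heπ : e * π = π := by
    simp only [π, ← mul_assoc]
    rw [R.comm e he s hs, mul_assoc s e, mul_sub, R.comm_rho g e he, R.comm e he β hβ, ← sub_mul,
      mul_assoc, mul_assoc, hee, ← mul_assoc]
  have hfix : ∀ x, e x = x → R.rho g x = α x → π x = x := fun x hx hgx => by
    have h1 : π x = s ((α - β) x) := by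
      simp only [π, Module.End.mul_apply, hx, LinearMap.sub_apply, hgx]
    have h2 := LinearMap.congr_fun hinv x
    rw [Module.End.mul_apply, hx, R.comm _ (sub_mem hα hβ) s hs] at h2
    exact h1.trans h2
  have hππ : π * π = π := LinearMap.ext fun x =>
    hfix _ (LinearMap.congr_fun heπ x) (hgπ x)
  have hrange : LinearMap.range π = LinearMap.range e ⊓ LinearMap.ker (R.rho g - α) := by
    refine le_antisymm ?_ fun x hx => ⟨x, hfix x (apply_of_mem_range hee hx.1) ?_⟩
    · rintro _ ⟨x, rfl⟩
      refine ⟨⟨π x, LinearMap.congr_fun heπ x⟩, ?_⟩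
      rw [SetLike.mem_coe, LinearMap.mem_ker, LinearMap.sub_apply, hgπ, sub_self]
    · have := hx.2
      rwa [SetLike.mem_coe, LinearMap.mem_ker, LinearMap.sub_apply, sub_eq_zero] at this
  have htr : 2 * LinearMap.trace K V π = LinearMap.trace K V e := by
    have h1 := R.two_trace hrel (mul_mem hs he)
    have h2 : a * (s * e) = (α + β) * (s * e) := by
      rw [R.comm s hs e he, ← mul_assoc, hsum, mul_assoc]
    have h3 : π = R.rho g * (s * e) - β * (s * e) := by
      simp only [π]
      rw [mul_sub, sub_mul, hsg, R.comm s hs β hβ, mul_assoc, mul_assoc]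
    rw [h3, map_sub, mul_sub, h1, h2, two_mul (LinearMap.trace K V _), ← map_add, ← map_sub,
      ← add_mul, ← sub_mul, ← mul_assoc, show α + β - (β + β) = α - β by abel, hinv]
  rw [← hrange]
  refine Nat.cast_injective (R := K) ?_
  push_cast
  rw [finrank_range_eq_trace hππ, finrank_range_eq_trace hee, htr]

section Split

variable [CharZero K]

/-- A stable subspace of at most half the dimension containing the differences under an element
with separated roots `1`, `z`. -/
structure Split where
  /-- the idempotent -/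
  e : Module.End K V
  e_mem : e ∈ R.alg
  e_idem : e * e = e
  /-- the subspace -/
  W : Submodule K V
  W_stable : ∀ a ∈ R.alg, ∀ x ∈ W, a x ∈ W
  W_le : 2 * finrank K ↥(LinearMap.range e ⊓ W) ≤ finrank K (LinearMap.range e)
  /-- the element -/
  g₀ : G
  sub_mem_W : ∀ x, R.rho g₀ x - x ∈ W
  omega_ne : R.omega g₀ ≠ 1

variable {R}

omit [CharZero K] in
omit [FiniteDimensional K V] in
theorem Split.scalar_mem (c : K) : algebraMap K (Module.End K V) c ∈ R.alg :=
  R.alg.algebraMap_mem c

omit [CharZero K] [FiniteDimensional K V] in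
theorem rel_apply {g : G} {a : Module.End K V} (hrel : R.rho g + R.omega g • R.rho g⁻¹ = a) (x : V) :
    a (R.rho g x) = R.rho g (R.rho g x) + R.omega g • x := by
  rw [← hrel, LinearMap.add_apply, LinearMap.smul_apply, ← Module.End.mul_apply (R.rho g⁻¹),
    ← map_mul, inv_mul_cancel, map_one, Module.End.one_apply]

omit [CharZero K] [FiniteDimensional K V] in
/-- The relation factors when the eigenvalue sum is known. -/
theorem prod_eq_zero {g : G} {a α β e : Module.End K V}
    (hrel : R.rho g + R.omega g • R.rho g⁻¹ = a) (ha : a ∈ R.alg) (hα : α ∈ R.alg)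
    (_he : e ∈ R.alg)
    (hsum : a * e = (α + β) * e) (hprod : α * β * e = R.omega g • e) :
    (R.rho g - α) * (R.rho g - β) * e = 0 := by
  refine LinearMap.ext fun x => ?_
  simp only [Module.End.mul_apply, LinearMap.sub_apply, LinearMap.zero_apply, map_sub]
  have h1 := rel_apply hrel (e x)
  have h2 := LinearMap.congr_fun hsum x
  have h3 := LinearMap.congr_fun hprod x
  simp only [Module.End.mul_apply, LinearMap.add_apply, LinearMap.smul_apply] at h2 h3
  rw [← Module.End.mul_apply a (R.rho g), R.comm_rho g a ha, Module.End.mul_apply, h2, map_add]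
    at h1
  rw [← Module.End.mul_apply α (R.rho g), R.comm_rho g α hα, Module.End.mul_apply, h3,
    show R.omega g • e x = R.rho g (α (e x)) + R.rho g (β (e x)) - R.rho g (R.rho g (e x)) by
      rw [h1, add_sub_cancel_left]]
  abel

omit [CharZero K] in
omit [FiniteDimensional K V] in
theorem range_mul_le {a e : Module.End K V} (ha : a ∈ R.alg) (he : e ∈ R.alg) :
    LinearMap.range (a * e) ≤ LinearMap.range e := by
  rw [R.comm a ha e he]
  rintro _ ⟨x, rfl⟩
  exact ⟨a x, rfl⟩

omit [CharZero K] [FiniteDimensional K V] in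
theorem mem_range_iff {e : Module.End K V} (he : e * e = e) {x : V} :
    x ∈ LinearMap.range e ↔ e x = x :=
  ⟨apply_of_mem_range he, fun h => ⟨x, h⟩⟩

namespace Split

variable (S : R.Split)

omit [FiniteDimensional K V] [CharZero K] in
theorem scalar_apply (c : K) (x : V) : algebraMap K (Module.End K V) c x = c • x := by
  rw [Algebra.algebraMap_eq_smul_one, LinearMap.smul_apply, Module.End.one_apply]

/-- On any piece cut out by the algebra the eigenspace of `g₀` for `ω` is in the subspace and
has half the dimension, as soon as the eigenvalue sum is `1 + ω` there. -/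
theorem half_of_sum {a₀ f : Module.End K V}
    (hrel : R.rho S.g₀ + R.omega S.g₀ • R.rho S.g₀⁻¹ = a₀) (ha₀ : a₀ ∈ R.alg) (hf : f ∈ R.alg)
    (hff : f * f = f) (hsum : a₀ * f = algebraMap K (Module.End K V) (1 + R.omega S.g₀) * f) :
    2 * finrank K ↥(LinearMap.range f ⊓
        LinearMap.ker (R.rho S.g₀ - algebraMap K (Module.End K V) (R.omega S.g₀))) =
      finrank K (LinearMap.range f) ∧
    LinearMap.range f ⊓
        LinearMap.ker (R.rho S.g₀ - algebraMap K (Module.End K V) (R.omega S.g₀)) ≤ S.W := by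
  set z := R.omega S.g₀
  have hz : z - 1 ≠ 0 := sub_ne_zero.2 S.omega_ne
  refine ⟨R.two_mul_finrank_eigen (α := algebraMap K _ z) (β := algebraMap K _ 1)
    (s := algebraMap K _ (z - 1)⁻¹) hrel (scalar_mem _) (scalar_mem _) (scalar_mem _) hf hff
    ?_ ?_ ?_, ?_⟩
  · rw [hsum, ← map_add, add_comm]
  · refine prod_eq_zero hrel ha₀ (scalar_mem _) hf ?_ ?_
    · rw [hsum, ← map_add, add_comm]
    · rw [← map_mul, mul_one, Algebra.algebraMap_eq_smul_one, smul_mul_assoc, one_mul]
  · rw [← map_sub, ← map_mul, mul_inv_cancel₀ hz, map_one, one_mul]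
  · intro x hx
    have h := hx.2
    rw [SetLike.mem_coe, LinearMap.mem_ker, LinearMap.sub_apply, scalar_apply, sub_eq_zero] at h
    have h1 := S.sub_mem_W x
    rw [h] at h1
    have : x = (z - 1)⁻¹ • (z • x - x) := by
      rw [← one_smul K x, smul_smul, ← sub_smul, one_smul, smul_smul, mul_one,
        inv_mul_cancel₀ hz, one_smul]
    rw [this]
    exact S.W.smul_mem _ h1

omit [FiniteDimensional K V] [CharZero K] in
/-- The element `δ` kills a piece of the range modulo `W`: then the complement of its kernel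
lies in `W`. -/
theorem range_le_of_maps {δ π s f : Module.End K V} (hs : s ∈ R.alg) (_hπ : π ∈ R.alg)
    (_hf : f ∈ R.alg) (hδ : δ ∈ R.alg) (hds : δ * s = 1 - π)
    (hmaps : ∀ x ∈ LinearMap.range f, δ x ∈ S.W) :
    LinearMap.range ((1 - π) * f) ≤ S.W := by
  rintro _ ⟨x, rfl⟩
  rw [← hds, R.comm δ hδ s hs, mul_assoc]
  exact S.W_stable s hs _ (hmaps _ ⟨x, rfl⟩)

/-- **The splitting.** `W` meets the range of `e` in the eigenspace of `g₀`, of half the
dimension, and the eigenvalue sum of `g₀` is `1 + ω`. -/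
theorem main {a₀ : Module.End K V} (hrel : R.rho S.g₀ + R.omega S.g₀ • R.rho S.g₀⁻¹ = a₀)
    (ha₀ : a₀ ∈ R.alg) :
    a₀ * S.e = algebraMap K (Module.End K V) (1 + R.omega S.g₀) * S.e ∧
    LinearMap.range S.e ⊓ S.W = LinearMap.range S.e ⊓
        LinearMap.ker (R.rho S.g₀ - algebraMap K (Module.End K V) (R.omega S.g₀)) ∧
    2 * finrank K ↥(LinearMap.range S.e ⊓ S.W) = finrank K (LinearMap.range S.e) := by
  set z := R.omega S.g₀
  set δ := a₀ - algebraMap K (Module.End K V) (1 + z) with hδdef
  have hδ : δ ∈ R.alg := sub_mem ha₀ (scalar_mem _)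
  obtain ⟨π, hπ, s, hs, hππ, hδπ, hds⟩ := R.exists_kernel_proj hδ
  have hmaps : ∀ x ∈ LinearMap.range S.e, δ x ∈ S.W := fun x _ => by
    have h : δ x = (R.rho S.g₀ x - x) + z • (R.rho S.g₀⁻¹ x - x) := by
      rw [hδdef, LinearMap.sub_apply, scalar_apply, ← hrel, LinearMap.add_apply,
        LinearMap.smul_apply, add_smul, one_smul, smul_sub]
      abel
    rw [h]
    refine S.W.add_mem (S.sub_mem_W x) (S.W.smul_mem _ ?_)
    have h2 := S.sub_mem_W (R.rho S.g₀⁻¹ x)
    rw [← Module.End.mul_apply, ← map_mul, mul_inv_cancel, map_one, Module.End.one_apply] at h2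
    have h3 := S.W.neg_mem h2
    rwa [neg_sub] at h3
  have hρle := S.range_le_of_maps hs hπ S.e_mem hδ hds hmaps
  have hsum : a₀ * (π * S.e) = algebraMap K (Module.End K V) (1 + z) * (π * S.e) := by
    rw [← sub_eq_zero, ← sub_mul, ← mul_assoc, ← hδdef, hδπ, zero_mul]
  have hπe : (π * S.e) * (π * S.e) = π * S.e := by
    rw [mul_assoc, ← mul_assoc S.e π, R.comm S.e S.e_mem π hπ, mul_assoc π S.e S.e, S.e_idem,
      ← mul_assoc, hππ]
  obtain ⟨hhalf, hker⟩ := S.half_of_sum hrel ha₀ (mul_mem hπ S.e_mem) hπe hsum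
  set X := LinearMap.range (π * S.e) ⊓
    LinearMap.ker (R.rho S.g₀ - algebraMap K (Module.End K V) z)
  set Y := LinearMap.range ((1 - π) * S.e)
  have hπe_le : LinearMap.range (π * S.e) ≤ LinearMap.range S.e := range_mul_le hπ S.e_mem
  have hY_le : Y ≤ LinearMap.range S.e := range_mul_le (sub_mem (one_mem _) hπ) S.e_mem
  have hdisj : LinearMap.range (π * S.e) ⊓ Y = ⊥ := by
    rw [eq_bot_iff]
    rintro _ ⟨⟨x, rfl⟩, ⟨y, hy⟩⟩
    have h1 : (π * S.e) x = π ((π * S.e) x) := by
      rw [← Module.End.mul_apply π, ← mul_assoc, hππ]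
    rw [← hy] at h1
    rw [Submodule.mem_bot, ← hy, h1, ← Module.End.mul_apply π, ← mul_assoc, mul_sub, mul_one, hππ,
      sub_self, zero_mul, LinearMap.zero_apply]
  have htot : finrank K (LinearMap.range S.e) =
      finrank K (LinearMap.range (π * S.e)) + finrank K Y := by
    have h := Submodule.finrank_sup_add_finrank_inf_eq (LinearMap.range (π * S.e)) Y
    rw [hdisj, finrank_bot, add_zero] at h
    rw [← h]
    refine le_antisymm (Submodule.finrank_mono ?_) (Submodule.finrank_mono (sup_le hπe_le hY_le))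
    rintro _ ⟨x, rfl⟩
    exact Submodule.mem_sup.2 ⟨_, ⟨x, rfl⟩, _, ⟨x, rfl⟩, by
      rw [← LinearMap.add_apply, ← add_mul, add_sub_cancel, one_mul]⟩
  have hXY : X ⊔ Y ≤ LinearMap.range S.e ⊓ S.W :=
    sup_le (le_inf (inf_le_left.trans hπe_le) hker) (le_inf hY_le hρle)
  have hXY' : finrank K ↥(X ⊔ Y) = finrank K X + finrank K Y := by
    have h := Submodule.finrank_sup_add_finrank_inf_eq X Y
    rw [show X ⊓ Y = ⊥ from eq_bot_iff.2 ((inf_le_inf_right _ inf_le_left).trans hdisj.le),
      finrank_bot, add_zero] at h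
    exact h
  have hmono := Submodule.finrank_mono hXY
  have hle := S.W_le
  have hY0 : finrank K Y = 0 := by omega
  have hρ0 : (1 - π) * S.e = 0 := LinearMap.range_eq_bot.1 (Submodule.finrank_eq_zero.1 hY0)
  have hee : π * S.e = S.e := by rwa [sub_mul, one_mul, sub_eq_zero, eq_comm] at hρ0
  have hX : X = LinearMap.range S.e ⊓
      LinearMap.ker (R.rho S.g₀ - algebraMap K (Module.End K V) z) := by rw [← hee]
  rw [hX] at hker hhalf
  rw [hee] at hsum hhalf
  refine ⟨hsum, (Submodule.eq_of_le_of_finrank_le (le_inf inf_le_left hker) ?_).symm, ?_⟩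
  · omega
  · have h1 := Submodule.finrank_mono (le_inf inf_le_left hker :
      LinearMap.range S.e ⊓ LinearMap.ker (R.rho S.g₀ - algebraMap K (Module.End K V) z) ≤
        LinearMap.range S.e ⊓ S.W)
    omega

/-- The algebra acts faithfully on the quotient by `W`. -/
theorem mul_e_eq_zero {δ : Module.End K V} (hδ : δ ∈ R.alg)
    (hmaps : ∀ x ∈ LinearMap.range S.e, δ x ∈ S.W) : δ * S.e = 0 := by
  obtain ⟨a₀, ha₀, hrel⟩ := R.quad S.g₀
  obtain ⟨hsum, hWker, -⟩ := S.main hrel ha₀
  obtain ⟨π, hπ, s, hs, hππ, hδπ, hds⟩ := R.exists_kernel_proj hδ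
  set f := (1 - π) * S.e
  have hf : f ∈ R.alg := mul_mem (sub_mem (one_mem _) hπ) S.e_mem
  have hff : f * f = f := by
    show (1 - π) * S.e * ((1 - π) * S.e) = (1 - π) * S.e
    rw [mul_assoc, ← mul_assoc S.e, R.comm S.e S.e_mem _ (sub_mem (one_mem _) hπ),
      mul_assoc (1 - π) S.e S.e, S.e_idem, ← mul_assoc, sub_mul, one_mul, mul_sub, mul_one, hππ,
      sub_self, sub_zero]
  have hsumf : a₀ * f = algebraMap K (Module.End K V) (1 + R.omega S.g₀) * f := by
    show a₀ * ((1 - π) * S.e) = _ * ((1 - π) * S.e)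
    rw [R.comm _ (sub_mem (one_mem _) hπ) S.e S.e_mem, ← mul_assoc, hsum, mul_assoc]
  obtain ⟨hh, -⟩ := S.half_of_sum hrel ha₀ hf hff hsumf
  have hle : LinearMap.range f ≤ LinearMap.range S.e ⊓ S.W :=
    le_inf (range_mul_le (sub_mem (one_mem _) hπ) S.e_mem)
      (S.range_le_of_maps hs hπ S.e_mem hδ hds hmaps)
  rw [hWker] at hle
  rw [inf_eq_left.2 (hle.trans inf_le_right)] at hh
  have hf0 : f = 0 := LinearMap.range_eq_bot.1 (Submodule.finrank_eq_zero.1 (by omega))
  have he : π * S.e = S.e := by
    have h : (1 - π) * S.e = 0 := hf0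
    rwa [sub_mul, one_mul, sub_eq_zero, eq_comm] at h
  rw [← he, ← mul_assoc, hδπ, zero_mul]

/-- Every element acting trivially modulo `W` acts on `W` by `ω`. -/
theorem apply_mem_W {g : G} (hg : ∀ x, R.rho g x - x ∈ S.W) {x : V}
    (hx : x ∈ LinearMap.range S.e ⊓ S.W) : R.rho g x = R.omega g • x := by
  have key : ∀ g : G, (∀ x, R.rho g x - x ∈ S.W) → R.omega g ≠ 1 →
      ∀ x ∈ LinearMap.range S.e ⊓ S.W, R.rho g x = R.omega g • x := by
    intro g hg hne x hx
    obtain ⟨a, ha, hrel⟩ := R.quad g
    let S' : R.Split := { S with g₀ := g, sub_mem_W := hg, omega_ne := hne }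
    obtain ⟨-, hW, -⟩ := S'.main hrel ha
    have hx' : x ∈ LinearMap.range S.e ⊓
        LinearMap.ker (R.rho g - algebraMap K (Module.End K V) (R.omega g)) := hW.le hx
    have h := hx'.2
    rwa [SetLike.mem_coe, LinearMap.mem_ker, LinearMap.sub_apply, scalar_apply, sub_eq_zero] at h
  rcases ne_or_eq (R.omega g) 1 with hne | heq
  · exact key g hg hne x hx
  have h₀ := key S.g₀ S.sub_mem_W S.omega_ne x hx
  have hg' : ∀ y, R.rho (g * S.g₀) y - y ∈ S.W := fun y => by
    have := S.W.add_mem (hg (R.rho S.g₀ y)) (S.sub_mem_W y)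
    rwa [sub_add_sub_cancel, ← Module.End.mul_apply, ← map_mul] at this
  have hω : R.omega (g * S.g₀) = R.omega S.g₀ := by rw [map_mul, heq, one_mul]
  have h1 := key _ hg' (hω ▸ S.omega_ne) x hx
  rw [map_mul, Module.End.mul_apply, h₀, map_smul, hω] at h1
  rw [heq, one_smul]
  refine smul_right_injective V (fun h0 : R.omega S.g₀ = 0 => ?_) h1
  have : R.omega S.g₀ * R.omega S.g₀⁻¹ = 1 := by rw [← map_mul, mul_inv_cancel, map_one]
  rw [h0, zero_mul] at this
  exact zero_ne_one this

/-- The value on the quotient of an element satisfying a quadratic equation there is in the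
algebra. -/
theorem exists_quot_root {g : G} {T : Module.End K V} (hT : T ∈ R.alg) {c : K} (hc : c ≠ R.omega g)
    (hW : ∀ x ∈ S.W, R.rho g x ∈ S.W)
    (hquad : ∀ x, R.rho g (R.rho g x) - T (R.rho g x) + c • x ∈ S.W) :
    ∃ U ∈ R.alg, (U * U - T * U + algebraMap K (Module.End K V) c) * S.e = 0 ∧
      ∀ x ∈ LinearMap.range S.e, R.rho g x - U x ∈ S.W := by
  obtain ⟨a, ha, hrel⟩ := R.quad g
  have hne : R.omega g - c ≠ 0 := sub_ne_zero.2 (Ne.symm hc)
  have key : ∀ x, (a - T) (R.rho g x) - (R.omega g - c) • x ∈ S.W := fun x => by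
    have h : (a - T) (R.rho g x) - (R.omega g - c) • x =
        R.rho g (R.rho g x) - T (R.rho g x) + c • x := by
      rw [LinearMap.sub_apply, rel_apply hrel, sub_smul]
      abel
    rw [h]
    exact hquad x
  obtain ⟨π, hπ, s, hs, hππ, hδπ, hds⟩ := R.exists_kernel_proj (sub_mem ha hT)
  have hcom : ∀ {t : Module.End K V}, t ∈ R.alg → ∀ x, t (R.rho g x) = R.rho g (t x) :=
    fun ht x => LinearMap.congr_fun (R.comm_rho g _ ht) x
  have hπe : π * S.e = 0 := by
    refine S.mul_e_eq_zero hπ fun x _ => ?_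
    have h1 := key (π x)
    rw [hcom (sub_mem ha hT), ← Module.End.mul_apply (a - T), hδπ, LinearMap.zero_apply, map_zero,
      zero_sub] at h1
    have h2 := S.W.smul_mem (R.omega g - c)⁻¹ (S.W.neg_mem h1)
    rwa [neg_neg, smul_smul, inv_mul_cancel₀ hne, one_smul] at h2
  have hse : ∀ x ∈ LinearMap.range S.e, s ((a - T) x) = x := fun x hx => by
    rw [← Module.End.mul_apply, R.comm s hs _ (sub_mem ha hT), hds, LinearMap.sub_apply,
      Module.End.one_apply, ← apply_of_mem_range S.e_idem hx, ← Module.End.mul_apply π, hπe,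
      LinearMap.zero_apply, sub_zero]
  set U := algebraMap K (Module.End K V) (R.omega g - c) * s
  have hU : U ∈ R.alg := mul_mem (scalar_mem _) hs
  have hUg : ∀ x ∈ LinearMap.range S.e, R.rho g x - U x ∈ S.W := fun x hx => by
    have hgx : R.rho g x ∈ LinearMap.range S.e := (mem_range_iff S.e_idem).2 (by
      rw [hcom S.e_mem, apply_of_mem_range S.e_idem hx])
    have h1 := S.W_stable s hs _ (key x)
    rw [map_sub, hse _ hgx, map_smul] at h1
    rwa [Module.End.mul_apply, scalar_apply]
  refine ⟨U, hU, S.mul_e_eq_zero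
    (add_mem (sub_mem (mul_mem hU hU) (mul_mem hT hU)) (scalar_mem _)) fun x hx => ?_, hUg⟩
  have hUx : U x ∈ LinearMap.range S.e := range_mul_le hU S.e_mem ⟨x, by
    rw [Module.End.mul_apply, apply_of_mem_range S.e_idem hx]⟩
  have h1 := hquad x
  have h2 := S.W.add_mem (hW _ (hUg x hx)) (hUg _ hUx)
  rw [map_sub, sub_add_sub_cancel] at h2
  have h3 := S.W_stable T hT _ (hUg x hx)
  rw [map_sub] at h3
  have h4 := S.W.add_mem (S.W.sub_mem h1 h2) h3
  simpa only [LinearMap.add_apply, LinearMap.sub_apply, Module.End.mul_apply, scalar_apply] using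
    (show U (U x) - T (U x) + c • x ∈ S.W by
      convert h4 using 1
      abel)

/-- **Frobenius on `W`.** -/
theorem frobenius_mem_W {g : G} {T U : Module.End K V} (hT : T ∈ R.alg) (hU : U ∈ R.alg) {c : K}
    (_hc0 : c ≠ 0) (hW : ∀ x ∈ S.W, R.rho g x ∈ S.W)
    (hQ : (U * U - T * U + algebraMap K (Module.End K V) c) * S.e = 0)
    (hgU : ∀ x ∈ LinearMap.range S.e, R.rho g x - U x ∈ S.W)
    (hsep : ∀ x ∈ LinearMap.range S.e, U (U x) = R.omega g • x → x = 0) {x : V}
    (hx : x ∈ LinearMap.range S.e ⊓ S.W) :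
    c • R.rho g (R.rho g x) - R.omega g • T (R.rho g x) + R.omega g ^ 2 • x = 0 := by
  obtain ⟨a, ha, hrel⟩ := R.quad g
  set β := a - U
  have hβ : β ∈ R.alg := sub_mem ha hU
  have hcom : ∀ {t : Module.End K V}, t ∈ R.alg → ∀ x, t (R.rho g x) = R.rho g (t x) :=
    fun ht x => LinearMap.congr_fun (R.comm_rho g _ ht) x
  have hcA : ∀ {s t : Module.End K V}, s ∈ R.alg → t ∈ R.alg → ∀ x, s (t x) = t (s x) :=
    fun hs ht x => LinearMap.congr_fun (R.comm _ hs _ ht) x
  have hprodx : ∀ y ∈ LinearMap.range S.e, β (U y) = R.omega g • y := by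
    have h0 : (β * U - algebraMap K (Module.End K V) (R.omega g)) * S.e = 0 := by
      refine S.mul_e_eq_zero (sub_mem (mul_mem hβ hU) (scalar_mem _)) fun y hy => ?_
      have hUy : U y ∈ LinearMap.range S.e := range_mul_le hU S.e_mem ⟨y, by
        rw [Module.End.mul_apply, apply_of_mem_range S.e_idem hy]⟩
      have h2 := S.W.add_mem (hW _ (hgU y hy)) (hgU _ hUy)
      rw [map_sub, sub_add_sub_cancel] at h2
      have h3 := S.W_stable a ha _ (hgU y hy)
      rw [map_sub, rel_apply hrel] at h3
      have h5 := S.W.sub_mem h2 h3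
      show (β * U - algebraMap K (Module.End K V) (R.omega g)) y ∈ S.W
      rw [LinearMap.sub_apply, Module.End.mul_apply, scalar_apply, LinearMap.sub_apply]
      convert h5 using 1
      abel
    intro y hy
    have h1 := LinearMap.congr_fun h0 y
    rwa [Module.End.mul_apply, apply_of_mem_range S.e_idem hy, LinearMap.sub_apply,
      Module.End.mul_apply, scalar_apply, LinearMap.zero_apply, sub_eq_zero] at h1
  obtain ⟨π, hπ, s, hs, hππ, hδπ, hds⟩ := R.exists_kernel_proj (sub_mem hU hβ)
  have hπe : π * S.e = 0 := LinearMap.ext fun y => by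
    rw [LinearMap.zero_apply]
    have hmem : (π * S.e) y ∈ LinearMap.range S.e := range_mul_le hπ S.e_mem ⟨y, rfl⟩
    refine hsep _ hmem ?_
    have h1 : U ((π * S.e) y) = β ((π * S.e) y) := by
      rw [← sub_eq_zero, ← LinearMap.sub_apply, ← Module.End.mul_apply, ← mul_assoc, hδπ,
        zero_mul, LinearMap.zero_apply]
    rw [h1, hcA hU hβ, hprodx _ hmem]
  have hinv : (U - β) * s * S.e = S.e := by rw [hds, sub_mul, one_mul, hπe, sub_zero]
  have hinv' : (β - U) * (-s) * S.e = S.e := by rw [← neg_sub U β, neg_mul_neg, hinv]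
  have hprod : (R.rho g - β) * (R.rho g - U) * S.e = 0 := by
    refine prod_eq_zero hrel ha hβ S.e_mem (by rw [sub_add_cancel]) (LinearMap.ext fun y => ?_)
    rw [LinearMap.smul_apply, Module.End.mul_apply, Module.End.mul_apply]
    exact hprodx _ ⟨y, rfl⟩
  have hhalf := R.two_mul_finrank_eigen (α := β) hrel hβ hU (neg_mem hs) S.e_mem S.e_idem
    (by rw [sub_add_cancel]) hprod hinv'
  obtain ⟨a₀, ha₀, hrel₀⟩ := R.quad S.g₀
  obtain ⟨-, -, hWhalf⟩ := S.main hrel₀ ha₀
  have hsub : LinearMap.range S.e ⊓ LinearMap.ker (R.rho g - β) ≤ LinearMap.range S.e ⊓ S.W := by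
    refine le_inf inf_le_left fun y hy => ?_
    have hk := hy.2
    rw [SetLike.mem_coe, LinearMap.mem_ker, LinearMap.sub_apply, sub_eq_zero] at hk
    have h1 := hgU y hy.1
    rw [hk] at h1
    have h2 := S.W_stable s hs _ (S.W.neg_mem h1)
    rw [neg_sub, ← LinearMap.sub_apply, ← Module.End.mul_apply, R.comm s hs _ (sub_mem hU hβ), hds,
      LinearMap.sub_apply, Module.End.one_apply] at h2
    have h3 : π y = 0 := by
      rw [← apply_of_mem_range S.e_idem hy.1, ← Module.End.mul_apply, hπe, LinearMap.zero_apply]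
    rwa [h3, sub_zero] at h2
  have heq := Submodule.eq_of_le_of_finrank_le hsub (by omega)
  have hxk := (heq.ge hx).2
  rw [SetLike.mem_coe, LinearMap.mem_ker, LinearMap.sub_apply, sub_eq_zero] at hxk
  have hQx : U (U x) - T (U x) + c • x = 0 := by
    have := LinearMap.congr_fun hQ x
    simpa only [Module.End.mul_apply, apply_of_mem_range S.e_idem hx.1, LinearMap.add_apply,
      LinearMap.sub_apply, scalar_apply, LinearMap.zero_apply] using this
  rw [hxk, ← hcom hβ, hxk]
  -- apply `β²` to the equation of `U`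
  have h1 := congrArg (fun y => β (β y)) hQx
  simp only [map_add, map_sub, map_smul, map_zero] at h1
  have hUx : U x ∈ LinearMap.range S.e := range_mul_le hU S.e_mem ⟨x, by
    rw [Module.End.mul_apply, apply_of_mem_range S.e_idem hx.1]⟩
  have e1 : β (β (U (U x))) = R.omega g ^ 2 • x := by
    rw [hprodx _ hUx, map_smul, hprodx _ hx.1, smul_smul, sq]
  have e2 : β (β (T (U x))) = R.omega g • T (β x) := by
    rw [hcA hβ hT (U x), hprodx _ hx.1, hcA hβ hT, map_smul, map_smul]
  rw [e1, e2] at h1
  rw [← h1]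
  abel

omit [CharZero K] in
/-- Some twist by a power of `g₀` separates the two roots. -/
theorem exists_pow_sep (U : Module.End K V) (g : G) (hω : R.omega g ≠ 0)
    (hinf : Function.Injective fun k : ℕ => R.omega S.g₀ ^ k) :
    ∃ k : ℕ, ∀ x, U (U x) = R.omega (g * S.g₀ ^ k) • x → x = 0 := by
  classical
  have hfin : Set.Finite {μ : K | Module.End.HasEigenvalue (U * U) μ} := Module.End.finite_hasEigenvalue _
  have hinj : Function.Injective fun k : ℕ => R.omega (g * S.g₀ ^ k) := fun i j h => hinf (by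
    simpa [map_mul, map_pow, hω] using h)
  obtain ⟨k, hk⟩ := ((Set.infinite_range_of_injective hinj).sdiff hfin).nonempty.imp fun _ h => h
  obtain ⟨⟨j, rfl⟩, hj⟩ := hk
  refine ⟨j, fun x hx => by_contra fun hne => hj ?_⟩
  exact Module.End.hasEigenvalue_of_hasEigenvector ⟨Module.End.mem_eigenspace_iff.2 hx, hne⟩

end Split

/-- **The toric part.** If the `q²`-eigenspace of `g²` has at least half the dimension of the
whole space, it has half the dimension of every piece, and an element fixing it is unipotent with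
image in it. -/
theorem toric_half {g : G} {q : K} (hq : q ≠ 1) (hω : R.omega g = q)
    (hbig : finrank K V ≤ 2 * finrank K ↥(LinearMap.ker (R.rho g - algebraMap K _ q)))
    {e : Module.End K V} (he : e ∈ R.alg) (hee : e * e = e) :
    2 * finrank K ↥(LinearMap.range e ⊓ LinearMap.ker (R.rho g - algebraMap K _ q)) =
        finrank K (LinearMap.range e) ∧
      (R.rho g - algebraMap K _ q) * (R.rho g - algebraMap K _ (1 : K)) = 0 := by
  obtain ⟨a, ha, hrel⟩ := R.quad g
  set E := LinearMap.ker (R.rho g - algebraMap K (Module.End K V) q)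
  have hδ : a - algebraMap K (Module.End K V) (q + 1) ∈ R.alg := sub_mem ha (Split.scalar_mem _)
  obtain ⟨π, hπ, s, hs, hππ, hδπ, hds⟩ := R.exists_kernel_proj hδ
  have hq1 : q - 1 ≠ 0 := sub_ne_zero.2 hq
  have hq0 : q ≠ 0 := fun h => by
    have : R.omega g * R.omega g⁻¹ = 1 := by rw [← map_mul, mul_inv_cancel, map_one]
    rw [hω, h, zero_mul] at this
    exact zero_ne_one this
  have hEπ : ∀ x ∈ E, π x = x := fun x hx => by
    rw [LinearMap.mem_ker, LinearMap.sub_apply, Split.scalar_apply, sub_eq_zero] at hx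
    have h1 := rel_apply hrel x
    rw [hx, map_smul, map_smul, hx, hω, smul_smul] at h1
    have h2 : (a - algebraMap K (Module.End K V) (q + 1)) x = 0 := by
      rw [LinearMap.sub_apply, Split.scalar_apply, sub_eq_zero]
      refine smul_right_injective V hq0 ?_
      show q • a x = q • (q + 1) • x
      rw [h1, smul_smul, mul_add, add_smul, mul_one]
    have h3 := LinearMap.congr_fun hds x
    rw [LinearMap.sub_apply, Module.End.one_apply, R.comm _ hδ s hs, Module.End.mul_apply, h2,
      map_zero, eq_comm, sub_eq_zero] at h3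
    exact h3.symm
  have hhalf : ∀ f ∈ R.alg, f * f = f → π * f = f →
      2 * finrank K ↥(LinearMap.range f ⊓ E) = finrank K (LinearMap.range f) ∧
        (R.rho g - algebraMap K _ q) * (R.rho g - algebraMap K _ (1 : K)) * f = 0 := by
    intro f hf hff hπf
    have hsum : a * f = (algebraMap K _ q + algebraMap K _ 1) * f := by
      rw [← map_add, ← sub_eq_zero, ← sub_mul, ← hπf, ← mul_assoc, hδπ, zero_mul]
    have hprod : (R.rho g - algebraMap K _ q) * (R.rho g - algebraMap K _ (1 : K)) * f = 0 := by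
      refine prod_eq_zero hrel ha (Split.scalar_mem _) hf hsum ?_
      rw [← map_mul, mul_one, hω, Algebra.algebraMap_eq_smul_one, smul_mul_assoc, one_mul]
    refine ⟨R.two_mul_finrank_eigen (s := algebraMap K _ (q - 1)⁻¹) hrel (Split.scalar_mem _)
      (Split.scalar_mem _) (Split.scalar_mem _) hf hff hsum hprod ?_, hprod⟩
    rw [← map_sub, ← map_mul, mul_inv_cancel₀ hq1, map_one, one_mul]
  have hπ1 : π = 1 := by
    obtain ⟨h1, -⟩ := hhalf π hπ hππ hππ
    have hEle : E ≤ LinearMap.range π := fun x hx => ⟨x, hEπ x hx⟩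
    rw [inf_eq_right.2 hEle] at h1
    have htop : LinearMap.range π = ⊤ :=
      Submodule.eq_top_of_finrank_eq (le_antisymm (Submodule.finrank_le _) (h1 ▸ hbig))
    exact LinearMap.ext fun x => apply_of_mem_range hππ (htop ▸ Submodule.mem_top)
  refine ⟨(hhalf e he hee (by rw [hπ1, one_mul])).1, ?_⟩
  have := (hhalf 1 (one_mem _) (one_mul 1) (by rw [hπ1, one_mul])).2
  rwa [mul_one] at this

/-- An element fixing the toric part is unipotent. -/
theorem toric_unipotent {g σ : G} {q : K} (hq : q ≠ 1) (hω : R.omega g = q)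
    (hbig : finrank K V ≤ 2 * finrank K ↥(LinearMap.ker (R.rho g - algebraMap K _ q)))
    (hσ : ∀ x ∈ LinearMap.ker (R.rho g - algebraMap K _ q), R.rho σ x = x)
    (hσω : R.omega σ = 1) :
    (R.rho σ - 1) * (R.rho σ - 1) = 0 := by
  obtain ⟨a, ha, hrel⟩ := R.quad σ
  have hδ : a - algebraMap K (Module.End K V) 2 ∈ R.alg := sub_mem ha (Split.scalar_mem _)
  obtain ⟨π, hπ, s, hs, hππ, hδπ, hds⟩ := R.exists_kernel_proj hδ
  have hkill : ∀ x ∈ LinearMap.ker (R.rho g - algebraMap K _ q),
      (a - algebraMap K (Module.End K V) 2) x = 0 := fun x hx => by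
    have h1 := rel_apply hrel x
    rw [hσ x hx, hσ x hx, hσω, one_smul] at h1
    rw [LinearMap.sub_apply, Split.scalar_apply, two_smul, h1, sub_self]
  obtain ⟨hh, -⟩ := R.toric_half hq hω hbig (sub_mem (one_mem _) hπ) (by
    rw [sub_mul, one_mul, mul_sub, mul_one, hππ, sub_self, sub_zero])
  have hbot : LinearMap.range (1 - π) ⊓ LinearMap.ker (R.rho g - algebraMap K _ q) = ⊥ := by
    rw [eq_bot_iff]
    rintro x ⟨⟨y, rfl⟩, hx⟩
    have h1 := hkill _ hx
    rw [← Module.End.mul_apply, ← hds, ← mul_assoc] at h1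
    rw [Submodule.mem_bot, ← hds]
    have h2 := congrArg (fun z => s z) h1
    simp only [map_zero, ← Module.End.mul_apply] at h2
    have h3 : s * ((a - algebraMap K (Module.End K V) 2) *
        (a - algebraMap K (Module.End K V) 2) * s) = (1 - π) * (1 - π) := by
      rw [← hds]
      conv_rhs => arg 1; rw [R.comm _ hδ s hs]
      simp only [mul_assoc]
    rw [h3, sub_mul, one_mul, mul_sub, mul_one, hππ, sub_self, sub_zero, ← hds] at h2
    exact h2
  rw [hbot, finrank_bot, mul_zero] at hh
  have hπ1 : π = 1 :=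
    (sub_eq_zero.1 (LinearMap.range_eq_bot.1 (Submodule.finrank_eq_zero.1 hh.symm))).symm
  rw [hπ1, mul_one] at hδπ
  have ha2 : a = algebraMap K (Module.End K V) 2 := sub_eq_zero.1 hδπ
  refine LinearMap.ext fun x => ?_
  have h1 := rel_apply hrel x
  rw [ha2, Split.scalar_apply, hσω, one_smul, two_smul] at h1
  simp only [Module.End.mul_apply, LinearMap.sub_apply, Module.End.one_apply,
    LinearMap.zero_apply, map_sub]
  rw [show R.rho σ (R.rho σ x) = R.rho σ x + R.rho σ x - x from eq_sub_of_add_eq h1.symm]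
  abel

end Split

end QuadRep

end FermatAgent.Mazur.Descent

end
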