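import Fermat.Agent.Mazur.Descent.Structure.Basic
import Fermat.Agent.Mazur.Descent.Kernel.Coeffs
import Fermat.Agent.RTLift.Petersson.Semisimple
import Fermat.Agent.Conductor.Bound
import Fermat.Agent.Descent3.Lift
import Mathlib.LinearAlgebra.Semisimple

/-!
# Consequences of the realization of the lattice by cusp forms

Integral matrices on the lattice act on two copies of the space of cusp forms.
-/

set_option autoImplicit false

noncomputable section

namespace FermatAgent.Mazur.Descent

open FermatAgent.ModCurveTorsion Matrix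

variable {p : ℕ} [NeZero p] (M : TorsionModel p)

local notation "S₂" => CuspForm (CongruenceSubgroup.Gamma0 p) 2
instance finiteCuspFormTwo : FiniteDimensional ℂ S₂ := ModCurve.Forms.finiteDimensional_cuspForm_two p

/-- Integral matrices on the lattice as endomorphisms of two copies of the space of cusp forms. -/
def realEnd : Matrix (Fin M.rank) (Fin M.rank) ℤ →+* Module.End ℂ (S₂ × S₂) :=
  ((Matrix.toLinAlgEquiv' (R := ℂ) (n := Fin M.rank)).trans
      (M.realization.conjAlgEquiv ℂ)).toRingEquiv.toRingHom.comp (Int.castRingHom ℂ).mapMatrix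

theorem realEnd_apply (X : Matrix (Fin M.rank) (Fin M.rank) ℤ) :
    realEnd M X = M.realization.conj (Matrix.toLin' (X.map (Int.cast : ℤ → ℂ))) := rfl

theorem trace_realEnd (X : Matrix (Fin M.rank) (Fin M.rank) ℤ) :
    LinearMap.trace ℂ _ (realEnd M X) = ((X.trace : ℤ) : ℂ) := by
  rw [realEnd_apply, LinearMap.trace_conj', Matrix.trace_toLin'_eq]
  exact (AddMonoidHom.map_trace (Int.castRingHom ℂ).toAddMonoidHom X).symm

theorem charpoly_realEnd (X : Matrix (Fin M.rank) (Fin M.rank) ℤ) :
    (realEnd M X).charpoly = X.charpoly.map (Int.castRingHom ℂ) := by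
  rw [realEnd_apply, LinearEquiv.charpoly_conj, Matrix.charpoly_toLin', ← Matrix.charpoly_map]
  rfl

/-- An operator on the lattice that is diagonal in the realization. -/
theorem realEnd_toMatrix' {f : Module.End ℤ (Fin M.rank → ℤ)} {T₁ T₂ : Module.End ℂ S₂}
    (h : ∀ v : Fin M.rank → ℤ, M.realization (fun i => ((f v i : ℤ) : ℂ)) =
      (T₁ (M.realization fun i => ((v i : ℤ) : ℂ)).1, T₂ (M.realization fun i => ((v i : ℤ) : ℂ)).2)) :
    realEnd M (LinearMap.toMatrix' f) = T₁.prodMap T₂ := by
  have key : M.realization.toLinearMap ∘ₗ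
        Matrix.toLin' ((LinearMap.toMatrix' f).map (Int.cast : ℤ → ℂ)) =
      T₁.prodMap T₂ ∘ₗ M.realization.toLinearMap := by
    refine (Pi.basisFun ℂ (Fin M.rank)).ext fun i => ?_
    have h0 : (Pi.basisFun ℂ (Fin M.rank)) i =
        fun j => (((Pi.single i 1 : Fin M.rank → ℤ) j : ℤ) : ℂ) := by
      funext j
      simp [Pi.single_apply]
    have h1 : ((LinearMap.toMatrix' f).map (Int.cast : ℤ → ℂ)) *ᵥ
          (fun j => (((Pi.single i 1 : Fin M.rank → ℤ) j : ℤ) : ℂ)) =
        fun j => ((f (Pi.single i 1) j : ℤ) : ℂ) := by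
      funext j
      rw [← LinearMap.toMatrix'_mulVec f]
      exact ((Int.castRingHom ℂ).map_mulVec _ _ j).symm
    simp only [LinearMap.comp_apply, LinearEquiv.coe_coe, Matrix.toLin'_apply, h0, h1, h]
    rfl
  refine LinearMap.ext fun x => ?_
  have := LinearMap.congr_fun key (M.realization.symm x)
  simpa [realEnd_apply, LinearEquiv.conj_apply] using this

theorem realEnd_heckeMatrixAway (t : HT p) :
    realEnd M (M.heckeMatrixAway {p} t) =
      (t : Module.End ℂ S₂).prodMap (t : Module.End ℂ S₂) :=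
  realEnd_toMatrix' M fun v => M.realization_hecke _ v

theorem realEnd_conjMatrix :
    realEnd M (conjMatrix M) = (-1 : Module.End ℂ S₂).prodMap 1 :=
  realEnd_toMatrix' M fun v => M.realization_conj v

/-- A rational polynomial in a Hecke operator away from the level that squares to zero is zero. -/
theorem aeval_eq_zero_of_sq (hp : p.Prime) (t : HT p) (g : Polynomial ℚ)
    (hg : Polynomial.aeval ((M.heckeMatrixAway {p} t).map (Int.cast : ℤ → ℚ)) g ^ 2 = 0) :
    Polynomial.aeval ((M.heckeMatrixAway {p} t).map (Int.cast : ℤ → ℚ)) g = 0 := by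
  obtain ⟨b, hb, hG⟩ := IsLocalization.integerNormalization_spec (nonZeroDivisors ℤ) g
  set G := IsLocalization.integerNormalization (nonZeroDivisors ℤ) g
  set A := (M.heckeMatrixAway {p} t).map (Int.cast : ℤ → ℚ)
  have hcast : (Int.castRingHom ℚ).mapMatrix (M.heckeMatrixAway {p} (Polynomial.aeval t G)) =
      (b : ℚ) • Polynomial.aeval A g := by
    rw [Int.cast_smul_eq_zsmul ℚ b, ← map_zsmul, ← hG, Polynomial.aeval_map_algebraMap]
    exact (Polynomial.aeval_algHom_apply
      ((Int.castRingHom ℚ).mapMatrix.comp (M.heckeMatrixAway {p})).toIntAlgHom t G).symm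
  have hinj : Function.Injective
      ((Int.castRingHom ℚ).mapMatrix.comp (M.heckeMatrixAway {p}) :
        HT p →+* Matrix (Fin M.rank) (Fin M.rank) ℚ) :=
    (Matrix.map_injective Int.cast_injective).comp (M.heckeMatrixAway_injective _)
  have : IsReduced (HT p) := RTLift.Petersson.isReduced_heckeAlgebra fun q hq hqp =>
    Set.mem_singleton_iff.2 ((Nat.prime_dvd_prime_iff_eq hq hp).1 hqp)
  have h0 : Polynomial.aeval t G = 0 := eq_zero_of_pow_eq_zero (n := 2) (hinj (by
    rw [map_pow, map_zero, RingHom.comp_apply, hcast, smul_pow, hg, smul_zero]))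
  rw [h0, map_zero, map_zero] at hcast
  exact (smul_eq_zero.1 hcast.symm).resolve_left
    (Int.cast_ne_zero.2 (nonZeroDivisors.ne_zero hb))

theorem squarefree_minpoly (hp : p.Prime) (t : HT p) :
    Squarefree (minpoly ℚ ((M.heckeMatrixAway {p} t).map (Int.cast : ℤ → ℚ))) := by
  set A := (M.heckeMatrixAway {p} t).map (Int.cast : ℤ → ℚ)
  intro x hx
  obtain ⟨y, hy⟩ := hx
  have hxy : Polynomial.aeval A (x * y) = 0 := aeval_eq_zero_of_sq M hp t _ (by
    rw [← map_pow, show (x * y) ^ 2 = x * x * y * y by ring, ← hy, map_mul, minpoly.aeval, zero_mul])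
  obtain ⟨c, hc⟩ := minpoly.dvd ℚ A hxy
  have h0 : x * y ≠ 0 := fun h =>
    minpoly.ne_zero (Matrix.isIntegral A) (by rw [hy, mul_assoc, h, mul_zero])
  exact IsUnit.of_mul_eq_one c (mul_left_cancel₀ h0 (by
    linear_combination (-1 : Polynomial ℚ) * hc - c * hy))

/-- The Hecke operators away from the level are semisimple on the lattice. -/
theorem isSemisimple_heckeMatrix (hp : p.Prime) (K : Type*) [Field K] [CharZero K] (t : HT p) :
    Module.End.IsSemisimple
      (Matrix.toLin' ((M.heckeMatrixAway {p} t).map (Int.cast : ℤ → K))) := by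
  set A := (M.heckeMatrixAway {p} t).map (Int.cast : ℤ → ℚ)
  refine Module.End.isSemisimple_of_squarefree_aeval_eq_zero
    (p := (minpoly ℚ A).map (algebraMap ℚ K))
    ((PerfectField.separable_iff_squarefree.2 (squarefree_minpoly M hp t)).map).squarefree ?_
  have hA : (M.heckeMatrixAway {p} t).map (Int.cast : ℤ → K) = A.map (algebraMap ℚ K) := by
    ext i j
    simp [A]
  rw [hA, Polynomial.aeval_map_algebraMap]
  exact (Polynomial.aeval_algHom_apply
    ((((Matrix.toLinAlgEquiv' (R := K) (n := Fin M.rank)).toAlgHom.restrictScalars ℚ).comp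
      (Algebra.ofId ℚ K).mapMatrix)) A _).trans (by rw [minpoly.aeval, map_zero])

/-- The two eigenspaces of complex conjugation are isomorphic Hecke modules. -/
theorem trace_conjMatrix_mul (t : HT p) :
    (conjMatrix M * M.heckeMatrixAway {p} t).trace = 0 := by
  apply Int.cast_injective (α := ℂ)
  rw [← trace_realEnd, map_mul, realEnd_conjMatrix, realEnd_heckeMatrixAway,
    LinearMap.prodMap_mul, neg_one_mul, one_mul, LinearMap.trace_prodMap', map_neg,
    neg_add_cancel, Int.cast_zero]

/-- `± (1 + q)` is not an eigenvalue of `T_q`. -/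
theorem det_heckeMatrix_add_ne_zero (_hp : p.Prime) {q : ℕ} (hq : q.Prime) (hqp : ¬ q ∣ p)
    (hqS : q ∉ ({p} : Set ℕ)) {ε : ℤ} (hε : ε = 1 ∨ ε = -1) :
    (M.heckeMatrixAway {p} (CuspForm.heckeAlgebra.T hq hqp hqS) +
      (ε * ((q : ℤ) + 1)) • (1 : Matrix (Fin M.rank) (Fin M.rank) ℤ)).det ≠ 0 := by
  intro hdet
  set c : ℤ := ε * ((q : ℤ) + 1)
  set T := CuspForm.heckeTLin 2 hq hqp
  set W : Submodule ℂ S₂ := LinearMap.ker (T + (c : ℂ) • 1)
  have hW : W ≠ ⊥ := by
    intro hW
    obtain ⟨v, hv0, hv⟩ := Matrix.exists_mulVec_eq_zero_iff.2 hdet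
    set X := M.heckeMatrixAway {p} (CuspForm.heckeAlgebra.T hq hqp hqS) + c • 1
    have hX : realEnd M X = (T + (c : ℂ) • 1).prodMap (T + (c : ℂ) • 1) := by
      rw [map_add, map_zsmul, map_one, realEnd_heckeMatrixAway]
      refine LinearMap.ext fun x => ?_
      simp [T, ← Int.cast_smul_eq_zsmul ℂ, Prod.ext_iff]
    set w : Fin M.rank → ℂ := fun i => ((v i : ℤ) : ℂ)
    have h1 : realEnd M X (M.realization w) = 0 := by
      rw [realEnd_apply, LinearEquiv.conj_apply]
      simp only [LinearMap.comp_apply, LinearEquiv.coe_coe, LinearEquiv.symm_apply_apply,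
        Matrix.toLin'_apply]
      rw [show X.map (Int.cast : ℤ → ℂ) *ᵥ w = 0 from funext fun i => by
        have h := (Int.castRingHom ℂ).map_mulVec X v i
        rw [hv] at h
        simpa [Function.comp_def, w] using h.symm, map_zero]
    rw [hX, LinearMap.prodMap_apply, Prod.mk_eq_zero] at h1
    have hr : M.realization w = 0 := Prod.ext
      ((Submodule.mem_bot ℂ).1 (hW ▸ LinearMap.mem_ker.2 h1.1))
      ((Submodule.mem_bot ℂ).1 (hW ▸ LinearMap.mem_ker.2 h1.2))
    exact hv0 (funext fun i => Int.cast_injective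
      ((congrFun (M.realization.map_eq_zero_iff.1 hr) i).trans Int.cast_zero.symm))
  obtain ⟨g, hg, hg0, hge⟩ := Descent3.exists_common_eigenvector
    (CuspForm.heckeGenerators p 2 ∅)
    (fun A hA B hB => CuspForm.commute_of_mem_heckeGenerators hA hB) W hW fun A hA x hx => by
      have hc : Commute T A := CuspForm.commute_of_mem_heckeGenerators
        (CuspForm.heckeTLin_mem_heckeGenerators hq hqp (Set.notMem_empty q)) hA
      have hc' : Commute (T + (c : ℂ) • 1) A := hc.add_left ((Commute.one_left A).smul_left _)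
      rw [LinearMap.mem_ker] at hx ⊢
      rw [← Module.End.mul_apply, hc'.eq, Module.End.mul_apply, hx, map_zero]
  let lam : ℕ → ℂ := fun r =>
    if h : r.Prime then
      if hr : r ∣ p then (hge _ (CuspForm.heckeULin_mem_heckeGenerators h hr
        (Set.notMem_empty r))).choose
      else (hge _ (CuspForm.heckeTLin_mem_heckeGenerators h hr (Set.notMem_empty r))).choose
    else 0
  have hlam : DSLift.IsPrimeEigen g lam :=
    ⟨fun r hr hrp => by
        simp only [lam, dif_pos hr, dif_neg hrp]
        exact (hge _ (CuspForm.heckeTLin_mem_heckeGenerators hr hrp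
          (Set.notMem_empty r))).choose_spec,
      fun r hr hrp => by
        simp only [lam, dif_pos hr, dif_pos hrp]
        exact (hge _ (CuspForm.heckeULin_mem_heckeGenerators hr hrp
          (Set.notMem_empty r))).choose_spec⟩
  obtain ⟨f, hf, hfq, -⟩ := hlam.exists_normalized hg0
  have hgq : lam q = -(c : ℂ) := by
    refine smul_left_injective ℂ hg0 ?_
    simp only
    rw [← hlam.1 q hq hqp, neg_smul, eq_neg_iff_add_eq_zero]
    exact LinearMap.mem_ker.1 hg
  have hlt := Conductor.norm_qCoeff_lt hf hq hqp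
  rw [hfq q hq, hgq, norm_neg, Complex.norm_intCast] at hlt
  rcases hε with rfl | rfl
  · simp [c, abs_of_nonneg (show (0 : ℝ) ≤ (q : ℝ) + 1 by positivity)] at hlt
  · rw [show ((-1 * ((q : ℤ) + 1) : ℤ) : ℝ) = -((q : ℝ) + 1) by push_cast; ring, abs_neg,
      abs_of_nonneg (show (0 : ℝ) ≤ (q : ℝ) + 1 by positivity)] at hlt
    exact lt_irrefl _ hlt

/-- The matrix of `T_l` on the integral lattice. -/
def heckeMatInt {l : ℕ} [Fact l.Prime] (hlp : ¬ l ∣ p) : Matrix (FormIdx p) (FormIdx p) ℤ :=
  fun j i => (formBasis p).repr ⟨_, CuspForm.mem_intLattice_of_mem_heckeAlgebra one_le_two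
    (CuspForm.heckeAlgebra.T (S := (∅ : Set ℕ)) (Fact.out : l.Prime) hlp (Set.notMem_empty _)).2
      (formBasis p j).2⟩ i

theorem heckeMat_eq_map {l : ℕ} [Fact l.Prime] (hlp : ¬ l ∣ p) :
    heckeMat (N := p) hlp = (heckeMatInt hlp).map (Int.castRingHom (ZMod l)) := rfl

theorem span_formBasis :
    Submodule.span ℂ (Set.range fun j => ((formBasis p j).1 : S₂)) = ⊤ := by
  have hint : CuspForm.HasIntegralStructure p 2 := ModCurve.Forms.hasIntegralStructure_two p
  rw [eq_top_iff, ← hint, Submodule.span_le]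
  intro f hf
  rw [SetLike.mem_coe, show f = ((⟨f, hf⟩ : CuspForm.intLattice p 2) : S₂) from rfl,
    ← (formBasis p).sum_repr ⟨f, hf⟩, Submodule.coe_sum]
  refine Submodule.sum_mem _ fun j _ => ?_
  rw [Submodule.coe_smul, ← Int.cast_smul_eq_zsmul ℂ]
  exact Submodule.smul_mem _ _ (Submodule.subset_span ⟨j, rfl⟩)

theorem charpoly_heckeTLin {l : ℕ} [Fact l.Prime] (hlp : ¬ l ∣ p) :
    (CuspForm.heckeTLin 2 (Fact.out : l.Prime) hlp : Module.End ℂ S₂).charpoly =
      (heckeMatInt hlp).charpoly.map (Int.castRingHom ℂ) := by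
  let b : Module.Basis (FormIdx p) ℂ S₂ :=
    basisOfTopLeSpanOfCardEqFinrank _ span_formBasis.ge (card_formIdx p)
  have hb : ∀ j, b j = (formBasis p j).1 := fun j =>
    congrFun (coe_basisOfTopLeSpanOfCardEqFinrank _ _ _) j
  have hmat : LinearMap.toMatrix b b (CuspForm.heckeTLin 2 (Fact.out : l.Prime) hlp) =
      ((heckeMatInt hlp).map (Int.castRingHom ℂ))ᵀ := by
    ext i j
    have h : CuspForm.heckeTLin 2 (Fact.out : l.Prime) hlp (b j) =
        ∑ i, ((heckeMatInt hlp j i : ℤ) : ℂ) • b i := by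
      simp only [hb, Int.cast_smul_eq_zsmul, ← Submodule.coe_smul, ← Submodule.coe_sum]
      unfold heckeMatInt
      rw [(formBasis p).sum_repr]
      rfl
    rw [LinearMap.toMatrix_apply, h, b.repr_sum_self]
    rfl
  rw [← LinearMap.charpoly_toMatrix _ b, hmat, Matrix.charpoly_transpose, Matrix.charpoly_map]

theorem charpoly_heckeMatrixAway {l : ℕ} [Fact l.Prime] (hlp : ¬ l ∣ p) (hlS : l ∉ ({p} : Set ℕ)) :
    (M.heckeMatrixAway {p} (CuspForm.heckeAlgebra.T (Fact.out : l.Prime) hlp hlS)).charpoly =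
      (heckeMatInt hlp).charpoly ^ 2 := by
  apply Polynomial.map_injective (Int.castRingHom ℂ) Int.cast_injective
  rw [← charpoly_realEnd, realEnd_heckeMatrixAway, LinearMap.charpoly_prodMap, Polynomial.map_pow,
    sq, ← charpoly_heckeTLin hlp]
  rfl

/-- The rank of a high power of a matrix over a field. -/
theorem rank_pow_add_natTrailingDegree {K ι : Type*} [Field K] [Fintype ι] [DecidableEq ι]
    (A : Matrix ι ι K) {n : ℕ} (hn : Fintype.card ι ≤ n) :
    (A ^ n).rank + A.charpoly.natTrailingDegree = Fintype.card ι := by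
  have hk : Module.End.maxGenEigenspace (Matrix.toLin' A) 0 = LinearMap.ker (Matrix.toLin' (A ^ n)) := by
    rw [Matrix.toLin'_pow, Module.End.maxGenEigenspace_eq_genEigenspace_finrank,
      Module.End.genEigenspace_nat, zero_smul, sub_zero, Module.finrank_fintype_fun_eq_card]
    have h := Module.End.ker_pow_eq_ker_pow_finrank_of_le (f := Matrix.toLin' A) (m := n)
      (by rwa [Module.finrank_fintype_fun_eq_card])
    rw [Module.finrank_fintype_fun_eq_card] at h
    exact h.symm
  have h := LinearMap.finrank_range_add_finrank_ker (Matrix.toLin' (A ^ n))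
  rw [← hk, LinearMap.finrank_maxGenEigenspace_zero_eq, Matrix.charpoly_toLin',
    Module.finrank_fintype_fun_eq_card] at h
  exact h

/-- The ordinary part of the lattice modulo `l` has twice the rank of that of the forms. -/
theorem rank_heckeMatrix_pow {l : ℕ} [Fact l.Prime] (hlp : ¬ l ∣ p) (hlS : l ∉ ({p} : Set ℕ))
    {n : ℕ} (hn : M.rank ≤ n) :
    (((M.heckeMatrixAway {p} (CuspForm.heckeAlgebra.T (Fact.out : l.Prime) hlp hlS)).map
        (Int.cast : ℤ → ZMod l)) ^ n).rank = 2 * (heckeMat (N := p) hlp ^ n).rank := by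
  have hcp := charpoly_heckeMatrixAway M hlp hlS
  have hsize : M.rank = 2 * Fintype.card (FormIdx p) := by
    have h := congrArg Polynomial.natDegree hcp
    simpa [Matrix.charpoly_natDegree_eq_dim, Polynomial.natDegree_pow] using h
  set A := (M.heckeMatrixAway {p} (CuspForm.heckeAlgebra.T (Fact.out : l.Prime) hlp hlS)).map
    (Int.cast : ℤ → ZMod l)
  have hA : A.charpoly = (heckeMat (N := p) hlp).charpoly ^ 2 := by
    rw [heckeMat_eq_map, Matrix.charpoly_map, ← Polynomial.map_pow, ← hcp, ← Matrix.charpoly_map]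
    rfl
  have h1 := rank_pow_add_natTrailingDegree A (n := n) (by simpa using hn)
  have h2 := rank_pow_add_natTrailingDegree (heckeMat (N := p) hlp) (n := n) (by omega)
  have h0 : (heckeMat (N := p) hlp).charpoly ≠ 0 := (Matrix.charpoly_monic _).ne_zero
  rw [hA, sq, Polynomial.natTrailingDegree_mul h0 h0] at h1
  simp only [Fintype.card_fin] at h1 h2 hsize ⊢
  omega

end FermatAgent.Mazur.Descent

end
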