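import Fermat.Agent.Mazur.Descent.Structure.Lattice
import Fermat.Agent.Mazur.Descent.Structure.Generic
import Fermat.Agent.Mazur.Descent.Structure.Realization
import Mathlib.NumberTheory.Padics.ProperSpace
import Mathlib.NumberTheory.Multiplicity

/-!
# Limits of Hecke operators on the Tate lattice

Limits of Hecke operators lie in the `ℚ_l`-algebra of Hecke operators; an idempotent modulo `l`
gives an idempotent limit; the Tate module is a `QuadRep`.
-/

set_option autoImplicit false

noncomputable section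

open Matrix ModularCurve FermatAgent.GalRep FermatAgent.ModCurveTorsion Filter Topology

namespace FermatAgent.Mazur.Descent

local notation "GQ" => AlgebraicClosure ℚ ≃ₐ[ℚ] AlgebraicClosure ℚ

variable {p : ℕ} [NeZero p] {l : ℕ} [hl : Fact l.Prime]

/-- Congruence of matrices modulo `l ^ n`. -/
def MatCongr {ι : Type*} (n : ℕ) (A B : Matrix ι ι ℤ_[l]) : Prop :=
  ∀ i j, (l : ℤ_[l]) ^ n ∣ A i j - B i j

theorem matCongr_iff_map {ι : Type*} [Fintype ι] [DecidableEq ι] {n : ℕ} {A B : Matrix ι ι ℤ_[l]} :
    MatCongr n A B ↔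
      (PadicInt.toZModPow n).mapMatrix A = (PadicInt.toZModPow n).mapMatrix B := by
  rw [← Matrix.ext_iff]
  refine forall₂_congr fun i j => ?_
  rw [RingHom.mapMatrix_apply, RingHom.mapMatrix_apply, Matrix.map_apply, Matrix.map_apply,
    ← sub_eq_zero (a := PadicInt.toZModPow n (A i j)), ← map_sub, ← RingHom.mem_ker,
    PadicInt.ker_toZModPow, Ideal.mem_span_singleton]

section Idempotent

variable {ι : Type*} [Fintype ι] [DecidableEq ι]

theorem dvd_entries_of_dvd {R : Subalgebra ℤ_[l] (Matrix ι ι ℤ_[l])} {x : R} {n : ℕ}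
    (h : (l : R) ^ n ∣ x) (i j : ι) : (l : ℤ_[l]) ^ n ∣ (x : Matrix ι ι ℤ_[l]) i j := by
  obtain ⟨y, rfl⟩ := h
  refine ⟨(y : Matrix ι ι ℤ_[l]) i j, ?_⟩
  rw [MulMemClass.coe_mul, SubmonoidClass.coe_pow,
    show ((l : R) : Matrix ι ι ℤ_[l]) = (l : Matrix ι ι ℤ_[l]) from map_natCast R.val l,
    ← Nat.cast_pow,
    ← Matrix.diagonal_natCast, Matrix.diagonal_mul, Nat.cast_pow]

/-- The limit of the powers of an idempotent modulo `l`. -/
theorem exists_idempotent_limit (E : Matrix ι ι ℤ_[l]) (hE : MatCongr 1 (E * E) E) :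
    ∃ P : Matrix ι ι ℤ_[l], P * P = P ∧ (∀ n, MatCongr n P (E ^ l ^ n)) ∧
      (∀ n, MatCongr (n + 1) (E ^ l ^ (n + 1)) (E ^ l ^ n)) ∧
      ∀ n, MatCongr (n + 1) (E ^ l ^ n * E ^ l ^ n) (E ^ l ^ n) := by
  have hX : ∀ i j, ∃ x : ℤ_[l], (E * E - E) i j = (l : ℤ_[l]) * x := fun i j => by
    obtain ⟨x, hx⟩ := hE i j
    exact ⟨x, by rw [Matrix.sub_apply, hx, pow_one]⟩
  choose X hX using hX
  set Xm : Matrix ι ι ℤ_[l] := Matrix.of X
  have hEX : E * E - E = (l : ℤ_[l]) • Xm := Matrix.ext fun i j => by
    rw [hX]; rfl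
  have hcomm : E * Xm = Xm * E := by
    have h := (show E * (E * E - E) = (E * E - E) * E by rw [mul_sub, sub_mul, mul_assoc])
    rw [hEX, mul_smul_comm, smul_mul_assoc] at h
    exact smul_right_injective _ (Nat.cast_ne_zero.2 hl.out.ne_zero) h
  set R := Algebra.adjoin ℤ_[l] ({E, Xm} : Set (Matrix ι ι ℤ_[l]))
  have : IsMulCommutative R := Algebra.isMulCommutative_adjoin ℤ_[l] (by
    rintro a (rfl | rfl) b (rfl | rfl) <;> first | rfl | exact hcomm | exact hcomm.symm)
  open scoped IsMulCommutative in
  let e : R := ⟨E, Algebra.subset_adjoin (Or.inl rfl)⟩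
  open scoped IsMulCommutative in
  have h2 : (l : R) ∣ e * e - e := ⟨⟨Xm, Algebra.subset_adjoin (Or.inr rfl)⟩, Subtype.ext (by
    show E * E - E = _
    rw [hEX, MulMemClass.coe_mul,
      show ((l : R) : Matrix ι ι ℤ_[l]) = (l : Matrix ι ι ℤ_[l]) from map_natCast R.val l,
      ← Matrix.diagonal_natCast,
      ← Matrix.smul_eq_diagonal_mul])⟩
  open scoped IsMulCommutative in
  have hl2 : (l : R) ∣ e ^ l - e := by
    refine h2.trans ?_
    obtain ⟨c, hc⟩ := sub_one_dvd_pow_sub_one e (l - 1)
    refine ⟨c, ?_⟩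
    have : e ^ l = e ^ (l - 1) * e := by rw [← pow_succ, Nat.sub_add_cancel hl.out.one_le]
    rw [this]
    linear_combination e * hc
  open scoped IsMulCommutative in
  have h4 : ∀ n, MatCongr (n + 1) (E ^ l ^ (n + 1)) (E ^ l ^ n) := fun n i j => by
    have := dvd_entries_of_dvd (dvd_sub_pow_of_dvd_sub hl2 n) i j
    rwa [AddSubgroupClass.coe_sub, ← pow_mul, SubmonoidClass.coe_pow, SubmonoidClass.coe_pow,
      Matrix.sub_apply, ← pow_succ'] at this
  open scoped IsMulCommutative in
  have h5 : ∀ n, MatCongr (n + 1) (E ^ l ^ n * E ^ l ^ n) (E ^ l ^ n) := fun n i j => by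
    have := dvd_entries_of_dvd (dvd_sub_pow_of_dvd_sub h2 n) i j
    rwa [AddSubgroupClass.coe_sub, mul_pow, MulMemClass.coe_mul, SubmonoidClass.coe_pow,
      Matrix.sub_apply] at this
  have hcompat : ∀ i j n, ZMod.castHom (pow_dvd_pow l n.le_succ) (ZMod (l ^ n))
      (PadicInt.toZModPow (n + 1) ((E ^ l ^ (n + 1)) i j)) =
        PadicInt.toZModPow n ((E ^ l ^ n) i j) := fun i j n => by
    rw [← RingHom.comp_apply, PadicInt.zmod_cast_comp_toZModPow n (n + 1) n.le_succ, ← sub_eq_zero,
      ← map_sub, ← RingHom.mem_ker, PadicInt.ker_toZModPow, Ideal.mem_span_singleton]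
    exact (pow_dvd_pow _ n.le_succ).trans (h4 n i j)
  choose P hP using fun i j => exists_padicInt_of_compatible (p := l)
    (fun n => PadicInt.toZModPow n ((E ^ l ^ n) i j)) (hcompat i j)
  have hPn : ∀ n, (PadicInt.toZModPow n).mapMatrix (Matrix.of P) =
      (PadicInt.toZModPow n).mapMatrix (E ^ l ^ n) := fun n => Matrix.ext fun i j => hP i j n
  refine ⟨Matrix.of P, Matrix.ext fun i j => PadicInt.ext_of_toZModPow.mp fun n => congrFun
      (congrFun (?_ : (PadicInt.toZModPow n).mapMatrix (Matrix.of P * Matrix.of P) =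
        (PadicInt.toZModPow n).mapMatrix (Matrix.of P)) i) j,
    fun n => matCongr_iff_map.2 (hPn n), h4, h5⟩
  rw [map_mul, hPn, ← map_mul]
  refine matCongr_iff_map.1 fun i j => (pow_dvd_pow _ n.le_succ).trans (h5 n i j)

end Idempotent

/-- A limit of Hecke operators. -/
def IsApprox (M : LatMat p l) : Prop := ∀ n, ∃ t : HT p, MatCongr n M (latHecke p l t)

variable (p l) in
/-- The rational Tate module. -/
abbrev RatLat : Type := Fin (torsionModel p).rank → ℚ_[l]

variable (p l) in
/-- Endomorphisms of the lattice on the rational Tate module. -/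
def latEnd : LatMat p l →+* Module.End ℚ_[l] (RatLat p l) :=
  (Matrix.toLinAlgEquiv' (R := ℚ_[l])).toRingHom.comp
    ((PadicInt.Coe.ringHom (p := l)).mapMatrix)

variable (p l) in
/-- The algebra of Hecke operators on the rational Tate module. -/
def latAlg : Subalgebra ℚ_[l] (Module.End ℚ_[l] (RatLat p l)) :=
  Algebra.adjoin ℚ_[l] (Set.range fun t => latEnd p l (latHecke p l t))

theorem latEnd_hecke_mem (t : HT p) : latEnd p l (latHecke p l t) ∈ latAlg p l :=
  Algebra.subset_adjoin ⟨t, rfl⟩

theorem latAlg_eq_span : Subalgebra.toSubmodule (latAlg p l) =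
    Submodule.span ℚ_[l] (Set.range fun t => latEnd p l (latHecke p l t)) := by
  rw [latAlg, Algebra.adjoin_eq_span]
  congr 1
  refine le_antisymm (fun x hx => ?_) Submonoid.subset_closure
  have h : Submonoid.closure (Set.range fun t => latEnd p l (latHecke p l t)) ≤
      MonoidHom.mrange ((latEnd p l).comp (latHecke p l)).toMonoidHom :=
    Submonoid.closure_le.2 fun _ h => h
  exact h hx

theorem mem_latAlg_of_span {x : Module.End ℚ_[l] (RatLat p l)}
    (hx : x ∈ Submodule.span ℚ_[l] (Set.range fun t => latEnd p l (latHecke p l t))) :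
    x ∈ latAlg p l := by
  rw [← latAlg_eq_span] at hx
  exact hx

/-- **Limits of Hecke operators lie in the algebra.** -/
theorem mem_latAlg_of_approx {M : LatMat p l} (hM : IsApprox M) : latEnd p l M ∈ latAlg p l := by
  classical
  obtain ⟨S, hS⟩ := IsNoetherian.noetherian
    (LinearMap.range ((torsionModel p).heckeMatrixAway {p}).toIntAlgHom.toLinearMap)
  choose t ht using fun B : S => (hS ▸ Submodule.subset_span B.2 : (B : Matrix _ _ ℤ) ∈
    LinearMap.range ((torsionModel p).heckeMatrixAway {p}).toIntAlgHom.toLinearMap)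
  let Φ : (S → ℤ_[l]) → LatMat p l := fun c => ∑ B, c B • latHecke p l (t B)
  have hcont : Continuous Φ :=
    continuous_finsetSum _ fun B _ => (continuous_apply B).smul continuous_const
  have hclosed : IsClosed (Set.range Φ) := (isCompact_range hcont).isClosed
  have hrange : ∀ u : HT p, latHecke p l u ∈ Set.range Φ := fun u => by
    have hu : (torsionModel p).heckeMatrixAway {p} u ∈ Submodule.span ℤ (S : Set _) :=
      hS.ge ⟨u, rfl⟩
    rw [Submodule.mem_span_finset] at hu
    obtain ⟨c, -, hc⟩ := hu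
    refine ⟨fun B => (c B : ℤ_[l]), ?_⟩
    show ∑ B : S, (c B : ℤ_[l]) • latHecke p l (t B) = latHecke p l u
    rw [latHecke, RingHom.comp_apply, ← hc, map_sum, ← Finset.sum_coe_sort S]
    refine Finset.sum_congr rfl fun B _ => ?_
    rw [RingHom.comp_apply, map_zsmul, Int.cast_smul_eq_zsmul, show (torsionModel p).heckeMatrixAway
      {p} (t B) = (B : Matrix _ _ ℤ) from ht B]
  choose u hu using hM
  have hlim : Tendsto (fun n => latHecke p l (u n)) atTop (𝓝 M) := by
    refine tendsto_pi_nhds.2 fun i => tendsto_pi_nhds.2 fun j => ?_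
    rw [tendsto_iff_norm_sub_tendsto_zero]
    refine squeeze_zero (fun _ => norm_nonneg _) (fun n => ?_)
      (tendsto_pow_atTop_nhds_zero_of_lt_one (inv_nonneg.2 (Nat.cast_nonneg l))
        (inv_lt_one_of_one_lt₀ (Nat.one_lt_cast.2 hl.out.one_lt)))
    rw [norm_sub_rev, inv_pow, ← zpow_natCast, ← _root_.zpow_neg]
    exact (PadicInt.norm_le_pow_iff_mem_span_pow _ n).2 (Ideal.mem_span_singleton.2 (hu n i j))
  obtain ⟨c, hc⟩ := hclosed.mem_of_tendsto hlim (Eventually.of_forall fun n => hrange (u n))
  rw [← hc]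
  show latEnd p l (∑ B, c B • latHecke p l (t B)) ∈ latAlg p l
  rw [map_sum]
  refine sum_mem fun B _ => ?_
  have hsmul : latEnd p l (c B • latHecke p l (t B)) =
      (c B : ℚ_[l]) • latEnd p l (latHecke p l (t B)) := by
    rw [latEnd, RingHom.comp_apply, RingHom.comp_apply,
      show (PadicInt.Coe.ringHom (p := l)).mapMatrix (c B • latHecke p l (t B)) =
        (c B : ℚ_[l]) • (PadicInt.Coe.ringHom (p := l)).mapMatrix (latHecke p l (t B)) from
        Matrix.ext fun i j => by simp]
    exact map_smul (Matrix.toLinAlgEquiv' (R := ℚ_[l])) _ _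
  rw [hsmul]
  exact (latAlg p l).smul_mem (latEnd_hecke_mem _) _

theorem latAlg_comm : ∀ a ∈ latAlg p l, ∀ b ∈ latAlg p l, a * b = b * a := by
  intro a ha b hb
  refine (Algebra.commute_of_mem_adjoin_of_forall_mem_commute ha fun x hx => ?_).symm.eq
  refine (Algebra.commute_of_mem_adjoin_of_forall_mem_commute hb fun y hy => ?_).symm
  obtain ⟨t, rfl⟩ := hx
  obtain ⟨u, rfl⟩ := hy
  show latEnd p l (latHecke p l t) * latEnd p l (latHecke p l u) = _
  rw [← map_mul, ← map_mul, mul_comm, map_mul, map_mul]

theorem latEnd_latHecke (t : HT p) :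
    latEnd p l (latHecke p l t) =
      Matrix.toLin' (((torsionModel p).heckeMatrixAway {p} t).map (Int.cast : ℤ → ℚ_[l])) := by
  show Matrix.toLinAlgEquiv' _ = _
  refine congrArg Matrix.toLin' (Matrix.ext fun i j => ?_)
  simp [latHecke]

theorem latAlg_semisimple [hp : Fact p.Prime] : ∀ a ∈ latAlg p l, a.IsSemisimple := by
  intro a ha
  have ha' : a ∈ Subalgebra.toSubmodule (latAlg p l) := ha
  rw [latAlg_eq_span] at ha'
  induction ha' using Submodule.span_induction with
  | mem x hx =>
    obtain ⟨t, rfl⟩ := hx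
    show Module.End.IsSemisimple (latEnd p l (latHecke p l t))
    rw [latEnd_latHecke]
    exact isSemisimple_heckeMatrix _ hp.out _ t
  | zero => exact Module.End.isSemisimple_zero
  | add x y hx hy ihx ihy =>
    have hx' : x ∈ latAlg p l := mem_latAlg_of_span hx
    have hy' : y ∈ latAlg p l := mem_latAlg_of_span hy
    exact (ihx hx').add_of_commute (latAlg_comm x hx' y hy') (ihy hy')
  | smul c x hx ih =>
    have hx' : x ∈ latAlg p l := mem_latAlg_of_span hx
    exact (ih hx').of_mem_adjoin_singleton (Subalgebra.smul_mem _ (Algebra.self_mem_adjoin_singleton _ x) c)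

/-- Complex conjugation on the Tate lattice is that of the model. -/
theorem latGal_complexConjugation [Fact p.Prime] :
    latGal p l complexConjugation =
      (conjMatrix (torsionModel p)).map (Int.cast : ℤ → ℤ_[l]) := by
  refine matrix_ext_of_toZModPow fun n => ?_
  refine (tateMat_toZModPow (torsionData p l) n complexConjugation).trans ?_
  refine (levelMat_eq_of_forall (torsionData p l) n _ _ fun x y hy => ?_).symm
  obtain ⟨v, rfl⟩ := (torsionModel p).projTorsion_surjective (pow_pos hl.out.pos n) x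
  have hy' : y = (torsionModel p).projTorsion (pow_pos hl.out.pos n) ((torsionModel p).conj v) :=
    Subtype.ext (by rw [hy, TorsionModel.coe_projTorsion, TorsionModel.coe_projTorsion,
      TorsionModel.proj_conj _ _ (pow_pos hl.out.pos n)])
  show _ *ᵥ (torsionModel p).torsionEquiv _ _ = (torsionModel p).torsionEquiv _ _
  rw [hy', TorsionModel.torsionEquiv_proj, TorsionModel.torsionEquiv_proj]
  funext i
  rw [show (torsionModel p).conj v = conjMatrix (torsionModel p) *ᵥ v from
    (LinearMap.toMatrix'_mulVec (torsionModel p).conj v).symm]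
  simp only [Matrix.mulVec, dotProduct, TorsionModel.redMod_apply, RingHom.mapMatrix_apply,
    Matrix.map_apply, map_intCast]
  push_cast
  rfl

theorem isApprox_xMat [Fact p.Prime] (σ : GQ) :
    IsApprox (latGal p l σ + cycChar l σ • latGal p l σ⁻¹) := fun n => by
  obtain ⟨t, ht⟩ :=
    exists_hecke_approx (tateData p l) frobDense (Set.finite_singleton p) σ n
  exact ⟨t, fun i j => by rw [← Matrix.sub_apply]; exact ht i j⟩

theorem latEnd_smul (c : ℤ_[l]) (M : LatMat p l) :
    latEnd p l (c • M) = (c : ℚ_[l]) • latEnd p l M := by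
  rw [latEnd, RingHom.comp_apply, RingHom.comp_apply,
    show (PadicInt.Coe.ringHom (p := l)).mapMatrix (c • M) =
      (c : ℚ_[l]) • (PadicInt.Coe.ringHom (p := l)).mapMatrix M from Matrix.ext fun i j => by simp]
  exact map_smul (Matrix.toLinAlgEquiv' (R := ℚ_[l])) _ _

theorem trace_latEnd (M : LatMat p l) :
    LinearMap.trace ℚ_[l] (RatLat p l) (latEnd p l M) = (M.trace : ℤ_[l]) := by
  show LinearMap.trace ℚ_[l] _ (Matrix.toLin' _) = _
  rw [Matrix.trace_toLin'_eq]
  simp [Matrix.trace]

variable (p l) in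
/-- **The Tate module as a representation with quadratic relations.** -/
def latQuad [hp : Fact p.Prime] : QuadRep ℚ_[l] (RatLat p l) GQ where
  alg := latAlg p l
  comm := latAlg_comm
  semisimple := latAlg_semisimple
  rho := (latEnd p l).toMonoidHom.comp (latGal p l)
  omega := (PadicInt.Coe.ringHom (p := l)).toMonoidHom.comp (cycChar l)
  comm_rho := fun σ a ha => (Algebra.commute_of_mem_adjoin_of_forall_mem_commute ha
    fun x hx => by
      obtain ⟨t, rfl⟩ := hx
      show latEnd p l (latGal p l σ) * latEnd p l (latHecke p l t) =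
        latEnd p l (latHecke p l t) * latEnd p l (latGal p l σ)
      rw [← map_mul, ← map_mul]
      exact congrArg (latEnd p l) ((tateData p l).comm σ t).eq).eq.symm
  quad := fun σ => ⟨_, mem_latAlg_of_approx (isApprox_xMat σ), by
    rw [map_add, latEnd_smul]; rfl⟩
  conj := complexConjugation
  conj_mul_self := complexConjugation_mul_self
  omega_conj := by
    show ((cycChar l complexConjugation : ℤ_[l]) : ℚ_[l]) = -1
    rw [cycChar_complexConjugation]
    simp
  trace_conj := by
    intro a ha
    have ha' : a ∈ Subalgebra.toSubmodule (latAlg p l) := ha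
    rw [latAlg_eq_span] at ha'
    induction ha' using Submodule.span_induction with
    | mem x hx =>
      obtain ⟨t, rfl⟩ := hx
      show LinearMap.trace _ _ (latEnd p l (latGal p l complexConjugation) *
        latEnd p l (latHecke p l t)) = 0
      rw [← map_mul, trace_latEnd, latGal_complexConjugation,
        show (conjMatrix (torsionModel p)).map (Int.cast : ℤ → ℤ_[l]) * latHecke p l t =
          (Int.castRingHom ℤ_[l]).mapMatrix
            (conjMatrix (torsionModel p) * (torsionModel p).heckeMatrixAway {p} t) by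
          rw [map_mul]; rfl,
        show ((Int.castRingHom ℤ_[l]).mapMatrix
            (conjMatrix (torsionModel p) * (torsionModel p).heckeMatrixAway {p} t)).trace =
          ((conjMatrix (torsionModel p) * (torsionModel p).heckeMatrixAway {p} t).trace : ℤ_[l]) by
          simp [Matrix.trace],
        trace_conjMatrix_mul]
      simp
    | zero => rw [mul_zero, map_zero]
    | add x y hx hy ihx ihy =>
      rw [mul_add, map_add, ihx (mem_latAlg_of_span hx),
        ihy (mem_latAlg_of_span hy), add_zero]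
    | smul c x hx ih =>
      rw [mul_smul_comm, map_smul, ih (mem_latAlg_of_span hx),
        smul_zero]

end FermatAgent.Mazur.Descent

end
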