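import Fermat.Agent.Mazur.Descent.Structure.Basic
import Fermat.Agent.Mazur.Descent.GalFrame
import Fermat.Agent.GalRep.Construct.Cyclotomic

/-!
# The local data of the Eisenstein part of the torsion, at finite levels

The component cut out by the projectors `e r`; its parts `G⁰` (kernel of reduction at `l`) and
`Gt` (the toric part at `p`).
-/

set_option autoImplicit false

noncomputable section

namespace FermatAgent.Mazur.Descent

open ModularCurve FermatAgent.GalRep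

local notation "Qb" => AlgebraicClosure ℚ
local notation "GQ" => AlgebraicClosure ℚ ≃ₐ[ℚ] AlgebraicClosure ℚ

/-- The value of the `l`-adic cyclotomic character modulo `l ^ r`, as a natural number. -/
def cycNat (l : ℕ) [Fact l.Prime] (r : ℕ) (σ : GQ) : ℕ :=
  (PadicInt.toZModPow r (cycChar l σ)).val

/-- The `l ^ r`-torsion classes fixed by the projector `e`. -/
def eisPart (p l : ℕ) [NeZero p] (e : HeckeAlg) (r : ℕ) : AddSubgroup (JZero p) where
  carrier := {x | l ^ r • x = 0 ∧ hact p e x = x}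
  zero_mem' := ⟨nsmul_zero _, map_zero _⟩
  add_mem' := fun {x y} hx hy => ⟨by rw [nsmul_add, hx.1, hy.1, add_zero],
    by rw [map_add, hx.2, hy.2]⟩
  neg_mem' := fun {x} hx => ⟨by rw [neg_nsmul, hx.1, neg_zero], by rw [map_neg, hx.2]⟩

/-- The local structure of the Eisenstein part of the `l`-power torsion of `J₀(p)`. -/
structure LocalData (p l : ℕ) [NeZero p] [Fact l.Prime] (A Ap : ValuationSubring Qb) where
  /-- half the corank -/
  m : ℕ
  /-- the projectors -/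
  e : ℕ → HeckeAlg
  eval_e : ∀ r, eisEval p l (e r) = 1
  e_idem : ∀ (r : ℕ) (x : JZero p), l ^ r • x = 0 →
    hact p (e r) (hact p (e r) x) = hact p (e r) x
  e_succ : ∀ (r : ℕ) (x : JZero p), l ^ r • x = 0 → hact p (e (r + 1)) x = hact p (e r) x
  /-- the Eichler-Shimura relation with eigenvalues congruent to those of Eisenstein series -/
  quadratic : ∀ (r : ℕ) (σ : GQ), ∃ a : HeckeAlg,
    (∃ n : ℕ, ∀ x ∈ eisPart p l (e r) r,
      ((hact p a - ((1 + (cycloChar l σ : ZMod l).val : ℕ) : Module.End ℤ (JZero p))) ^ n) x = 0) ∧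
      ∀ x ∈ eisPart p l (e r) r, σ • σ • x - hact p a (σ • x) + cycNat l r σ • x = 0
  /-- `T_l ≡ 1` on the component -/
  heckeEll_nilpotent : ∀ r : ℕ, ∃ n : ℕ, ∀ x ∈ eisPart p l (e r) r,
    ((hact p (heckeGen ⟨l, Fact.out⟩) - 1) ^ n) x = 0
  /-- fixed classes are bounded -/
  fixed_bound : ∃ D : ℕ, D ≠ 0 ∧ ∀ r, ∀ x ∈ eisPart p l (e r) r,
    (∀ σ : GQ, σ • x = x) → D • x = 0
  /-- `± (1 + l)` is not an eigenvalue of `T_l` -/
  ordinary_gap : ∃ (D : ℕ) (s : HeckeAlg), D ≠ 0 ∧ ∀ r, ∀ x ∈ eisPart p l (e r) r,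
    D • x = hact p (s * ((((l : HeckeAlg) + 1) ^ 2) - heckeGen ⟨l, Fact.out⟩ ^ 2)) x
  card_G : ∀ r, Nat.card (eisPart p l (e r) r) = l ^ (2 * m * r)
  card_G0 : ∀ r, Nat.card ↥(eisPart p l (e r) r ⊓ redKer A p) ≤ l ^ (m * r)
  inertia_G0 : ∀ r, ∀ σ ∈ A.inertiaSubgroupIn ℚ, ∀ x ∈ eisPart p l (e r) r, x ∈ redKer A p →
    σ • x = cycNat l r σ • x
  /-- a Frobenius element at `A` -/
  frob : GQ
  isFrob : A.IsFrobeniusAt frob l
  frob_G0 : ∀ r, ∀ x ∈ eisPart p l (e r) r, x ∈ redKer A p →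
    l • (frob • frob • x) - cycNat l r frob • hact p (heckeGen ⟨l, Fact.out⟩) (frob • x)
      + cycNat l r frob ^ 2 • x = 0
  /-- the toric part at `Ap` -/
  Gt : ℕ → AddSubgroup (JZero p)
  Gt_le : ∀ r, Gt r ≤ eisPart p l (e r) r
  card_Gt : ∀ r, Nat.card (Gt r) = l ^ (m * r)
  inertia_Gt : ∀ r, ∀ σ ∈ Ap.inertiaSubgroupIn ℚ, ∀ x ∈ Gt r, σ • x = x
  inertia_sub : ∀ r, ∀ σ ∈ Ap.inertiaSubgroupIn ℚ, ∀ x ∈ eisPart p l (e r) r, σ • x - x ∈ Gt r
  /-- a Frobenius element at `Ap` -/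
  frobP : GQ
  isFrobP : Ap.IsFrobeniusAt frobP p
  frobP_G : ∀ r, ∀ x ∈ eisPart p l (e r) r, frobP • frobP • x - x ∈ Gt r

end FermatAgent.Mazur.Descent

end
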