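import Fermat.Agent.Mazur.Descent.Structure.Ordinary
import Fermat.Agent.Mazur.Descent.Structure.Data

/-!
# The Eisenstein component of the Tate lattice

An idempotent modulo `l` in the Hecke algebra with value one at the Eisenstein character and
annihilating a power of each element of its kernel; its limit cuts out the component.
-/

set_option autoImplicit false

noncomputable section

open Matrix ModularCurve FermatAgent.GalRep FermatAgent.ModCurveTorsion

namespace FermatAgent.Mazur.Descent

variable {p : ℕ} [NeZero p] {l : ℕ} [hl : Fact l.Prime]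

section MatCongr

variable {ι : Type*} [Fintype ι] [DecidableEq ι] {n m : ℕ} {A B C D : Matrix ι ι ℤ_[l]}

omit [Fintype ι] [DecidableEq ι] in
theorem MatCongr.mono (h : MatCongr n A B) (hmn : m ≤ n) : MatCongr m A B := fun i j =>
  (pow_dvd_pow _ hmn).trans (h i j)

theorem MatCongr.refl' (n : ℕ) (A : Matrix ι ι ℤ_[l]) : MatCongr n A A :=
  matCongr_iff_map.2 rfl

theorem MatCongr.trans' (h : MatCongr n A B) (h' : MatCongr n B C) : MatCongr n A C :=
  matCongr_iff_map.2 ((matCongr_iff_map.1 h).trans (matCongr_iff_map.1 h'))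

theorem MatCongr.mul' (h : MatCongr n A B) (h' : MatCongr n C D) : MatCongr n (A * C) (B * D) :=
  matCongr_iff_map.2 (by rw [map_mul, map_mul, matCongr_iff_map.1 h, matCongr_iff_map.1 h'])

theorem MatCongr.pow' (h : MatCongr n A B) (k : ℕ) : MatCongr n (A ^ k) (B ^ k) :=
  matCongr_iff_map.2 (by rw [map_pow, map_pow, matCongr_iff_map.1 h])

/-- A matrix divisible by `l` has `n`-th power divisible by `l ^ n`. -/
theorem MatCongr.pow_of_one (h : MatCongr 1 A 0) (n : ℕ) : MatCongr n (A ^ n) 0 := by
  choose y hy using h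
  have hA : A = (l : ℤ_[l]) • Matrix.of y := Matrix.ext fun i j => by
    have := hy i j
    rw [Matrix.zero_apply, sub_zero, pow_one] at this
    exact this
  intro i j
  rw [hA, smul_pow, Matrix.zero_apply, sub_zero, Matrix.smul_apply, smul_eq_mul]
  exact dvd_mul_right _ _

/-- An idempotent divisible by `l` vanishes. -/
theorem eq_zero_of_idempotent (hA : A * A = A) (h : MatCongr 1 A 0) : A = 0 :=
  Matrix.ext fun i j => PadicInt.ext_of_toZModPow.mp fun n => by
    cases n with
    | zero =>
      have : Subsingleton (ZMod (l ^ 0)) := by rw [pow_zero]; infer_instance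
      exact Subsingleton.elim _ _
    | succ n =>
      have h1 := matCongr_iff_map.1 (h.pow_of_one (n + 1))
      rw [IsIdempotentElem.pow_succ_eq n hA] at h1
      exact congrFun (congrFun h1 i) j

end MatCongr

/-- Hecke operators congruent modulo `l` in integral coordinates. -/
theorem matCongr_latHecke {a b : HT p}
    (h : ((torsionModel p).heckeMatrixAway {p} a).map (Int.cast : ℤ → ZMod l) =
      ((torsionModel p).heckeMatrixAway {p} b).map (Int.cast : ℤ → ZMod l)) :
    MatCongr 1 (latHecke p l a) (latHecke p l b) := by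
  intro i j
  have h1 := congrFun (congrFun h i) j
  rw [Matrix.map_apply, Matrix.map_apply, ← sub_eq_zero, ← Int.cast_sub,
    ZMod.intCast_zmod_eq_zero_iff_dvd] at h1
  obtain ⟨c, hc⟩ := h1
  refine ⟨c, ?_⟩
  simp only [latHecke, RingHom.comp_apply, RingHom.mapMatrix_apply, Matrix.map_apply,
    Int.coe_castRingHom]
  rw [← Int.cast_sub, hc, Int.cast_mul, Int.cast_natCast, pow_one]

/-- An element, idempotent modulo `l` with value `1` at the character, killing modulo `l` a power
of each element of the kernel of the character. -/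
theorem exists_component_operator (θ : HT p →+* ZMod l) :
    ∃ t : HT p, θ t = 1 ∧ MatCongr 1 (latHecke p l t * latHecke p l t) (latHecke p l t) ∧
      ∀ s, θ s = 0 → ∃ k, MatCongr 1 (latHecke p l t * latHecke p l s ^ k) 0 := by
  classical
  set φ : HT p →+* Matrix (Fin (torsionModel p).rank) (Fin (torsionModel p).rank) (ZMod l) :=
    ((Int.castRingHom (ZMod l)).mapMatrix).comp ((torsionModel p).heckeMatrixAway {p})
  let mk := Ideal.Quotient.mk (RingHom.ker φ)
  have hmk : ∀ a b, mk a = mk b ↔ φ a = φ b := fun a b => by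
    rw [Ideal.Quotient.eq, RingHom.mem_ker, map_sub, sub_eq_zero]
  set S := Finset.univ.filter fun M => ∃ x, θ x = 0 ∧ φ x = M
  have hS : ∀ M : S, ∃ x, θ x = 0 ∧ φ x = M.1 := fun M => (Finset.mem_filter.1 M.2).2
  choose x hx using hS
  have hk : ∀ M : S, ∃ k, k ≠ 0 ∧ M.1 ^ k * M.1 ^ k = M.1 ^ k := fun M => by
    obtain ⟨k, -, hk0, hk⟩ := exists_pow_idem M.1 0
    exact ⟨k, hk0, hk⟩
  choose k hk0 hk using hk
  set t := ∏ M : S, (1 - x M ^ k M)
  have hidem : ∀ M : S, IsIdempotentElem (mk (x M ^ k M)) := fun M => by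
    show mk _ * mk _ = mk _
    rw [← map_mul, hmk, map_mul, map_pow, (hx M).2, hk M]
  refine ⟨t, ?_, ?_, fun s hs => ?_⟩
  · rw [map_prod]
    refine Finset.prod_eq_one fun M _ => ?_
    rw [map_sub, map_one, map_pow, (hx M).1, zero_pow (hk0 M), sub_zero]
  · rw [← map_mul]
    refine matCongr_latHecke ((hmk _ _).1 ?_)
    rw [map_mul, map_prod]
    refine Finset.prod_induction _ IsIdempotentElem (fun a b ha hb => ha.mul hb)
      IsIdempotentElem.one fun M _ => ?_
    rw [map_sub, map_one]
    exact (hidem M).one_sub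
  · let M : S := ⟨φ s, Finset.mem_filter.2 ⟨Finset.mem_univ _, s, hs, rfl⟩⟩
    refine ⟨k M, ?_⟩
    rw [← map_pow, ← map_mul, ← map_zero (latHecke p l)]
    refine matCongr_latHecke ((hmk _ _).1 ?_)
    rw [map_mul, map_pow, show mk s = mk (x M) from (hmk _ _).2 (hx M).2.symm, ← map_pow,
      map_prod, Finset.prod_eq_mul_prod_sdiff_singleton_of_mem (Finset.mem_univ M) fun N => mk (1 - x N ^ k N),
      map_sub, map_one, mul_right_comm, sub_mul, one_mul, (hidem M).eq, sub_self, zero_mul, map_zero]

/-- The fixed sublattice of an idempotent. -/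
theorem mem_latPull_range {P : LatMat p l} (hPP : P * P = P) {v : Lat p l} :
    v ∈ latPull (LinearMap.range (latEnd p l P)) ↔ P *ᵥ v = v := by
  constructor
  · intro hv
    refine ratHom_injective ?_
    rw [← latEnd_ratHom]
    exact QuadRep.apply_of_mem_range (by rw [← map_mul, hPP]) hv
  · intro h
    exact ⟨ratHom p l v, by rw [latEnd_ratHom, h]⟩

/-- A limit of Hecke operators commutes with the Hecke operators. -/
theorem IsApprox.commute {P : LatMat p l} (hP : IsApprox P) (s : HT p) :
    P * latHecke p l s = latHecke p l s * P := by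
  refine matrix_ext_of_toZModPow fun n => ?_
  obtain ⟨u, hu⟩ := hP n
  rw [map_mul, map_mul, matCongr_iff_map.1 hu, ← map_mul, ← map_mul, ← map_mul, ← map_mul, mul_comm]

/-- A limit of Hecke operators commutes with the others. -/
theorem IsApprox.commute' {P Q : LatMat p l} (hP : IsApprox P) (hQ : IsApprox Q) :
    P * Q = Q * P := by
  refine matrix_ext_of_toZModPow fun n => ?_
  obtain ⟨u, hu⟩ := hQ n
  rw [map_mul, map_mul, matCongr_iff_map.1 hu, ← map_mul, ← map_mul, hP.commute]

variable [hp : Fact p.Prime]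

/-- The projector of the component at finite levels. -/
theorem exists_component (hln : l ∣ eisensteinNumerator p) :
    ∃ (P : LatMat p l) (e : ℕ → HeckeAlg), P * P = P ∧ IsApprox P ∧
      (∀ s, latEisChar hln s = 0 → ∃ k, MatCongr 1 (P * latHecke p l s ^ k) 0) ∧
      (∀ r, eisEval p l (e r) = 1) ∧
      ∀ (r m : ℕ), r ≤ m → ∀ v : Lat p l, hact p (e m) (latProj r v) = latProj r (P *ᵥ v) := by
  obtain ⟨t, ht1, htt, hpure⟩ := exists_component_operator (latEisChar hln)
  obtain ⟨P, hPP, hPn, hstep, -⟩ := exists_idempotent_limit (latHecke p l t) htt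
  have hP1 : MatCongr 1 P (latHecke p l t) := by
    refine (hPn 1).trans' ?_
    have := hstep 0
    simpa using this
  choose e he he' using fun r => exists_hecke_lift (latEisChar hln) (latEisChar_T hln) (t ^ l ^ r)
  refine ⟨P, e, hPP, fun n => ⟨t ^ l ^ n, by rw [map_pow]; exact hPn n⟩, fun s hs => ?_,
    fun r => by rw [he, map_pow, ht1, one_pow], fun r m hrm v => ?_⟩
  · obtain ⟨k, hk⟩ := hpure s hs
    exact ⟨k, (hP1.mul' (MatCongr.refl' 1 (latHecke p l s ^ k))).trans' hk⟩
  · rw [he', map_pow]
    exact latProj_congr fun i => by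
      have := matCongr_mulVec ((hPn m).mono hrm) v i
      rwa [← dvd_neg, neg_sub] at this

omit hp in
/-- A member of the component is killed modulo `l ^ r` by a power of each element of the kernel of
the character. -/
theorem latProj_pow_eq_zero {P : LatMat p l} (hPP : P * P = P) (hP : IsApprox P) {s : HT p} {k : ℕ}
    (hk : MatCongr 1 (P * latHecke p l s ^ k) 0) (r : ℕ) {v : Lat p l}
    (hv : P *ᵥ v = v) : latProj r (latHecke p l s ^ (k * r) *ᵥ v) = 0 := by
  rcases r with - | r
  · have := latProj_mem 0 (latHecke p l s ^ (k * 0) *ᵥ v)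
    simpa using this
  have h1 := hk.pow_of_one (r + 1)
  have hc : Commute P (latHecke p l s ^ k) := (show Commute P (latHecke p l s) from hP.commute s).pow_right k
  rw [hc.mul_pow, IsIdempotentElem.pow_succ_eq r hPP, ← pow_mul] at h1
  conv_lhs => rw [← hv, Matrix.mulVec_mulVec,
    ← ((show Commute P (latHecke p l s) from hP.commute s).pow_right (k * (r + 1))).eq]
  rw [latProj_eq_zero_iff]
  intro i
  have h2 := matCongr_mulVec h1 v i
  rwa [Matrix.zero_mulVec, Pi.zero_apply, sub_zero] at h2

omit hp in
/-- The component is inside every idempotent congruent to `1` modulo the kernel of the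
character. -/
theorem mul_eq_self_of_congr {θ : HT p →+* ZMod l} {P Q : LatMat p l} (hPP : P * P = P)
    (hP : IsApprox P) (hpure : ∀ s, θ s = 0 → ∃ k, MatCongr 1 (P * latHecke p l s ^ k) 0)
    (hQQ : Q * Q = Q) (hQ : IsApprox Q) {u : HT p} (hu : MatCongr 1 Q (latHecke p l u))
    (hθ : θ u = 1) : P * Q = P := by
  obtain ⟨k, hk⟩ := hpure (1 - u) (by rw [map_sub, map_one, hθ, sub_self])
  have hidem : IsIdempotentElem (1 - Q) := IsIdempotentElem.one_sub hQQ
  have hc : P * (1 - Q) = (1 - Q) * P := by rw [mul_sub, sub_mul, mul_one, one_mul, hP.commute' hQ]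
  have hz : P * (1 - Q) = 0 := by
    refine eq_zero_of_idempotent ?_ ?_
    · rw [mul_assoc, ← mul_assoc (1 - Q), ← hc, mul_assoc, hidem.eq, ← mul_assoc, hPP]
    · have h1 : MatCongr 1 (1 - Q) (latHecke p l (1 - u)) := by
        refine matCongr_iff_map.2 ?_
        rw [map_sub, map_one, matCongr_iff_map.1 hu, map_sub (latHecke p l), map_one, map_sub,
          map_one]
      rcases k with - | k
      · rw [pow_zero, mul_one] at hk
        have := hk.mul' (MatCongr.refl' 1 (1 - Q))
        rwa [zero_mul] at this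
      · have h2 := (MatCongr.refl' 1 P).mul' (h1.pow' (k + 1))
        rw [IsIdempotentElem.pow_succ_eq k hidem] at h2
        exact h2.trans' hk
  rwa [mul_sub, mul_one, sub_eq_zero, eq_comm] at hz

omit hp in
/-- The torsion fixed by the projector is the image of the component. -/
theorem eisPart_eq_latImage {P : LatMat p l} (hPP : P * P = P) {e : HeckeAlg} {r : ℕ}
    (he : ∀ v : Lat p l, hact p e (latProj r v) = latProj r (P *ᵥ v)) :
    eisPart p l e r = latImage r (latPull (LinearMap.range (latEnd p l P))) := by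
  ext x
  constructor
  · rintro ⟨hx, hex⟩
    obtain ⟨v, rfl⟩ := exists_latProj_eq hx
    exact ⟨P *ᵥ v, (mem_latPull_range hPP).2 (by rw [Matrix.mulVec_mulVec, hPP]),
      by rw [← he, hex]⟩
  · rintro ⟨v, hv, rfl⟩
    exact ⟨latProj_mem r v, by rw [he, (mem_latPull_range hPP).1 hv]⟩

end FermatAgent.Mazur.Descent

end
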