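import Fermat.Agent.Mazur.Descent.Structure.Good
import Fermat.Agent.GalRep.Construct.Inputs
import Fermat.Agent.GalRep.Construct.Pseudo

/-!
# The Tate lattice with its maps onto the torsion
-/

set_option autoImplicit false

noncomputable section

open Matrix ModularCurve AlgebraicCurve FermatAgent.GalRep FermatAgent.ModCurveTorsion

namespace FermatAgent.Mazur.Descent

local notation "Qb" => AlgebraicClosure ℚ
local notation "GQ" => AlgebraicClosure ℚ ≃ₐ[ℚ] AlgebraicClosure ℚ

variable (p : ℕ) [NeZero p] (l : ℕ) [hl : Fact l.Prime]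

/-- The `l`-power torsion with its Hecke action, in the coordinates of the torsion model. -/
@[reducible] def torsionData : HeckeTorsionData p l ({p} : Set ℕ) where
  rank := (torsionModel p).rank
  ι := (torsionModel p).heckeMatrixAway {p}
  ι_injective := (torsionModel p).heckeMatrixAway_injective {p}
  e := fun n => (torsionModel p).torsionEquiv (pow_pos hl.out.pos n)
  e_mul := by
    intro n x y hxy i
    obtain ⟨v, rfl⟩ := (torsionModel p).projTorsion_surjective (pow_pos hl.out.pos (n + 1)) x
    have hy : y = (torsionModel p).projTorsion (pow_pos hl.out.pos n) v := by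
      refine Subtype.ext ?_
      rw [hxy, TorsionModel.coe_projTorsion, TorsionModel.coe_projTorsion, ← natCast_zsmul]
      have := (torsionModel p).smul_proj l (l ^ n) hl.out.pos (pow_pos hl.out.pos n) v
      rw [← pow_succ'] at this
      exact this
    rw [hy, TorsionModel.torsionEquiv_proj, TorsionModel.torsionEquiv_proj]
    simp
  e_hecke := by
    intro n q hq hqN hqS x y hxy
    obtain ⟨v, rfl⟩ := (torsionModel p).projTorsion_surjective (pow_pos hl.out.pos n) x
    have hy : y = (torsionModel p).projTorsion (pow_pos hl.out.pos n)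
        ((torsionModel p).heckeAway {p} (CuspForm.heckeAlgebra.T hq hqN hqS) v) := by
      refine Subtype.ext ?_
      rw [hxy, TorsionModel.coe_projTorsion, TorsionModel.coe_projTorsion,
        TorsionModel.heckeAway_T]
      exact (torsionModel p).proj_T _ (pow_pos hl.out.pos n) ⟨q, hq⟩ hqN v
    rw [hy, TorsionModel.torsionEquiv_proj, TorsionModel.torsionEquiv_proj,
      TorsionModel.redMod_hecke]
  hecke_smul := fun _ q hq _ _ σ x _ => (galois_smul_heckeOperatorBar p σ ⟨q, hq⟩ x).symm
  finite_level := by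
    intro n
    have hfin := (torsionModel p).torsion_finite (pow_pos hl.out.pos n)
    choose E hE hfix using fun x : JZero p => exists_finiteDimensional_fixing p x
    have := hfin.fintype
    have : ∀ x : {x : JZero p | ((l ^ n : ℕ) : ℤ) • x = 0}, FiniteDimensional ℚ (E x.1) :=
      fun x => hE x.1
    refine ⟨⨆ x : {x : JZero p | ((l ^ n : ℕ) : ℤ) • x = 0}, E x.1,
      IntermediateField.finiteDimensional_iSup_of_finite, fun σ hσ x hx => ?_⟩
    refine hfix x σ ((IntermediateField.mem_fixingSubgroup_iff _ _).mpr fun a ha => hσ a ?_)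
    exact le_iSup (fun x : {x : JZero p | ((l ^ n : ℕ) : ℤ) • x = 0} => E x.1)
      ⟨x, (natCast_zsmul x (l ^ n)).trans hx⟩ ha

omit [NeZero p] in
theorem primes_of_level [hp : Fact p.Prime] :
    ∀ q : ℕ, q.Prime → q ∣ p → q ∈ ({p} : Set ℕ) := fun _ hq hqp =>
  (Nat.prime_dvd_prime_iff_eq hq hp.out).1 hqp

/-- The Galois representation on the Tate lattice. -/
def tateData [Fact p.Prime] : HeckeTateData p l ({p} : Set ℕ) :=
  heckeTateDataOf (torsionData p l) (ES.torsionUnramified p l) (ES.torsionFrobQuadratic p l)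
    (primes_of_level p)

/-- The Tate lattice. -/
abbrev Lat : Type := Fin (torsionModel p).rank → ℤ_[l]

/-- Matrices of the lattice. -/
abbrev LatMat : Type := Matrix (Fin (torsionModel p).rank) (Fin (torsionModel p).rank) ℤ_[l]

/-- The Hecke operators on the Tate lattice. -/
def latHecke : HT p →+* LatMat p l :=
  ((Int.castRingHom ℤ_[l]).mapMatrix).comp ((torsionModel p).heckeMatrixAway {p})

/-- The Galois action on the Tate lattice. -/
def latGal [Fact p.Prime] : GQ →* LatMat p l := (tateData p l).ρ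

variable {p l}

/-- Lift of a residue vector. -/
def liftVec (r : ℕ) (v : Lat p l) : Fin (torsionModel p).rank → ℤ :=
  fun i => ((PadicInt.toZModPow r (v i)).val : ℤ)

theorem redMod_liftVec (r : ℕ) (v : Lat p l) :
    (torsionModel p).redMod (l ^ r) (liftVec r v) = fun i => PadicInt.toZModPow r (v i) := by
  funext i
  simp [liftVec]

/-- The projection of the lattice onto the `l ^ r`-torsion. -/
def latProj (r : ℕ) : Lat p l →+ JZero p where
  toFun v := (torsionModel p).proj (l ^ r) (liftVec r v)
  map_zero' := by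
    rw [← map_zero ((torsionModel p).proj (l ^ r)),
      TorsionModel.proj_eq_iff _ (pow_pos hl.out.pos r), redMod_liftVec, map_zero]
    funext i
    simp
  map_add' v w := by
    rw [← map_add, TorsionModel.proj_eq_iff _ (pow_pos hl.out.pos r), redMod_liftVec, map_add,
      redMod_liftVec, redMod_liftVec]
    funext i
    simp

theorem latProj_eq {r : ℕ} {v : Lat p l} {w : Fin (torsionModel p).rank → ℤ}
    (h : ∀ i, (w i : ZMod (l ^ r)) = PadicInt.toZModPow r (v i)) :
    latProj r v = (torsionModel p).proj (l ^ r) w := by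
  show (torsionModel p).proj (l ^ r) _ = _
  rw [TorsionModel.proj_eq_iff _ (pow_pos hl.out.pos r), redMod_liftVec]
  funext i
  exact (h i).symm

theorem latProj_eq_zero_iff {r : ℕ} {v : Lat p l} :
    latProj r v = 0 ↔ ∀ i, (l : ℤ_[l]) ^ r ∣ v i := by
  show (torsionModel p).proj (l ^ r) _ = 0 ↔ _
  rw [← map_zero ((torsionModel p).proj (l ^ r)), TorsionModel.proj_eq_iff _ (pow_pos hl.out.pos r),
    redMod_liftVec, map_zero, funext_iff]
  refine forall_congr' fun i => ?_
  rw [Pi.zero_apply, ← RingHom.mem_ker, PadicInt.ker_toZModPow, Ideal.mem_span_singleton]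

theorem latProj_congr {r : ℕ} {v w : Lat p l} (h : ∀ i, (l : ℤ_[l]) ^ r ∣ v i - w i) :
    latProj r v = latProj r w := by
  rw [← sub_eq_zero, ← map_sub, latProj_eq_zero_iff]
  exact h

theorem latProj_mem (r : ℕ) (v : Lat p l) : l ^ r • latProj r v = 0 := by
  rw [← natCast_zsmul]
  exact TorsionModel.zsmul_proj_self _ (pow_pos hl.out.pos r) _

theorem exists_latProj_eq {r : ℕ} {x : JZero p} (hx : l ^ r • x = 0) :
    ∃ v : Lat p l, latProj r v = x := by
  obtain ⟨w, hw⟩ := ((torsionModel p).mem_range_proj_iff (l ^ r) (pow_pos hl.out.pos r) x).2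
    (by rw [natCast_zsmul]; exact hx)
  exact ⟨fun i => (w i : ℤ_[l]), (latProj_eq (w := w) fun i => by simp).trans hw⟩

theorem nsmul_latProj_succ (r : ℕ) (v : Lat p l) : l • latProj (r + 1) v = latProj r v := by
  have h := (torsionModel p).smul_proj l (l ^ r) hl.out.pos (pow_pos hl.out.pos r) (liftVec (r + 1) v)
  rw [← pow_succ', natCast_zsmul] at h
  rw [latProj_eq (r := r) (w := liftVec (r + 1) v) fun i => ?_]
  · exact h
  · simp only [liftVec, Int.cast_natCast]
    rw [← PadicInt.zmod_cast_comp_toZModPow r (r + 1) r.le_succ, RingHom.comp_apply,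
      ZMod.castHom_apply, ZMod.natCast_val]

/-- The torsion point of a lattice vector in coordinates. -/
theorem torsionData_e_latProj (r : ℕ) (v : Lat p l) :
    (torsionData p l).e r ⟨latProj r v, mem_torsion_pow.2 (latProj_mem r v)⟩ =
      fun i => PadicInt.toZModPow r (v i) :=
  ((torsionModel p).torsionEquiv_proj (pow_pos hl.out.pos r) (liftVec r v)).trans
    (redMod_liftVec r v)

theorem latProj_galois [Fact p.Prime] (r : ℕ) (σ : GQ) (v : Lat p l) :
    latProj r (latGal p l σ *ᵥ v) = σ • latProj r v := by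
  let x : Pic0.torsion Qb (modularFunctionFieldBar p) (l ^ r) :=
    ⟨latProj r v, mem_torsion_pow.2 (latProj_mem r v)⟩
  let y : Pic0.torsion Qb (modularFunctionFieldBar p) (l ^ r) :=
    ⟨σ • latProj r v, mem_torsion_pow.2 (galois_torsion σ (latProj_mem r v))⟩
  have h := levelMat_e (torsionData p l) r σ x y rfl
  have hx : (torsionData p l).e r ⟨latProj r (latGal p l σ *ᵥ v),
      mem_torsion_pow.2 (latProj_mem r _)⟩ = (torsionData p l).e r y := by
    rw [torsionData_e_latProj, ← h, torsionData_e_latProj, ← tateMat_toZModPow]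
    funext i
    exact RingHom.map_mulVec (PadicInt.toZModPow r) _ v i
  exact (congrArg Subtype.val (((torsionData p l).e r).injective hx)).trans rfl
theorem latProj_intMat (r : ℕ) (B : Matrix (Fin (torsionModel p).rank) (Fin (torsionModel p).rank) ℤ)
    (v : Lat p l) :
    latProj r ((B.map (Int.cast : ℤ → ℤ_[l])) *ᵥ v) =
      (torsionModel p).proj (l ^ r) (B *ᵥ liftVec r v) := by
  refine latProj_eq fun i => ?_
  rw [show ((B *ᵥ liftVec r v) i : ZMod (l ^ r)) =
      ((Int.castRingHom (ZMod (l ^ r))) ((B *ᵥ liftVec r v) i)) from rfl, RingHom.map_mulVec,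
    RingHom.map_mulVec]
  congr 1
  · ext a b
    simp
  · funext j
    simp [liftVec]

theorem heckeMatrixAway_mulVec (t : HT p) (w : Fin (torsionModel p).rank → ℤ) :
    (torsionModel p).heckeMatrixAway {p} t *ᵥ w = (torsionModel p).heckeAway {p} t w := by
  rw [← Matrix.toLinAlgEquiv'_apply, ← LinearMap.toMatrixAlgEquiv'_symm]
  exact LinearMap.congr_fun ((LinearMap.toMatrixAlgEquiv').symm_apply_apply _) w

/-- Every element of the Hecke algebra away from the level is induced by the Hecke algebra acting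
on `J₀(p)`, compatibly with a given Eisenstein character. -/
theorem exists_hecke_lift [hp : Fact p.Prime] (θ : HT p →+* ZMod l)
    (hθ : ∀ (q : ℕ) (hq : q.Prime) (hqp : ¬ q ∣ p) (hqS : q ∉ ({p} : Set ℕ)),
      θ (CuspForm.heckeAlgebra.T hq hqp hqS) = 1 + (q : ZMod l)) (t : HT p) :
    ∃ P : HeckeAlg, eisEval p l P = θ t ∧ ∀ (r : ℕ) (v : Lat p l),
      hact p P (latProj r v) = latProj r (latHecke p l t *ᵥ v) := by
  suffices h : ∀ u (hu : u ∈ HT p), ∃ P : HeckeAlg, eisEval p l P = θ ⟨u, hu⟩ ∧
      ∀ (r : ℕ) (v : Lat p l), hact p P (latProj r v) = latProj r (latHecke p l ⟨u, hu⟩ *ᵥ v) from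
    h t t.2
  intro u hu
  induction hu using Algebra.adjoin_induction with
  | mem u hu =>
    rcases hu with ⟨q, hq, hqp, hqS, rfl⟩ | ⟨q, hqp, hq, hqS, -⟩
    · refine ⟨heckeGen ⟨q, hq⟩, ?_, fun r v => ?_⟩
      · rw [eisEval, heckeGen, MvPolynomial.eval₂Hom_X', if_neg fun h : q = p => hqp (by rw [h])]
        exact (hθ q hq hqp hqS).symm
      · show _ = latProj r (latHecke p l (CuspForm.heckeAlgebra.T hq hqp hqS) *ᵥ v)
        rw [hact_X, latHecke, RingHom.comp_apply, RingHom.mapMatrix_apply, Int.coe_castRingHom,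
          latProj_intMat, heckeMatrixAway_mulVec, TorsionModel.heckeAway_T]
        exact (torsionModel p).proj_T _ (pow_pos hl.out.pos r) ⟨q, hq⟩ hqp _
    · exact absurd (primes_of_level p q hq hqp) hqS
  | algebraMap c =>
    have h : (⟨algebraMap ℤ _ c, (HT p).algebraMap_mem c⟩ : HT p) = algebraMap ℤ (HT p) c := rfl
    refine ⟨(c : HeckeAlg), by rw [h, eq_intCast, map_intCast, map_intCast], fun r v => ?_⟩
    rw [h, eq_intCast, map_intCast, map_intCast, Module.End.intCast_apply]
    rw [show ((c : LatMat p l) *ᵥ v) = c • v from ?_, map_zsmul]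
    rw [← zsmul_one, Matrix.smul_mulVec, Matrix.one_mulVec]
  | add a b ha hb h1 h2 =>
    obtain ⟨P, hP, hP'⟩ := h1
    obtain ⟨Q, hQ, hQ'⟩ := h2
    have h : (⟨a + b, add_mem ha hb⟩ : HT p) = ⟨a, ha⟩ + ⟨b, hb⟩ := rfl
    refine ⟨P + Q, by rw [h, map_add, map_add, hP, hQ], fun r v => ?_⟩
    rw [h, map_add, LinearMap.add_apply, hP', hQ', map_add (latHecke p l), Matrix.add_mulVec,
      map_add]
  | mul a b ha hb h1 h2 =>
    obtain ⟨P, hP, hP'⟩ := h1
    obtain ⟨Q, hQ, hQ'⟩ := h2
    have h : (⟨a * b, mul_mem ha hb⟩ : HT p) = ⟨a, ha⟩ * ⟨b, hb⟩ := rfl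
    refine ⟨P * Q, by rw [h, map_mul, map_mul, hP, hQ], fun r v => ?_⟩
    rw [h, map_mul, Module.End.mul_apply, hQ', hP', Matrix.mulVec_mulVec, ← map_mul (latHecke p l)]

end FermatAgent.Mazur.Descent

end
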