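import Fermat.Agent.Mazur.Descent.Structure.Saturated
import Fermat.Agent.Eisenstein.HeckeChar

/-!
# The ordinary part of the Tate lattice

The sublattice reducing to zero at `A`, and the idempotent of the ordinary part, on which that
sublattice has at most half the rank.
-/

set_option autoImplicit false

noncomputable section

open Matrix ModularCurve FermatAgent.GalRep FermatAgent.ModCurveTorsion

namespace FermatAgent.Mazur.Descent

local notation "Qb" => AlgebraicClosure ℚ
local notation "GQ" => AlgebraicClosure ℚ ≃ₐ[ℚ] AlgebraicClosure ℚ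

/-- Every element of a finite monoid has an idempotent power of large exponent. -/
theorem exists_pow_idem {M : Type*} [Monoid M] [Finite M] (a : M) (N : ℕ) :
    ∃ k, N ≤ k ∧ k ≠ 0 ∧ a ^ k * a ^ k = a ^ k := by
  obtain ⟨i, j, hij, he⟩ := Finite.exists_ne_map_eq_of_infinite fun n : ℕ => a ^ n
  wlog hlt : i < j generalizing i j
  · exact this j i hij.symm he.symm (lt_of_le_of_ne (not_lt.1 hlt) hij.symm)
  obtain ⟨d, rfl⟩ : ∃ d, j = i + d := ⟨j - i, by omega⟩
  have hd : 0 < d := by omega
  have hper : ∀ m, ∀ n, i ≤ n → a ^ (n + d * m) = a ^ n := by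
    intro m
    induction m with
    | zero => intro n _; rw [mul_zero, add_zero]
    | succ m ih =>
      intro n hn
      obtain ⟨c, rfl⟩ := Nat.exists_eq_add_of_le hn
      have h1 : i + c + d * (m + 1) = (i + d) + (c + d * m) := by ring
      rw [h1, pow_add, ← he, ← pow_add, ← add_assoc, ih _ hn]
  have hle : i + N + 1 ≤ d * (i + N + 1) := Nat.le_mul_of_pos_left _ hd
  refine ⟨d * (i + N + 1), by omega, by omega, ?_⟩
  rw [← pow_add]
  exact hper _ _ (by omega)

variable {p : ℕ} [NeZero p] {l : ℕ} [hl : Fact l.Prime]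

section Char

variable [hp : Fact p.Prime]

/-- The Eisenstein character modulo `l` of the Hecke algebra away from the level. -/
def latEisChar (hln : l ∣ eisensteinNumerator p) : HT p →+* ZMod l :=
  ((ZMod.castHom hln (ZMod l)).comp (Eisenstein.eisHeckeChar p)).comp
    (Subalgebra.inclusion (CuspForm.heckeAlgebra_mono (Set.empty_subset ({p} : Set ℕ)))).toRingHom

theorem latEisChar_T (hln : l ∣ eisensteinNumerator p) (q : ℕ) (hq : q.Prime) (hqp : ¬ q ∣ p)
    (hqS : q ∉ ({p} : Set ℕ)) :
    latEisChar hln (CuspForm.heckeAlgebra.T hq hqp hqS) = 1 + (q : ZMod l) := by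
  show ZMod.castHom hln (ZMod l) (Eisenstein.eisHeckeChar p
    (CuspForm.heckeAlgebra.T hq hqp (Set.notMem_empty q))) = _
  rw [(Eisenstein.isEisensteinChar_eisHeckeChar (p := p)).map_T q hq hqp, map_add, map_one,
    map_natCast]

omit hl hp in
omit [NeZero p] in
theorem notMem_of_not_dvd (hlp : ¬ l ∣ p) : l ∉ ({p} : Set ℕ) := fun h =>
  hlp (by rw [Set.mem_singleton_iff.1 h])

variable (p l) in
/-- `T_l` in the Hecke algebra away from the level. -/
def heckeTl (hlp : ¬ l ∣ p) : HT p :=
  CuspForm.heckeAlgebra.T hl.out hlp (notMem_of_not_dvd hlp)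

omit hp in
theorem hact_heckeGen_latProj (hlp : ¬ l ∣ p) (r : ℕ) (v : Lat p l) :
    hact p (heckeGen ⟨l, hl.out⟩) (latProj r v) =
      latProj r (latHecke p l (heckeTl p l hlp) *ᵥ v) := by
  rw [hact_X, latHecke, RingHom.comp_apply, RingHom.mapMatrix_apply, Int.coe_castRingHom,
    latProj_intMat, heckeMatrixAway_mulVec, heckeTl, TorsionModel.heckeAway_T]
  exact (torsionModel p).proj_T _ (pow_pos hl.out.pos r) ⟨l, hl.out⟩ hlp _

end Char

section Reduction

variable (p l) in
/-- The sublattice of the vectors whose images reduce to zero. -/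
def redLat (A : ValuationSubring Qb) : Submodule ℤ_[l] (Lat p l) where
  carrier := {v | ∀ r, latProj r v ∈ redKer A p}
  zero_mem' r := by rw [map_zero]; exact zero_mem _
  add_mem' {v w} hv hw r := by rw [map_add]; exact add_mem (hv r) (hw r)
  smul_mem' c {v} hv r := by rw [latProj_smul]; exact nsmul_mem (hv r) _

theorem isSaturated_redLat (A : ValuationSubring Qb) : IsSaturated (redLat p l A) := by
  intro v h r
  have h1 := h (r + 1)
  rwa [latProj_natCast_smul, nsmul_latProj_succ] at h1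

variable (p l) in
/-- The subspace spanned by `redLat`. -/
def redSpace (A : ValuationSubring Qb) : Submodule ℚ_[l] (RatLat p l) :=
  Submodule.span ℚ_[l] (ratHom p l '' redLat p l A)

theorem exists_ratHom_of_mem_redSpace {A : ValuationSubring Qb} {x : RatLat p l}
    (hx : x ∈ redSpace p l A) :
    ∃ c : ℤ_[l], c ≠ 0 ∧ ∃ v ∈ redLat p l A, (c : ℚ_[l]) • x = ratHom p l v := by
  induction hx using Submodule.span_induction with
  | mem x hx =>
    obtain ⟨v, hv, rfl⟩ := hx
    exact ⟨1, one_ne_zero, v, hv, by rw [PadicInt.coe_one, one_smul]⟩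
  | zero => exact ⟨1, one_ne_zero, 0, zero_mem _, by rw [smul_zero, map_zero]⟩
  | add x y _ _ ihx ihy =>
    obtain ⟨c, hc, v, hv, hcv⟩ := ihx
    obtain ⟨c', hc', v', hv', hcv'⟩ := ihy
    refine ⟨c * c', mul_ne_zero hc hc', c' • v + c • v',
      add_mem (Submodule.smul_mem _ _ hv) (Submodule.smul_mem _ _ hv'), ?_⟩
    rw [map_add, ratHom_smul, ratHom_smul, ← hcv, ← hcv', smul_smul, smul_smul, PadicInt.coe_mul,
      smul_add, mul_comm (c' : ℚ_[l])]
  | smul a x _ ih =>
    obtain ⟨c, hc, v, hv, hcv⟩ := ih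
    obtain ⟨⟨n, d⟩, hnd⟩ := IsLocalization.surj (nonZeroDivisors ℤ_[l]) a
    refine ⟨c * d, mul_ne_zero hc (nonZeroDivisors.coe_ne_zero d), n • v,
      Submodule.smul_mem _ _ hv, ?_⟩
    rw [ratHom_smul, ← hcv, smul_smul, smul_smul, PadicInt.coe_mul]
    congr 1
    rw [PadicInt.algebraMap_apply, PadicInt.algebraMap_apply] at hnd
    rw [← hnd]
    ring

theorem latPull_redSpace (A : ValuationSubring Qb) : latPull (redSpace p l A) = redLat p l A := by
  refine le_antisymm (fun v hv => ?_) fun v hv => Submodule.subset_span ⟨v, hv, rfl⟩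
  obtain ⟨c, hc, w, hw, he⟩ := exists_ratHom_of_mem_redSpace hv
  rw [← ratHom_smul] at he
  exact (isSaturated_redLat A).of_smul hc (ratHom_injective he ▸ hw)

variable [hp : Fact p.Prime] {A : ValuationSubring Qb}

include hp in
theorem latHecke_mem_redLat (hln : l ∣ eisensteinNumerator p) (hlp : ¬ l ∣ p)
    (hA : A.LiesOverPrime l) (t : HT p) {v : Lat p l} (hv : v ∈ redLat p l A) :
    latHecke p l t *ᵥ v ∈ redLat p l A := fun r => by
  obtain ⟨P, -, hP⟩ := exists_hecke_lift (latEisChar hln) (latEisChar_T hln) t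
  rw [← hP r v]
  exact hact_mem_redKer hl.out hlp hA P (hv r)

omit hp in
theorem latEnd_mem_redSpace {M : LatMat p l} (h : ∀ v ∈ redLat p l A, M *ᵥ v ∈ redLat p l A)
    {x : RatLat p l} (hx : x ∈ redSpace p l A) : latEnd p l M x ∈ redSpace p l A := by
  induction hx using Submodule.span_induction with
  | mem x hx =>
    obtain ⟨v, hv, rfl⟩ := hx
    rw [latEnd_ratHom]
    exact Submodule.subset_span ⟨_, h v hv, rfl⟩
  | zero => rw [map_zero]; exact zero_mem _
  | add x y _ _ ihx ihy => rw [map_add]; exact add_mem ihx ihy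
  | smul a x _ ih => rw [map_smul]; exact Submodule.smul_mem _ _ ih

theorem latAlg_mem_redSpace (hln : l ∣ eisensteinNumerator p) (hlp : ¬ l ∣ p)
    (hA : A.LiesOverPrime l) {a : Module.End ℚ_[l] (RatLat p l)} (ha : a ∈ latAlg p l)
    {x : RatLat p l} (hx : x ∈ redSpace p l A) : a x ∈ redSpace p l A := by
  have ha' : a ∈ Subalgebra.toSubmodule (latAlg p l) := ha
  rw [latAlg_eq_span] at ha'
  induction ha' using Submodule.span_induction with
  | mem y hy =>
    obtain ⟨t, rfl⟩ := hy
    exact latEnd_mem_redSpace (fun v hv => latHecke_mem_redLat hln hlp hA t hv) hx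
  | zero => exact zero_mem _
  | add y z hy hz ihy ihz =>
    rw [LinearMap.add_apply]
    exact add_mem (ihy (mem_latAlg_of_span hy)) (ihz (mem_latAlg_of_span hz))
  | smul c y hy ih =>
    rw [LinearMap.smul_apply]
    exact Submodule.smul_mem _ _ (ih (mem_latAlg_of_span hy))

theorem rho_mem_redSpace (hlp : ¬ l ∣ p) (hA : A.LiesOverPrime l) {σ : GQ}
    (hσ : σ ∈ A.decompositionSubgroup ℚ) {x : RatLat p l} (hx : x ∈ redSpace p l A) :
    (latQuad p l).rho σ x ∈ redSpace p l A :=
  latEnd_mem_redSpace (fun v hv r => by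
    rw [latProj_galois]
    exact smul_mem_redKer hl.out hlp hA hσ (hv r)) hx

omit hp in
theorem redSpace_of_forall (f : Module.End ℚ_[l] (RatLat p l))
    (h : ∀ v : Lat p l, f (ratHom p l v) ∈ redSpace p l A) (x : RatLat p l) :
    f x ∈ redSpace p l A := by
  obtain ⟨c, v, hc, hcv⟩ := exists_ratHom_eq_smul x
  have hc' : (c : ℚ_[l]) ≠ 0 := fun h0 => hc (PadicInt.ext h0)
  have h1 := h v
  rw [← hcv, map_smul] at h1
  exact (Submodule.smul_mem_iff _ hc').1 h1

theorem rho_sub_mem_redSpace (hlp : ¬ l ∣ p) (hA : A.LiesOverPrime l) {σ : GQ}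
    (hσ : σ ∈ A.inertiaSubgroupIn ℚ) (x : RatLat p l) :
    (latQuad p l).rho σ x - x ∈ redSpace p l A :=
  redSpace_of_forall ((latQuad p l).rho σ - 1) (fun v => by
    rw [LinearMap.sub_apply, Module.End.one_apply]
    show latEnd p l (latGal p l σ) (ratHom p l v) - _ ∈ _
    rw [latEnd_ratHom, ← map_sub]
    refine Submodule.subset_span ⟨_, fun r => ?_, rfl⟩
    rw [map_sub, latProj_galois]
    exact smul_sub_mem_redKer hl.out hlp hA hσ _) x

theorem frob_quad_mem_redSpace (hlp : ¬ l ∣ p) (hA : A.LiesOverPrime l) {F : GQ}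
    (hF : A.IsFrobeniusAt F l) (x : RatLat p l) :
    (latQuad p l).rho F ((latQuad p l).rho F x) -
        latEnd p l (latHecke p l (heckeTl p l hlp)) ((latQuad p l).rho F x) +
      (l : ℚ_[l]) • x ∈ redSpace p l A :=
  redSpace_of_forall ((latQuad p l).rho F * (latQuad p l).rho F -
    latEnd p l (latHecke p l (heckeTl p l hlp)) * (latQuad p l).rho F + (l : ℚ_[l]) • 1) (fun v => by
    simp only [LinearMap.add_apply, LinearMap.sub_apply, Module.End.mul_apply, LinearMap.smul_apply,
      Module.End.one_apply]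
    show latEnd p l (latGal p l F) (latEnd p l (latGal p l F) (ratHom p l v)) -
      latEnd p l (latHecke p l (heckeTl p l hlp)) (latEnd p l (latGal p l F) (ratHom p l v)) +
        (l : ℚ_[l]) • ratHom p l v ∈ _
    rw [latEnd_ratHom, latEnd_ratHom, latEnd_ratHom,
      show (l : ℚ_[l]) • ratHom p l v = ratHom p l ((l : ℤ_[l]) • v) by
        rw [ratHom_smul, PadicInt.coe_natCast],
      ← map_sub, ← map_add]
    refine Submodule.subset_span ⟨_, fun r => ?_, rfl⟩
    rw [map_add, map_sub, latProj_galois, ← hact_heckeGen_latProj, latProj_galois,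
      latProj_natCast_smul]
    exact frob_quadratic_mem hl.out hlp hA hF _) x

omit hp in
theorem matCongr_mulVec {n : ℕ} {B C : LatMat p l} (h : MatCongr n B C) (v : Lat p l)
    (i : Fin (torsionModel p).rank) : (l : ℤ_[l]) ^ n ∣ (B *ᵥ v) i - (C *ᵥ v) i := by
  rw [← Pi.sub_apply, ← Matrix.sub_mulVec]
  simp only [Matrix.mulVec, dotProduct]
  refine Finset.dvd_sum fun j _ => ?_
  rw [Matrix.sub_apply]
  exact (h i j).mul_right _

omit hp in
/-- The mod `l` reductions of lattice vectors. -/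
theorem natCard_latImage_range {P : LatMat p l} {B : Matrix (Fin (torsionModel p).rank)
    (Fin (torsionModel p).rank) ℤ} (hPP : P * P = P)
    (hPB : MatCongr 1 P (B.map (Int.cast : ℤ → ℤ_[l]))) :
    Nat.card (latImage 1 (latPull (LinearMap.range (latEnd p l P)))) =
      l ^ (B.map (Int.cast : ℤ → ZMod l)).rank := by
  classical
  set Bb := B.map (Int.cast : ℤ → ZMod l)
  let g : (Fin (torsionModel p).rank → ZMod l) → JZero p := fun c =>
    (torsionModel p).proj (l ^ 1) fun i => ((c i).val : ℤ)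
  have hg : Function.Injective g := fun c c' h => funext fun i => by
    have h1 := ((torsionModel p).proj_eq_iff (pow_pos hl.out.pos 1) _ _).1 h
    have h2 := congrFun h1 i
    simp only [TorsionModel.redMod_apply, Int.cast_natCast] at h2
    have h3 := congrArg ZMod.val h2
    rw [ZMod.val_natCast, ZMod.val_natCast, pow_one, Nat.mod_eq_of_lt (ZMod.val_lt _),
      Nat.mod_eq_of_lt (ZMod.val_lt _)] at h3
    exact ZMod.val_injective l h3
  have hgw : ∀ w : Fin (torsionModel p).rank → ℤ,
      (torsionModel p).proj (l ^ 1) w = g fun i => (w i : ZMod l) := fun w => by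
    rw [TorsionModel.proj_eq_iff _ (pow_pos hl.out.pos 1)]
    funext i
    simp only [TorsionModel.redMod_apply, Int.cast_natCast]
    rw [eq_comm, ← Int.cast_natCast, ZMod.intCast_eq_intCast_iff_dvd_sub]
    rw [show ((l ^ 1 : ℕ) : ℤ) = (l : ℤ) by rw [pow_one], ← ZMod.intCast_eq_intCast_iff_dvd_sub]
    simp
  have hPv : ∀ v : Lat p l, latProj 1 (P *ᵥ v) = g (Bb *ᵥ fun i => (liftVec 1 v i : ZMod l)) :=
    fun v => by
    have h1 : latProj 1 (P *ᵥ v) = latProj 1 (B.map (Int.cast : ℤ → ℤ_[l]) *ᵥ v) :=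
      latProj_congr fun i => matCongr_mulVec hPB v i
    rw [h1, latProj_intMat, hgw]
    congr 1
    funext i
    exact (Int.castRingHom (ZMod l)).map_mulVec B _ i
  have himage : (latImage 1 (latPull (LinearMap.range (latEnd p l P))) : Set (JZero p)) =
      g '' (LinearMap.range Bb.mulVecLin : Set (Fin (torsionModel p).rank → ZMod l)) := by
    ext x
    constructor
    · rintro ⟨v, hv, rfl⟩
      have hfix : P *ᵥ v = v := ratHom_injective (by
        rw [← latEnd_ratHom]
        exact QuadRep.apply_of_mem_range (by rw [← map_mul, hPP]) hv)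
      refine ⟨_, ⟨fun i => (liftVec 1 v i : ZMod l), rfl⟩, ?_⟩
      show g (Bb *ᵥ _) = _
      rw [← hPv, hfix]
    · rintro ⟨_, ⟨c, rfl⟩, rfl⟩
      refine ⟨P *ᵥ fun i => ((c i).val : ℤ_[l]),
        ⟨ratHom p l fun i => ((c i).val : ℤ_[l]), latEnd_ratHom _ _⟩, ?_⟩
      show latProj 1 _ = _
      rw [hPv]
      congr 2
      funext i
      simp only [liftVec, Int.cast_natCast, map_natCast]
      rw [ZMod.val_natCast, pow_one, ZMod.natCast_mod, ZMod.natCast_zmod_val]
  rw [show Nat.card (latImage 1 (latPull (LinearMap.range (latEnd p l P)))) =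
      Nat.card (g '' (LinearMap.range Bb.mulVecLin : Set (Fin (torsionModel p).rank → ZMod l))) from
    Nat.card_congr (Equiv.setCongr himage), Nat.card_image_of_injective hg,
    SetLike.coe_sort_coe, Module.natCard_eq_pow_finrank (K := ZMod l), Nat.card_zmod]
  rfl

/-- **The ordinary idempotent.** -/
theorem exists_ordinary_idempotent (_hln : l ∣ eisensteinNumerator p) (hlp : ¬ l ∣ p)
    (hA : A.LiesOverPrime l) :
    ∃ (k : ℕ) (P : LatMat p l), k ≠ 0 ∧ P * P = P ∧ IsApprox P ∧
      MatCongr 1 (latHecke p l (heckeTl p l hlp) ^ k * latHecke p l (heckeTl p l hlp) ^ k)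
        (latHecke p l (heckeTl p l hlp) ^ k) ∧
      (∀ n, MatCongr n P ((latHecke p l (heckeTl p l hlp) ^ k) ^ l ^ n)) ∧
      MatCongr 1 P (latHecke p l (heckeTl p l hlp) ^ k) ∧
      ∃ r₀ : ℕ, Module.finrank ℚ_[l] (LinearMap.range (latEnd p l P)) = 2 * r₀ ∧
        Nat.card ↥(latImage 1 (latPull (LinearMap.range (latEnd p l P))) ⊓ redKer A p) ≤ l ^ r₀ ∧
        Module.finrank ℚ_[l] ↥(LinearMap.range (latEnd p l P) ⊓ redSpace p l A) ≤ r₀ := by
  classical
  set T := latHecke p l (heckeTl p l hlp)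
  set Tz := (torsionModel p).heckeMatrixAway {p} (heckeTl p l hlp)
  have hTk : ∀ k, T ^ k = (Tz ^ k).map (Int.cast : ℤ → ℤ_[l]) := fun k =>
    (map_pow (Int.castRingHom ℤ_[l]).mapMatrix Tz k).symm
  obtain ⟨k, hkN, hk0, hk⟩ :=
    exists_pow_idem (Tz.map (Int.cast : ℤ → ZMod l)) (torsionModel p).rank
  have hidem : MatCongr 1 (T ^ k * T ^ k) (T ^ k) := by
    intro i j
    rw [← pow_add, hTk, hTk, Matrix.map_apply, Matrix.map_apply, ← Int.cast_sub, pow_one]
    rw [← pow_add] at hk
    have hc : ∀ m, (Tz.map (Int.cast : ℤ → ZMod l)) ^ m = (Tz ^ m).map (Int.cast : ℤ → ZMod l) :=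
      fun m => (map_pow (Int.castRingHom (ZMod l)).mapMatrix Tz m).symm
    have h1 := congrFun (congrFun hk i) j
    rw [hc, hc, Matrix.map_apply, Matrix.map_apply, ← sub_eq_zero, ← Int.cast_sub,
      ZMod.intCast_zmod_eq_zero_iff_dvd] at h1
    obtain ⟨c, hc'⟩ := h1
    exact ⟨c, by rw [hc', Int.cast_mul, Int.cast_natCast]⟩
  obtain ⟨P, hPP, hPn, hstep, -⟩ := exists_idempotent_limit (T ^ k) hidem
  have happ : IsApprox P := fun n =>
    ⟨(heckeTl p l hlp ^ k) ^ l ^ n, by rw [map_pow, map_pow]; exact hPn n⟩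
  have hP1 : MatCongr 1 P (T ^ k) := by
    intro i j
    have h1 := dvd_add (hPn 1 i j) (hstep 0 i j)
    simpa using h1
  have hcomm : T * P = P * T := by
    refine Matrix.ext fun i j => PadicInt.ext_of_toZModPow.mp fun n => ?_
    have h1 : (PadicInt.toZModPow n).mapMatrix (T * P) =
        (PadicInt.toZModPow n).mapMatrix (P * T) := by
      rw [map_mul, map_mul, matCongr_iff_map.1 (hPn n), ← map_mul, ← map_mul, ← pow_mul,
        ← pow_succ', pow_succ]
    exact congrFun (congrFun h1 i) j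
  refine ⟨k, P, hk0, hPP, happ, hidem, hPn, hP1, (heckeMat (N := p) hlp ^ k).rank, ?_⟩
  set e := latEnd p l P
  have hrank : Module.finrank ℚ_[l] (LinearMap.range e) =
      2 * (heckeMat (N := p) hlp ^ k).rank := by
    have h1 := natCard_latImage_range (B := Tz ^ k) hPP (by rw [← hTk]; exact hP1)
    rw [natCard_latImage_latPull, one_mul] at h1
    rw [Nat.pow_right_injective hl.out.two_le h1,
      ← rank_heckeMatrix_pow (torsionModel p) hlp (notMem_of_not_dvd hlp) hkN]
    exact congrArg Matrix.rank (map_pow (Int.castRingHom (ZMod l)).mapMatrix Tz k)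
  have hmid : Nat.card ↥(latImage 1 (latPull (LinearMap.range e)) ⊓ redKer A p) ≤
      l ^ (heckeMat (N := p) hlp ^ k).rank := by
    set X := latPull (LinearMap.range e)
    have hXfix : ∀ v ∈ X, P *ᵥ v = v := fun v hv => ratHom_injective (by
      rw [← latEnd_ratHom]
      exact QuadRep.apply_of_mem_range (by rw [← map_mul, hPP]) hv)
    set W := latImage 1 X ⊓ redKer A p
    have : Finite (latImage 1 X) := Nat.finite_of_card_ne_zero (by
      rw [natCard_latImage_latPull]; exact pow_ne_zero _ hl.out.ne_zero)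
    have : Finite W := Finite.of_injective (AddSubgroup.inclusion inf_le_left)
      (AddSubgroup.inclusion_injective _)
    have hTx : ∀ v, heckeOperatorBar p ⟨l, hl.out⟩ (latProj 1 v) = latProj 1 (T *ᵥ v) := fun v => by
      rw [← hact_X]; exact hact_heckeGen_latProj hlp 1 v
    have hW : ∀ z ∈ W, z ∈ redKer A p ∧ l • z = 0 := by
      rintro _ ⟨⟨v, hv, rfl⟩, hred⟩
      exact ⟨hred, by have := latProj_mem 1 v; rwa [pow_one] at this⟩
    have hstab : ∀ z ∈ W, heckeOperatorBar p ⟨l, hl.out⟩ z ∈ W := by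
      rintro _ ⟨⟨v, hv, rfl⟩, hred⟩
      refine ⟨⟨T *ᵥ v, ⟨ratHom p l (T *ᵥ v), ?_⟩, (hTx v).symm⟩, ?_⟩
      · rw [latEnd_ratHom, Matrix.mulVec_mulVec, ← hcomm, ← Matrix.mulVec_mulVec, hXfix v hv]
      · rw [← hact_X]; exact hact_mem_redKer hl.out hlp hA _ hred
    have hinj : ∀ z ∈ W, heckeOperatorBar p ⟨l, hl.out⟩ z = 0 → z = 0 := by
      rintro _ ⟨⟨v, hv, rfl⟩, -⟩ h0
      rw [hTx, latProj_eq_zero_iff] at h0
      show latProj 1 v = 0
      rw [← hXfix v hv, latProj_eq_zero_iff]
      intro i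
      have h1 : (l : ℤ_[l]) ^ 1 ∣ ((T ^ k) *ᵥ v) i := by
        obtain ⟨m, rfl⟩ := Nat.exists_eq_succ_of_ne_zero hk0
        show _ ∣ ((T ^ (m + 1)) *ᵥ v) i
        rw [pow_succ T m, ← Matrix.mulVec_mulVec]
        generalize T *ᵥ v = w at h0 ⊢
        simp only [Matrix.mulVec, dotProduct]
        exact Finset.dvd_sum fun j _ => Dvd.dvd.mul_left (h0 j) _
      have h2 := matCongr_mulVec hP1 v i
      have h3 := dvd_add h2 h1
      rwa [sub_add_cancel] at h3
    exact natCard_redKer_le hlp hA W hW hstab hinj k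
  refine ⟨hrank, hmid, ?_⟩
  · set X := latPull (LinearMap.range e ⊓ redSpace p l A)
    have : Finite (latImage 1 (latPull (LinearMap.range e))) := Nat.finite_of_card_ne_zero (by
      rw [natCard_latImage_latPull]; exact pow_ne_zero _ hl.out.ne_zero)
    have : Finite ↥(latImage 1 (latPull (LinearMap.range e)) ⊓ redKer A p) :=
      Finite.of_injective (AddSubgroup.inclusion inf_le_left) (AddSubgroup.inclusion_injective _)
    have hle : latImage 1 X ≤ latImage 1 (latPull (LinearMap.range e)) ⊓ redKer A p := by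
      rintro _ ⟨v, hv, rfl⟩
      exact ⟨⟨v, hv.1, rfl⟩, (latPull_redSpace (p := p) (l := l) A).le hv.2 1⟩
    have h1 := (AddSubgroup.card_le_of_le hle).trans (hmid)
    rw [natCard_latImage_latPull, one_mul, Nat.pow_le_pow_iff_right hl.out.one_lt] at h1
    exact h1

end Reduction

end FermatAgent.Mazur.Descent

end
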