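import Fermat.Agent.Mazur.Descent.Structure.Closure
import Mathlib.LinearAlgebra.FreeModule.PID

/-!
# Saturated sublattices and their images in the torsion
-/

set_option autoImplicit false

noncomputable section

open Matrix ModularCurve FermatAgent.GalRep FermatAgent.ModCurveTorsion

namespace FermatAgent.Mazur.Descent

variable {p : ℕ} [NeZero p] {l : ℕ} [hl : Fact l.Prime]

theorem latProj_natCast_smul (r : ℕ) (n : ℕ) (v : Lat p l) :
    latProj r ((n : ℤ_[l]) • v) = n • latProj r v := by
  rw [Nat.cast_smul_eq_nsmul, map_nsmul]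

theorem latProj_smul (r : ℕ) (c : ℤ_[l]) (v : Lat p l) :
    latProj r (c • v) = (PadicInt.toZModPow r c).val • latProj r v := by
  rw [← latProj_natCast_smul]
  refine latProj_congr fun i => ?_
  rw [Pi.smul_apply, Pi.smul_apply, ← sub_smul, smul_eq_mul]
  refine Dvd.dvd.mul_right ?_ _
  rw [← Ideal.mem_span_singleton, ← PadicInt.ker_toZModPow, RingHom.mem_ker, map_sub, map_natCast,
    ZMod.natCast_zmod_val, sub_self]

variable (p l) in
/-- The lattice inside the rational Tate module. -/
def ratHom : Lat p l →ₗ[ℤ_[l]] RatLat p l where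
  toFun v i := (v i : ℚ_[l])
  map_add' v w := funext fun i => PadicInt.coe_add _ _
  map_smul' c v := funext fun i => by
    rw [RingHom.id_apply, Pi.smul_apply, Pi.smul_apply, Algebra.smul_def, Algebra.smul_def]
    exact PadicInt.coe_mul _ _

theorem ratHom_injective : Function.Injective (ratHom p l) := fun _ _ h =>
  funext fun i => PadicInt.ext (congrFun h i)

theorem latEnd_ratHom (M : LatMat p l) (v : Lat p l) :
    latEnd p l M (ratHom p l v) = ratHom p l (M *ᵥ v) := by
  show Matrix.toLinAlgEquiv' _ _ = _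
  rw [Matrix.toLinAlgEquiv'_apply]
  funext i
  exact ((PadicInt.Coe.ringHom (p := l)).map_mulVec M v i).symm

/-- Clearing denominators. -/
theorem exists_ratHom_eq_smul (x : RatLat p l) :
    ∃ (c : ℤ_[l]) (v : Lat p l), c ≠ 0 ∧ (c : ℚ_[l]) • x = ratHom p l v := by
  obtain ⟨c, hc⟩ := IsLocalization.exist_integer_multiples (nonZeroDivisors ℤ_[l]) Finset.univ x
  choose v hv using fun i => hc i (Finset.mem_univ i)
  exact ⟨c, v, nonZeroDivisors.coe_ne_zero c, funext fun i => by
    rw [Pi.smul_apply, smul_eq_mul, ← PadicInt.algebraMap_apply, ← Algebra.smul_def]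
    exact (hv i).symm⟩

/-- A sublattice is saturated if it contains `v` as soon as it contains `l • v`. -/
def IsSaturated (X : Submodule ℤ_[l] (Lat p l)) : Prop :=
  ∀ v, (l : ℤ_[l]) • v ∈ X → v ∈ X
theorem IsSaturated.of_pow {X : Submodule ℤ_[l] (Lat p l)} (hX : IsSaturated X) (n : ℕ) {v : Lat p l}
    (h : (l : ℤ_[l]) ^ n • v ∈ X) : v ∈ X := by
  induction n generalizing v with
  | zero => simpa using h
  | succ n ih =>
    rw [pow_succ, mul_smul] at h
    exact hX _ (ih h)

theorem IsSaturated.of_smul {X : Submodule ℤ_[l] (Lat p l)} (hX : IsSaturated X) {c : ℤ_[l]}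
    (hc : c ≠ 0) {v : Lat p l} (h : c • v ∈ X) : v ∈ X := by
  rw [PadicInt.unitCoeff_spec hc, mul_comm, mul_smul] at h
  have h1 := hX.of_pow _ h
  have h2 := X.smul_mem (((PadicInt.unitCoeff hc)⁻¹ : ℤ_[l]ˣ) : ℤ_[l]) h1
  rwa [smul_smul, Units.inv_mul, one_smul] at h2

/-- The image of a sublattice in the torsion. -/
def latImage (r : ℕ) (X : Submodule ℤ_[l] (Lat p l)) : AddSubgroup (JZero p) :=
  X.toAddSubgroup.map (latProj r)

/-- A saturated sublattice of rank `k` has image of order `l ^ (r k)`. -/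
theorem natCard_latImage {X : Submodule ℤ_[l] (Lat p l)} (hX : IsSaturated X) (r : ℕ) :
    Nat.card (latImage r X) = l ^ (r * Module.finrank ℤ_[l] X) := by
  classical
  set k := Module.finrank ℤ_[l] X
  let b : Module.Basis (Fin k) ℤ_[l] X := Module.finBasis _ X
  let lift : (Fin k → ZMod (l ^ r)) → X := fun c => ∑ i, ((c i).val : ℤ_[l]) • b i
  let f : (Fin k → ZMod (l ^ r)) → latImage r X := fun c =>
    ⟨latProj r (lift c : Lat p l), ⟨_, (lift c).2, rfl⟩⟩
  have hcoord : ∀ c i, b.repr (lift c) i = ((c i).val : ℤ_[l]) := fun c i => by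
    show b.repr (∑ i, _ • b i) i = _
    rw [Module.Basis.repr_sum_self]
  have hinj : Function.Injective f := fun c c' h => by
    have h0 := congrArg Subtype.val h
    rw [← sub_eq_zero, ← map_sub, latProj_eq_zero_iff] at h0
    choose y hy using h0
    have hy' : ((lift c - lift c' : X) : Lat p l) = (l : ℤ_[l]) ^ r • y := funext fun i => by
      rw [AddSubgroupClass.coe_sub, hy i, Pi.smul_apply, smul_eq_mul]
    have hyX : y ∈ X := hX.of_pow r (hy' ▸ (lift c - lift c').2)
    have hd : lift c - lift c' = (l : ℤ_[l]) ^ r • (⟨y, hyX⟩ : X) := Subtype.ext hy'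
    funext i
    have h1 := congrArg (fun z => PadicInt.toZModPow r (b.repr z i)) hd
    simp only [map_sub, map_smul, Finsupp.sub_apply, Finsupp.smul_apply, smul_eq_mul, hcoord,
      map_mul, map_natCast, ZMod.natCast_zmod_val, map_pow] at h1
    rw [← Nat.cast_pow, ZMod.natCast_self, zero_mul, sub_eq_zero] at h1
    exact h1
  have hsurj : Function.Surjective f := by
    rintro ⟨_, v, hv, rfl⟩
    refine ⟨fun i => PadicInt.toZModPow r (b.repr ⟨v, hv⟩ i), Subtype.ext ?_⟩
    show latProj r (lift _ : Lat p l) = latProj r v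
    conv_rhs => rw [show v = ((⟨v, hv⟩ : X) : Lat p l) from rfl, ← b.sum_repr ⟨v, hv⟩]
    simp only [lift, Submodule.coe_sum, Submodule.coe_smul, map_sum]
    refine Finset.sum_congr rfl fun i _ => ?_
    rw [latProj_natCast_smul, latProj_smul]
  rw [← Nat.card_eq_of_bijective f ⟨hinj, hsurj⟩, Nat.card_fun, Nat.card_zmod, Nat.card_eq_fintype_card,
    Fintype.card_fin, ← pow_mul]

/-- The sublattice cut out by a subspace. -/
def latPull (S : Submodule ℚ_[l] (RatLat p l)) : Submodule ℤ_[l] (Lat p l) :=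
  (S.restrictScalars ℤ_[l]).comap (ratHom p l)

theorem mem_latPull {S : Submodule ℚ_[l] (RatLat p l)} {v : Lat p l} :
    v ∈ latPull S ↔ ratHom p l v ∈ S := Iff.rfl

theorem ratHom_smul (c : ℤ_[l]) (v : Lat p l) :
    ratHom p l (c • v) = (c : ℚ_[l]) • ratHom p l v := by
  rw [map_smul]
  funext i
  rw [Pi.smul_apply, Pi.smul_apply, Algebra.smul_def, smul_eq_mul]
  rfl

theorem isSaturated_latPull (S : Submodule ℚ_[l] (RatLat p l)) : IsSaturated (latPull S) := by
  intro v h
  rw [mem_latPull, ratHom_smul] at h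
  exact (Submodule.smul_mem_iff S (by rw [PadicInt.coe_natCast]; exact Nat.cast_ne_zero.2 hl.out.ne_zero)).1 h

/-- A sublattice cut out by a subspace has its dimension as rank. -/
theorem finrank_latPull (S : Submodule ℚ_[l] (RatLat p l)) :
    Module.finrank ℤ_[l] (latPull S) = Module.finrank ℚ_[l] S := by
  classical
  let b : Module.Basis (Fin (Module.finrank ℤ_[l] (latPull S))) ℤ_[l] (latPull S) :=
    Module.finBasis _ _
  let f : Fin (Module.finrank ℤ_[l] (latPull S)) → S := fun i => ⟨ratHom p l (b i : Lat p l), (b i).2⟩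
  have hZ : LinearIndependent ℤ_[l] f := by
    refine LinearIndependent.of_comp (S.restrictScalars ℤ_[l]).subtype ?_
    exact (b.linearIndependent.map' (latPull S).subtype (Submodule.ker_subtype _)).map'
      (ratHom p l) (LinearMap.ker_eq_bot.2 ratHom_injective)
  have hQ : LinearIndependent ℚ_[l] f :=
    (LinearIndependent.iff_fractionRing (R := ℤ_[l]) (K := ℚ_[l])).1 hZ
  have hspan : ⊤ ≤ Submodule.span ℚ_[l] (Set.range f) := by
    rintro ⟨x, hx⟩ -
    obtain ⟨c, v, hc, hcx⟩ := exists_ratHom_eq_smul x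
    have hv : v ∈ latPull S := by
      rw [mem_latPull, ← hcx]; exact S.smul_mem _ hx
    have hc' : (c : ℚ_[l]) ≠ 0 := fun h => hc (PadicInt.ext h)
    have : (⟨x, hx⟩ : S) = (c : ℚ_[l])⁻¹ • ∑ i, ((b.repr ⟨v, hv⟩ i : ℤ_[l]) : ℚ_[l]) • f i := by
      refine Subtype.ext ?_
      simp only [Submodule.coe_smul, Submodule.coe_sum, f]
      rw [show (∑ i, ((b.repr ⟨v, hv⟩ i : ℤ_[l]) : ℚ_[l]) • ratHom p l (b i : Lat p l)) =
        ratHom p l ((∑ i, b.repr ⟨v, hv⟩ i • b i : latPull S) : Lat p l) by
          simp only [Submodule.coe_sum, Submodule.coe_smul, map_sum, ratHom_smul],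
        b.sum_repr, ← hcx, smul_smul, inv_mul_cancel₀ hc', one_smul]
    rw [this]
    exact Submodule.smul_mem _ _ (Submodule.sum_mem _ fun i _ =>
      Submodule.smul_mem _ _ (Submodule.subset_span ⟨i, rfl⟩))
  rw [Module.finrank_eq_card_basis (Module.Basis.mk hQ hspan), Fintype.card_fin]

theorem natCard_latImage_latPull (S : Submodule ℚ_[l] (RatLat p l)) (r : ℕ) :
    Nat.card (latImage r (latPull S)) = l ^ (r * Module.finrank ℚ_[l] S) := by
  rw [natCard_latImage (isSaturated_latPull S), finrank_latPull]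

end FermatAgent.Mazur.Descent

end
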